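import Mathlib

set_option autoImplicit false

namespace Fermat.Agent.S22.Alg

/-- The `ℤ`-subalgebra of endomorphisms whose transposes preserve a `ℤ`-lattice `L` of functionals. -/
def dualStabilizer {V : Type*} [AddCommGroup V] [Module ℂ V]
    (L : Submodule ℤ (V →ₗ[ℂ] ℂ)) : Subalgebra ℤ (Module.End ℂ V) where
  carrier := {t | ∀ φ ∈ L, φ ∘ₗ t ∈ L}
  mul_mem' := by
    intro s t hs ht φ hφ
    have h := ht _ (hs φ hφ)
    simpa [LinearMap.comp_assoc, Module.End.mul_eq_comp] using h
  one_mem' := by
    intro φ hφ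
    simpa [Module.End.one_eq_id] using hφ
  add_mem' := by
    intro s t hs ht φ hφ
    have h := L.add_mem (hs φ hφ) (ht φ hφ)
    simpa [LinearMap.comp_add] using h
  zero_mem' := by
    intro φ _
    simp
  algebraMap_mem' := by
    intro n φ hφ
    have h := L.smul_mem n hφ
    have e : φ ∘ₗ (algebraMap ℤ (Module.End ℂ V) n) = n • φ := by
      ext v
      simp
    rw [e]
    exact h

theorem mem_dualStabilizer {V : Type*} [AddCommGroup V] [Module ℂ V]
    (L : Submodule ℤ (V →ₗ[ℂ] ℂ)) (t : Module.End ℂ V) :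
    t ∈ dualStabilizer L ↔ ∀ φ ∈ L, φ ∘ₗ t ∈ L := Iff.rfl

/-- **Abstract finiteness lemma.** If a `ℤ`-lattice `L` of functionals on a complex vector space
`V` is finitely generated, stable under the transposes of a set `G` of endomorphisms and separates
the points of `V`, then the `ℤ`-algebra generated by `G` is a finitely generated `ℤ`-module. -/
theorem finite_adjoin_of_dual_lattice {V : Type*} [AddCommGroup V] [Module ℂ V]
    (G : Set (Module.End ℂ V)) (L : Submodule ℤ (V →ₗ[ℂ] ℂ)) (hfg : L.FG)
    (hstab : ∀ g ∈ G, ∀ φ ∈ L, φ ∘ₗ g ∈ L)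
    (hsep : ∀ v : V, (∀ φ ∈ L, φ v = 0) → v = 0) :
    Module.Finite ℤ (Algebra.adjoin ℤ G) := by
  have hle : Algebra.adjoin ℤ G ≤ dualStabilizer L := Algebra.adjoin_le hstab
  have hfin : Module.Finite ℤ L := Module.Finite.iff_fg.mpr hfg
  have : IsAddTorsionFree (V →ₗ[ℂ] ℂ) := .of_isTorsionFree ℂ _
  have : Module.Free ℤ L := Module.free_of_finite_type_torsion_free'
  -- the transpose action on `L`
  let ρ : (Algebra.adjoin ℤ G) →ₗ[ℤ] (L →ₗ[ℤ] L) :=
    { toFun := fun t =>
        { toFun := fun φ => ⟨(φ : V →ₗ[ℂ] ℂ) ∘ₗ (t : Module.End ℂ V), hle t.2 φ φ.2⟩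
          map_add' := by
            intro φ ψ
            apply Subtype.ext
            simp [LinearMap.add_comp]
          map_smul' := by
            intro n φ
            apply Subtype.ext
            ext v
            simp }
      map_add' := by
        intro s t
        ext φ v
        simp
      map_smul' := by
        intro n t
        ext φ v
        simp }
  have hρ : Function.Injective ρ := by
    rw [← LinearMap.ker_eq_bot, LinearMap.ker_eq_bot']
    intro t ht
    apply Subtype.ext
    ext v
    apply hsep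
    intro φ hφ
    have h := congrArg (fun (M : L →ₗ[ℤ] L) => ((M ⟨φ, hφ⟩ : L) : V →ₗ[ℂ] ℂ) v) ht
    simpa [ρ] using h
  exact Module.Finite.of_injective ρ hρ

end Fermat.Agent.S22.Alg
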