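import Mathlib

set_option autoImplicit false

open UpperHalfPlane hiding I
open Real Complex Derivative
open scoped Manifold MatrixGroups ModularForm Topology

namespace Fermat.Agent.S22.Bol

/-- Iterates of the normalized derivative preserve holomorphy. -/
theorem iterate_D_mdifferentiable (n : ℕ) {F : ℍ → ℂ} (hF : MDiff F) : MDiff (D^[n] F) := by
  induction n generalizing F with
  | zero => simpa using hF
  | succ n ih =>
    rw [Function.iterate_succ_apply]
    exact ih (normalizedDerivOfComplex_mdifferentiable hF)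

/-- `D` of the automorphy factor `z ↦ c z + d` is the constant `(2πi)⁻¹ c`. -/
theorem D_denom (g : GL (Fin 2) ℝ) :
    D (fun τ : ℍ ↦ denom g τ) = fun _ ↦ (2 * π * I)⁻¹ * (g 1 0 : ℂ) := by
  funext z
  have h := hasDerivAt_denom_zpow g 1 z
  simp only [zpow_one, Int.cast_one, one_mul, sub_self, zpow_zero, mul_one] at h
  have hev : ((fun τ : ℍ ↦ denom g τ) ∘ ofComplex) =ᶠ[𝓝 (z : ℂ)] fun w ↦ denom g w := by
    filter_upwards [isOpen_upperHalfPlaneSet.mem_nhds z.im_pos] with w hw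
    simp [Function.comp_apply, ofComplex_apply_of_im_pos hw]
  simp only [normalizedDerivOfComplex]
  rw [(h.congr_of_eventuallyEq hev).deriv]

/-- `D^[m]` commutes with scalar multiplication. -/
theorem iterate_D_smul (m : ℕ) (c : ℂ) {F : ℍ → ℂ} (hF : MDiff F) :
    D^[m] (c • F) = c • D^[m] F := by
  induction m generalizing F with
  | zero => rfl
  | succ m ih =>
    rw [Function.iterate_succ_apply, Function.iterate_succ_apply,
      normalizedDerivOfComplex_smul c F hF, ih (normalizedDerivOfComplex_mdifferentiable hF)]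

/-- Leibniz rule for multiplication by the automorphy factor (which has constant derivative). -/
theorem iterate_D_denom_mul (g : GL (Fin 2) ℝ) (m : ℕ) {H : ℍ → ℂ} (hH : MDiff H) :
    D^[m + 1] ((fun τ : ℍ ↦ denom g τ) * H) =
      (fun τ : ℍ ↦ denom g τ) * D^[m + 1] H +
        (((m : ℂ) + 1) * ((2 * π * I)⁻¹ * (g 1 0 : ℂ))) • D^[m] H := by
  induction m with
  | zero =>
    simp only [zero_add, Function.iterate_one, Function.iterate_zero, id_eq, Nat.cast_zero]
    rw [normalizedDerivOfComplex_mul _ _ (mdifferentiable_denom g) hH, D_denom, add_comm]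
    congr 1
    funext z
    simp [Pi.mul_apply, Pi.smul_apply]
  | succ m ih =>
    have h1 : MDiff (D^[m + 1] H) := iterate_D_mdifferentiable _ hH
    have h2 : MDiff (D^[m] H) := iterate_D_mdifferentiable _ hH
    rw [Function.iterate_succ_apply' (f := D) (n := m + 1), ih,
      normalizedDerivOfComplex_add _ _ ((mdifferentiable_denom g).mul h1) (h2.const_smul _),
      normalizedDerivOfComplex_mul _ _ (mdifferentiable_denom g) h1,
      normalizedDerivOfComplex_smul _ _ h2, D_denom,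
      ← Function.iterate_succ_apply' (f := D) (n := m + 1),
      ← Function.iterate_succ_apply' (f := D) (n := m)]
    funext z
    simp only [Pi.add_apply, Pi.mul_apply, Pi.smul_apply, smul_eq_mul, Nat.cast_add, Nat.cast_one]
    ring

/-- Lowering the weight by one multiplies by `det⁻¹ * (c z + d)`. -/
theorem slash_pred_eq (k : ℤ) (F : ℍ → ℂ) {g : GL (Fin 2) ℝ} (hg : 0 < g.val.det) :
    F ∣[k - 1] g = ((g.val.det : ℂ)⁻¹) • ((fun τ : ℍ ↦ denom g τ) * (F ∣[k] g)) := by
  have hdet : g.det.val = g.val.det := Matrix.GeneralLinearGroup.val_det_apply g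
  have hdetℂ : (g.val.det : ℂ) ≠ 0 := Complex.ofReal_ne_zero.mpr hg.ne'
  funext z
  have hz := denom_ne_zero g z
  simp only [ModularForm.slash_apply, Pi.smul_apply, Pi.mul_apply, smul_eq_mul, hdet,
    abs_of_pos hg]
  rw [show k - 1 - 1 = (k - 1) - 1 by ring, zpow_sub_one₀ hdetℂ (k - 1),
    show -(k - 1) = -k + 1 by ring, zpow_add_one₀ hz]
  field_simp

/-- **Bol's identity** for `GL₂(ℝ)⁺`: `D^n (F ∣[1-n] g) = det(g)^(-n) (D^n F) ∣[1+n] g`. -/
theorem bol_GL (n : ℕ) {F : ℍ → ℂ} (hF : MDiff F) {g : GL (Fin 2) ℝ} (hg : 0 < g.val.det) :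
    D^[n] (F ∣[(1 - (n : ℤ))] g) =
      (((g.val.det : ℂ)⁻¹) ^ n) • ((D^[n] F) ∣[(1 + (n : ℤ))] g) := by
  have hdetℂ : (g.val.det : ℂ) ≠ 0 := Complex.ofReal_ne_zero.mpr hg.ne'
  induction n with
  | zero => simp
  | succ n ih =>
    have hDnF : MDiff (D^[n] F) := iterate_D_mdifferentiable n hF
    have hH : MDiff (F ∣[(1 - (n : ℤ))] g) := hF.slash _ g
    have hS : MDiff ((D^[n] F) ∣[(1 + (n : ℤ))] g) := hDnF.slash _ g
    -- rewrite the weight `1 - (n+1)` slash through the weight `1 - n` slash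
    have e1 : F ∣[(1 - ((n + 1 : ℕ) : ℤ))] g =
        ((g.val.det : ℂ)⁻¹) • ((fun τ : ℍ ↦ denom g τ) * (F ∣[(1 - (n : ℤ))] g)) := by
      have := slash_pred_eq (1 - (n : ℤ)) F hg
      rw [← this]; congr 1; push_cast; ring
    -- and the weight `n + 2` slash through the weight `n + 3` slash
    have e2 : (D^[n + 1] F) ∣[(1 + ((n + 1 : ℕ) : ℤ))] g =
        ((g.val.det : ℂ)⁻¹) • ((fun τ : ℍ ↦ denom g τ) *
          ((D^[n + 1] F) ∣[(1 + (n : ℤ) + 2)] g)) := by
      have := slash_pred_eq (1 + (n : ℤ) + 2) (D^[n + 1] F) hg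
      rw [← this]; congr 1; push_cast; ring
    -- derivative of the induction hypothesis
    have e3 : D^[n + 1] (F ∣[(1 - (n : ℤ))] g) =
        (((g.val.det : ℂ)⁻¹) ^ n) • D ((D^[n] F) ∣[(1 + (n : ℤ))] g) := by
      rw [Function.iterate_succ_apply' (f := D), ih, normalizedDerivOfComplex_smul _ _ hS]
    have e4 := normalizedDerivOfComplex_slash (k := 1 + (n : ℤ)) hDnF hg
    rw [e1, iterate_D_smul _ _ ((mdifferentiable_denom g).mul hH), iterate_D_denom_mul g n hH,
      e3, ih, e4, e2, ← Function.iterate_succ_apply' (f := D) (n := n)]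
    funext z
    have hz := denom_ne_zero g z
    simp only [Pi.add_apply, Pi.mul_apply, Pi.smul_apply, smul_eq_mul, Int.cast_add,
      Int.cast_one, Int.cast_natCast, inv_pow]
    field_simp
    ring

/-- **Bol's identity** for `SL₂(ℤ)`: `D^n (F ∣[1-n] γ) = (D^n F) ∣[1+n] γ`. -/
theorem bol_SL (n : ℕ) {F : ℍ → ℂ} (hF : MDiff F) (γ : SL(2, ℤ)) :
    D^[n] (F ∣[(1 - (n : ℤ))] γ) = (D^[n] F) ∣[(1 + (n : ℤ))] γ := by
  have hdet : (γ : GL (Fin 2) ℝ).val.det = 1 := by
    rw [← Matrix.GeneralLinearGroup.val_det_apply]; simp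
  have := bol_GL n hF (g := (γ : GL (Fin 2) ℝ)) (by rw [hdet]; exact one_pos)
  rw [hdet] at this
  simpa [ModularForm.SL_slash] using this

/-! ### Functions on `ℍ` killed by a power of `D` are polynomials -/

/-- `D^[m]` is additive on holomorphic functions. -/
theorem iterate_D_add (m : ℕ) {F G : ℍ → ℂ} (hF : MDiff F) (hG : MDiff G) :
    D^[m] (F + G) = D^[m] F + D^[m] G := by
  induction m generalizing F G with
  | zero => rfl
  | succ m ih =>
    rw [Function.iterate_succ_apply, Function.iterate_succ_apply, Function.iterate_succ_apply,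
      normalizedDerivOfComplex_add F G hF hG,
      ih (normalizedDerivOfComplex_mdifferentiable hF) (normalizedDerivOfComplex_mdifferentiable hG)]

/-- `D^[m]` commutes with subtraction on holomorphic functions. -/
theorem iterate_D_sub (m : ℕ) {F G : ℍ → ℂ} (hF : MDiff F) (hG : MDiff G) :
    D^[m] (F - G) = D^[m] F - D^[m] G := by
  induction m generalizing F G with
  | zero => rfl
  | succ m ih =>
    rw [Function.iterate_succ_apply, Function.iterate_succ_apply, Function.iterate_succ_apply,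
      normalizedDerivOfComplex_sub F G hF hG,
      ih (normalizedDerivOfComplex_mdifferentiable hF) (normalizedDerivOfComplex_mdifferentiable hG)]

/-- `D` of the coordinate function. -/
theorem D_coe : D (fun τ : ℍ ↦ (τ : ℂ)) = fun _ ↦ (2 * π * I)⁻¹ := by
  funext z
  have hev : ((fun τ : ℍ ↦ (τ : ℂ)) ∘ ofComplex) =ᶠ[𝓝 (z : ℂ)] fun w ↦ w := by
    filter_upwards [isOpen_upperHalfPlaneSet.mem_nhds z.im_pos] with w hw
    simp [Function.comp_apply, ofComplex_apply_of_im_pos hw]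
  simp only [normalizedDerivOfComplex]
  rw [((hasDerivAt_id (z : ℂ)).congr_of_eventuallyEq hev).deriv, mul_one]

/-- The coordinate function is holomorphic. -/
theorem mdifferentiable_coe' : MDiff (fun τ : ℍ ↦ (τ : ℂ)) := mdifferentiable_coe

/-- Powers of the coordinate function are holomorphic. -/
theorem mdifferentiable_coe_pow (n : ℕ) : MDiff (fun τ : ℍ ↦ (τ : ℂ) ^ n) :=
  mdifferentiable_coe'.pow n

/-- `D (z ^ (n+1)) = (n+1) (2πi)⁻¹ z ^ n`. -/
theorem D_coe_pow_succ (n : ℕ) :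
    D (fun τ : ℍ ↦ (τ : ℂ) ^ (n + 1)) =
      (((n : ℂ) + 1) * (2 * π * I)⁻¹) • (fun τ : ℍ ↦ (τ : ℂ) ^ n) := by
  have h := normalizedDerivOfComplex_pow (fun τ : ℍ ↦ (τ : ℂ)) (n + 1) mdifferentiable_coe'
  rw [D_coe] at h
  have e : (fun τ : ℍ ↦ (τ : ℂ) ^ (n + 1)) = (fun τ : ℍ ↦ (τ : ℂ)) ^ (n + 1) := rfl
  rw [e, h]
  funext z
  have hc : ((n + 1 : ℕ) : ℍ → ℂ) z = (n : ℂ) + 1 := by simp
  simp only [Pi.mul_apply, Pi.pow_apply, Pi.smul_apply, smul_eq_mul, Nat.add_sub_cancel, hc]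
  ring

/-- `D^n (z^n) = n! (2πi)⁻ⁿ`. -/
theorem iterate_D_coe_pow (n : ℕ) :
    D^[n] (fun τ : ℍ ↦ (τ : ℂ) ^ n) = fun _ ↦ (n.factorial : ℂ) * ((2 * π * I)⁻¹) ^ n := by
  induction n with
  | zero => funext z; simp
  | succ n ih =>
    rw [Function.iterate_succ_apply, D_coe_pow_succ,
      iterate_D_smul _ _ (mdifferentiable_coe_pow n), ih]
    funext z
    simp only [Pi.smul_apply, smul_eq_mul, Nat.factorial_succ, Nat.cast_mul, Nat.cast_add,
      Nat.cast_one]
    ring

/-- A holomorphic function on `ℍ` with `D F = 0` is constant. -/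
theorem exists_const_of_D_eq_zero {F : ℍ → ℂ} (hF : MDiff F) (h : D F = 0) :
    ∃ c : ℂ, ∀ z : ℍ, F z = c := by
  have hd : DifferentiableOn ℂ (F ∘ ofComplex) upperHalfPlaneSet :=
    UpperHalfPlane.mdifferentiable_iff.mp hF
  have h2pi : (2 * π * I : ℂ) ≠ 0 := by
    simp [Real.pi_ne_zero, Complex.I_ne_zero]
  have hderiv : upperHalfPlaneSet.EqOn (deriv (F ∘ ofComplex)) 0 := by
    intro w hw
    have := congrFun h ⟨w, hw⟩
    simp only [normalizedDerivOfComplex, Pi.zero_apply] at this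
    have h0 := (mul_eq_zero.mp this).resolve_left (inv_ne_zero h2pi)
    simpa using h0
  obtain ⟨a, ha⟩ := isOpen_upperHalfPlaneSet.exists_is_const_of_deriv_eq_zero
    (Convex.isPreconnected (convex_halfSpace_im_gt 0)) hd hderiv
  refine ⟨a, fun z ↦ ?_⟩
  have := ha (z : ℂ) z.im_pos
  simpa [Function.comp_apply] using this

/-- A holomorphic function on `ℍ` killed by `D^n` agrees with a polynomial of degree `< n`. -/
theorem exists_polynomial_of_iterate_D_eq_zero (n : ℕ) {G : ℍ → ℂ} (hG : MDiff G)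
    (h : D^[n] G = 0) :
    ∃ p : Polynomial ℂ, p.degree < n ∧ ∀ z : ℍ, G z = p.eval (z : ℂ) := by
  induction n generalizing G with
  | zero =>
    refine ⟨0, by simp, fun z ↦ ?_⟩
    have := congrFun h z
    simpa using this
  | succ n ih =>
    have h2pi : (2 * π * I : ℂ) ≠ 0 := by
      simp [Real.pi_ne_zero, Complex.I_ne_zero]
    have hDn : MDiff (D^[n] G) := iterate_D_mdifferentiable n hG
    rw [Function.iterate_succ_apply'] at h
    obtain ⟨c, hc⟩ := exists_const_of_D_eq_zero hDn h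
    -- subtract the top monomial
    set a : ℂ := c * (2 * π * I) ^ n / (n.factorial : ℂ) with ha
    have hfac : (n.factorial : ℂ) ≠ 0 := by exact_mod_cast n.factorial_ne_zero
    have hG' : MDiff (G - a • fun τ : ℍ ↦ (τ : ℂ) ^ n) :=
      hG.sub ((mdifferentiable_coe_pow n).const_smul a)
    have hzero : D^[n] (G - a • fun τ : ℍ ↦ (τ : ℂ) ^ n) = 0 := by
      rw [iterate_D_sub n hG ((mdifferentiable_coe_pow n).const_smul a),
        iterate_D_smul n a (mdifferentiable_coe_pow n), iterate_D_coe_pow]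
      funext z
      simp only [Pi.sub_apply, Pi.smul_apply, smul_eq_mul, Pi.zero_apply, hc z, ha, inv_pow]
      field_simp
      ring
    obtain ⟨p, hp, hpz⟩ := ih hG' hzero
    refine ⟨p + Polynomial.C a * Polynomial.X ^ n, ?_, fun z ↦ ?_⟩
    · refine lt_of_le_of_lt (Polynomial.degree_add_le _ _) (max_lt ?_ ?_)
      · exact lt_trans hp (by exact_mod_cast Nat.lt_succ_self n)
      · exact lt_of_le_of_lt (Polynomial.degree_C_mul_X_pow_le n a)
          (by exact_mod_cast Nat.lt_succ_self n)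
    · have := hpz z
      simp only [Pi.sub_apply, Pi.smul_apply, smul_eq_mul] at this
      simp only [Polynomial.eval_add, Polynomial.eval_mul, Polynomial.eval_C, Polynomial.eval_pow,
        Polynomial.eval_X]
      rw [← this]; ring

/-- The "period polynomial": if `D^n F` is invariant under `γ` in weight `n + 1`, then
`F ∣[1 - n] γ - F` is a polynomial of degree `< n` (for `γ ∈ SL₂(ℤ)`). -/
theorem exists_polynomial_slash_sub_SL (n : ℕ) {F : ℍ → ℂ} (hF : MDiff F) (γ : SL(2, ℤ))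
    (h : (D^[n] F) ∣[(1 + (n : ℤ))] γ = D^[n] F) :
    ∃ p : Polynomial ℂ, p.degree < n ∧
      ∀ z : ℍ, (F ∣[(1 - (n : ℤ))] γ) z - F z = p.eval (z : ℂ) := by
  have hS : MDiff (F ∣[(1 - (n : ℤ))] γ) := by
    rw [ModularForm.SL_slash]; exact hF.slash _ _
  have hz : D^[n] (F ∣[(1 - (n : ℤ))] γ - F) = 0 := by
    rw [iterate_D_sub n hS hF, bol_SL n hF γ, h, sub_self]
  obtain ⟨p, hp, hpz⟩ := exists_polynomial_of_iterate_D_eq_zero n (hS.sub hF) hz
  exact ⟨p, hp, fun z ↦ by simpa using hpz z⟩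

/-! ### Further linearity lemmas for `D^[m]` -/

/-- `D^[m] 0 = 0`. -/
theorem iterate_D_zero (m : ℕ) : D^[m] (0 : ℍ → ℂ) = 0 := by
  induction m with
  | zero => rfl
  | succ m ih =>
    have h0 : D (0 : ℍ → ℂ) = 0 := normalizedDerivOfComplex_const 0
    rw [Function.iterate_succ_apply, h0, ih]

/-- `D^[m]` commutes with negation on holomorphic functions. -/
theorem iterate_D_neg (m : ℕ) {F : ℍ → ℂ} (hF : MDiff F) : D^[m] (-F) = -D^[m] F := by
  have h : -F = (-1 : ℂ) • F := by funext z; simp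
  rw [h, iterate_D_smul m (-1) hF]
  funext z; simp

/-- A finite sum of holomorphic functions on `ℍ` is holomorphic. -/
theorem mdifferentiable_finset_sum {ι : Type*} (s : Finset ι) {F : ι → ℍ → ℂ}
    (hF : ∀ i ∈ s, MDiff (F i)) : MDiff (∑ i ∈ s, F i) := by
  classical
  induction s using Finset.induction_on with
  | empty =>
    rw [Finset.sum_empty]
    exact (mdifferentiable_const : MDiff (fun _ : ℍ ↦ (0 : ℂ)))
  | insert a s ha ih =>
    rw [Finset.sum_insert ha]
    exact (hF a (Finset.mem_insert_self a s)).add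
      (ih fun i hi ↦ hF i (Finset.mem_insert_of_mem hi))

/-- `D^[m]` commutes with finite sums of holomorphic functions. -/
theorem iterate_D_sum {ι : Type*} (s : Finset ι) (m : ℕ) {F : ι → ℍ → ℂ}
    (hF : ∀ i ∈ s, MDiff (F i)) : D^[m] (∑ i ∈ s, F i) = ∑ i ∈ s, D^[m] (F i) := by
  classical
  induction s using Finset.induction_on with
  | empty => simpa using iterate_D_zero m
  | insert a s ha ih =>
    have hs : ∀ i ∈ s, MDiff (F i) := fun i hi ↦ hF i (Finset.mem_insert_of_mem hi)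
    rw [Finset.sum_insert ha, Finset.sum_insert ha,
      iterate_D_add m (hF a (Finset.mem_insert_self a s)) (mdifferentiable_finset_sum s hs),
      ih hs]

/-- Slashing by an element of `SL₂(ℤ)` preserves holomorphy. -/
theorem mdifferentiable_slash_SL {F : ℍ → ℂ} (hF : MDiff F) (k : ℤ) (γ : SL(2, ℤ)) :
    MDiff (F ∣[k] γ) := by
  rw [ModularForm.SL_slash]; exact hF.slash _ _

/-- `D^[m+1] F = D (D^[m] F)`. -/
theorem iterate_D_succ (m : ℕ) (F : ℍ → ℂ) : D^[m + 1] F = D (D^[m] F) :=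
  Function.iterate_succ_apply' D m F

/-- `D^[m+1] F = D^[m] (D F)`. -/
theorem iterate_D_succ' (m : ℕ) (F : ℍ → ℂ) : D^[m + 1] F = D^[m] (D F) :=
  Function.iterate_succ_apply D m F

/-- `D F z = (2πi)⁻¹ * deriv (F ∘ ofComplex) z` (definitional unfolding). -/
theorem D_apply (F : ℍ → ℂ) (z : ℍ) : D F z = (2 * π * I)⁻¹ * deriv (F ∘ ofComplex) z := rfl

/-- The "period polynomial" for `GL₂(ℝ)⁺`: if `det(g)⁻ⁿ • (D^n F) ∣[1+n] g = D^n F`, then
`F ∣[1 - n] g - F` is a polynomial of degree `< n`. -/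
theorem exists_polynomial_slash_sub_GL (n : ℕ) {F : ℍ → ℂ} (hF : MDiff F) {g : GL (Fin 2) ℝ}
    (hg : 0 < g.val.det)
    (h : (((g.val.det : ℂ)⁻¹) ^ n) • ((D^[n] F) ∣[(1 + (n : ℤ))] g) = D^[n] F) :
    ∃ p : Polynomial ℂ, p.degree < n ∧
      ∀ z : ℍ, (F ∣[(1 - (n : ℤ))] g) z - F z = p.eval (z : ℂ) := by
  have hS : MDiff (F ∣[(1 - (n : ℤ))] g) := hF.slash _ _
  have hz : D^[n] (F ∣[(1 - (n : ℤ))] g - F) = 0 := by
    rw [iterate_D_sub n hS hF, bol_GL n hF hg, h, sub_self]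
  obtain ⟨p, hp, hpz⟩ := exists_polynomial_of_iterate_D_eq_zero n (hS.sub hF) hz
  exact ⟨p, hp, fun z ↦ by simpa using hpz z⟩

/-- Variant with `natDegree ≤ m` for a function killed by `D^[m+1]`. -/
theorem exists_polynomial_natDegree_le_of_iterate_D_eq_zero (m : ℕ) {P : ℍ → ℂ} (hP : MDiff P)
    (h : D^[m + 1] P = 0) :
    ∃ p : Polynomial ℂ, p.natDegree ≤ m ∧ ∀ τ : ℍ, P τ = p.eval (τ : ℂ) := by
  obtain ⟨p, hp, hpz⟩ := exists_polynomial_of_iterate_D_eq_zero (m + 1) hP h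
  refine ⟨p, ?_, hpz⟩
  by_cases hp0 : p = 0
  · simp [hp0]
  · have h1 : (p.natDegree : WithBot ℕ) < ((m + 1 : ℕ) : WithBot ℕ) := by
      rw [← Polynomial.degree_eq_natDegree hp0]; exact hp
    have h2 : p.natDegree < m + 1 := by exact_mod_cast h1
    omega

/-- **Bol's identity** in the shape `D^(m+1) (F ∣[-m] g) = det g ^ (-(m+1)) • (D^(m+1) F) ∣[m+2] g`. -/
theorem bol_neg (m : ℕ) {F : ℍ → ℂ} (hF : MDiff F) {g : GL (Fin 2) ℝ} (hg : 0 < g.val.det) :
    D^[m + 1] (F ∣[-(m : ℤ)] g) =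
      fun τ => ((g.val.det : ℂ)⁻¹) ^ (m + 1) * ((D^[m + 1] F) ∣[(m : ℤ) + 2] g) τ := by
  have h := bol_GL (m + 1) hF hg
  have e1 : (1 - ((m + 1 : ℕ) : ℤ)) = -(m : ℤ) := by push_cast; ring
  have e2 : (1 + ((m + 1 : ℕ) : ℤ)) = (m : ℤ) + 2 := by push_cast; ring
  rw [e1, e2] at h
  rw [h]
  funext τ
  simp [Pi.smul_apply, smul_eq_mul]

/-- **Bol's identity** for `SL₂(ℤ)` in the shape `D^(m+1) (F ∣[-m] γ) = (D^(m+1) F) ∣[m+2] γ`. -/
theorem bol_neg_SL (m : ℕ) {F : ℍ → ℂ} (hF : MDiff F) (γ : SL(2, ℤ)) :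
    D^[m + 1] (F ∣[-(m : ℤ)] γ) = (D^[m + 1] F) ∣[(m : ℤ) + 2] γ := by
  have h := bol_SL (m + 1) hF γ
  have e1 : (1 - ((m + 1 : ℕ) : ℤ)) = -(m : ℤ) := by push_cast; ring
  have e2 : (1 + ((m + 1 : ℕ) : ℤ)) = (m : ℤ) + 2 := by push_cast; ring
  rw [e1, e2] at h
  exact h

end Fermat.Agent.S22.Bol

/-! ### The same statements under the names used by the S22 skeleton (`Fermat.Agent.S22`) -/

namespace Fermat.Agent.S22

/-- `D^[n]` preserves holomorphy. -/
theorem mdiff_iterate_D {F : ℍ → ℂ} (hF : MDiff F) (n : ℕ) : MDiff (D^[n] F) :=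
  Bol.iterate_D_mdifferentiable n hF

/-- **Bol's identity**: `D^(m+1) (F ∣[-m] g) = det g ^ (-(m+1)) • (D^(m+1) F) ∣[m+2] g`. -/
theorem bol (m : ℕ) {F : ℍ → ℂ} (hF : MDiff F) {g : GL (Fin 2) ℝ} (hg : 0 < g.val.det) :
    D^[m + 1] (F ∣[-(m : ℤ)] g) =
      fun τ => ((g.val.det : ℂ)⁻¹) ^ (m + 1) * ((D^[m + 1] F) ∣[(m : ℤ) + 2] g) τ :=
  Bol.bol_neg m hF hg

end Fermat.Agent.S22
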