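import Mathlib

/-!
# Algebra of period polynomials (for S22)

* `actPoly w γ j = (aX+b)^j (cX+d)^(w-j) ∈ ℤ[X]` and `polyAct w γ p`, the weight `-w` action of
  `γ ∈ SL(2, ℤ)` on polynomials of degree `≤ w`, with integrality of its matrix;
* `slash_polynomial`: compatibility with the slash action on functions `ℍ → ℂ`;
* `fg_span_of_cocycle`: the `ℤ`-span of the coefficient functionals of a cocycle on a finitely
  generated group (with integral action on coefficients) is finitely generated.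
-/

set_option autoImplicit false

open scoped MatrixGroups ModularForm
open UpperHalfPlane Polynomial

namespace Fermat.Agent.S22

/-- Column `j` of the integer matrix of the weight `-w` action: `(aX+b)^j (cX+d)^(w-j)`. -/
noncomputable def actPoly (w : ℕ) (γ : SL(2, ℤ)) (j : ℕ) : Polynomial ℤ :=
  (C (γ 0 0) * X + C (γ 0 1)) ^ j * (C (γ 1 0) * X + C (γ 1 1)) ^ (w - j)

/-- The weight `-w` action of `γ ∈ SL(2, ℤ)` on (polynomials representing) polynomial functions of
degree `≤ w`: `p ↦ (cX+d)^w p((aX+b)/(cX+d))`. -/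
noncomputable def polyAct (w : ℕ) (γ : SL(2, ℤ)) (p : Polynomial ℂ) : Polynomial ℂ :=
  ∑ j ∈ Finset.range (w + 1), C (p.coeff j) * (actPoly w γ j).map (Int.castRingHom ℂ)

theorem actPoly_natDegree_le (w : ℕ) (γ : SL(2, ℤ)) {j : ℕ} (hj : j ≤ w) :
    (actPoly w γ j).natDegree ≤ w := by
  have h1 : ∀ a b : ℤ, (C a * X + C b : Polynomial ℤ).natDegree ≤ 1 := fun a b =>
    natDegree_linear_le
  unfold actPoly
  calc _ ≤ ((C (γ 0 0) * X + C (γ 0 1) : Polynomial ℤ) ^ j).natDegree +
        ((C (γ 1 0) * X + C (γ 1 1) : Polynomial ℤ) ^ (w - j)).natDegree := natDegree_mul_le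
    _ ≤ j * 1 + (w - j) * 1 := by
        gcongr
        · exact natDegree_pow_le_of_le j (h1 _ _)
        · exact natDegree_pow_le_of_le (w - j) (h1 _ _)
    _ = w := by omega

theorem polyAct_natDegree_le (w : ℕ) (γ : SL(2, ℤ)) (p : Polynomial ℂ) :
    (polyAct w γ p).natDegree ≤ w := by
  unfold polyAct
  refine natDegree_sum_le_of_forall_le _ _ fun j hj => ?_
  have hj' : j ≤ w := Nat.lt_succ_iff.mp (Finset.mem_range.mp hj)
  calc _ ≤ (C (p.coeff j)).natDegree + ((actPoly w γ j).map (Int.castRingHom ℂ)).natDegree :=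
        natDegree_mul_le
    _ ≤ 0 + w := by
        gcongr
        · exact (natDegree_C _).le
        · exact natDegree_map_le.trans (actPoly_natDegree_le w γ hj')
    _ = w := zero_add w

theorem polyAct_degree_lt (w : ℕ) (γ : SL(2, ℤ)) (p : Polynomial ℂ) :
    (polyAct w γ p).degree < ((w + 1 : ℕ) : WithBot ℕ) :=
  lt_of_le_of_lt degree_le_natDegree
    (by exact_mod_cast Nat.lt_succ_of_le (polyAct_natDegree_le w γ p))

theorem polyAct_coeff (w : ℕ) (γ : SL(2, ℤ)) (p : Polynomial ℂ) (i : ℕ) :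
    (polyAct w γ p).coeff i =
      ∑ j ∈ Finset.range (w + 1), ((actPoly w γ j).coeff i : ℤ) • p.coeff j := by
  unfold polyAct
  rw [finsetSum_coeff]
  refine Finset.sum_congr rfl fun j _ => ?_
  rw [coeff_C_mul, coeff_map, zsmul_eq_mul, mul_comm]
  rfl

theorem polyAct_add (w : ℕ) (γ : SL(2, ℤ)) (p q : Polynomial ℂ) :
    polyAct w γ (p + q) = polyAct w γ p + polyAct w γ q := by
  unfold polyAct
  rw [← Finset.sum_add_distrib]
  refine Finset.sum_congr rfl fun j _ => ?_
  rw [coeff_add, C_add, add_mul]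

theorem polyAct_smul (w : ℕ) (γ : SL(2, ℤ)) (a : ℂ) (p : Polynomial ℂ) :
    polyAct w γ (a • p) = a • polyAct w γ p := by
  unfold polyAct
  rw [Finset.smul_sum]
  refine Finset.sum_congr rfl fun j _ => ?_
  rw [coeff_smul, smul_eq_mul, C_mul, mul_assoc, ← smul_eq_C_mul]

theorem eval_actPoly (w : ℕ) (γ : SL(2, ℤ)) (j : ℕ) (x : ℂ) :
    ((actPoly w γ j).map (Int.castRingHom ℂ)).eval x =
      ((γ 0 0 : ℂ) * x + (γ 0 1 : ℂ)) ^ j * ((γ 1 0 : ℂ) * x + (γ 1 1 : ℂ)) ^ (w - j) := by
  simp [actPoly]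

/-- Compatibility of `polyAct` with the weight `-w` slash action on polynomial functions. -/
theorem slash_polynomial (w : ℕ) (γ : SL(2, ℤ)) (p : Polynomial ℂ)
    (hp : p.degree < ((w + 1 : ℕ) : WithBot ℕ)) (z : ℍ) :
    ((fun z : ℍ => p.eval (z : ℂ)) ∣[-(w : ℤ)] γ) z = (polyAct w γ p).eval (z : ℂ) := by
  have hnd : p.natDegree < w + 1 := by
    rcases eq_or_ne p 0 with rfl | hp0
    · simp
    · exact (natDegree_lt_iff_degree_lt hp0).mpr hp
  have hden : ((γ 1 0 : ℂ) * (z : ℂ) + (γ 1 1 : ℂ)) ≠ 0 := by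
    have := denom_ne_zero γ z
    simpa [denom] using this
  rw [ModularForm.SL_slash_apply, neg_neg, zpow_natCast]
  have hd : denom γ z = (γ 1 0 : ℂ) * (z : ℂ) + (γ 1 1 : ℂ) := by
    simp [denom]
  have hsm : ((γ • z : ℍ) : ℂ) =
      ((γ 0 0 : ℂ) * (z : ℂ) + (γ 0 1 : ℂ)) / ((γ 1 0 : ℂ) * (z : ℂ) + (γ 1 1 : ℂ)) := by
    rw [coe_specialLinearGroup_apply]
    simp
  rw [hd, hsm, eval_eq_sum_range' hnd, Finset.sum_mul]
  unfold polyAct
  rw [eval_finsetSum]
  refine Finset.sum_congr rfl fun j hj => ?_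
  have hj' : j ≤ w := Nat.lt_succ_iff.mp (Finset.mem_range.mp hj)
  rw [eval_mul, eval_C, eval_actPoly, div_pow, mul_assoc]
  congr 1
  rw [div_mul_eq_mul_div, div_eq_iff (pow_ne_zero j hden), mul_assoc, ← pow_add,
    Nat.sub_add_cancel hj']

/-- A polynomial is determined by its values on the upper half plane. -/
theorem polynomial_eq_of_eval_upperHalfPlane (p q : Polynomial ℂ)
    (h : ∀ z : ℍ, p.eval (z : ℂ) = q.eval (z : ℂ)) : p = q := by
  refine eq_of_infinite_eval_eq p q ?_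
  have hinj : Function.Injective (fun n : ℕ => ((n : ℂ) + 1) * Complex.I) := by
    intro m n hmn
    have := mul_right_cancel₀ Complex.I_ne_zero hmn
    exact_mod_cast add_right_cancel this
  refine Set.infinite_of_injective_forall_mem hinj fun n => ?_
  have him : 0 < (((n : ℂ) + 1) * Complex.I).im := by
    simp
    positivity
  exact h ⟨_, him⟩

/-- **Finite generation of the period lattice.**  If `c : Γ → ι → V^*` satisfies a cocycle rule
with integral coefficients and `Γ` is a finitely generated group, then the `ℤ`-span of all the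
functionals `c γ i` is a finitely generated `ℤ`-module. -/
theorem fg_span_of_cocycle {V : Type*} [AddCommGroup V] [Module ℂ V] {Γ : Type*} [Group Γ]
    (hΓ : Group.FG Γ) {ι : Type*} [Fintype ι]
    (ρ : Γ → Matrix ι ι ℤ) (c : Γ → ι → (V →ₗ[ℂ] ℂ))
    (hc : ∀ γ γ' i, c (γ * γ') i = ∑ j, ρ γ' i j • c γ j + c γ' i) :
    (Submodule.span ℤ {φ : V →ₗ[ℂ] ℂ | ∃ γ i, φ = c γ i}).FG := by
  classical
  obtain ⟨S, hS, hSfin⟩ := Group.fg_iff.mp hΓ
  set gens : Set (V →ₗ[ℂ] ℂ) := (fun x : Γ × ι => c x.1 x.2) '' ((insert 1 S) ×ˢ Set.univ)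
    with hgens
  have hgfin : gens.Finite := ((hSfin.insert 1).prod Set.finite_univ).image _
  have key : ∀ γ : Γ, ∀ i, c γ i ∈ Submodule.span ℤ gens := by
    intro γ
    have hγ : γ ∈ Subgroup.closure S := by rw [hS]; trivial
    induction hγ using Subgroup.closure_induction with
    | mem x hx =>
      intro i
      exact Submodule.subset_span ⟨(x, i), ⟨Set.mem_insert_of_mem _ hx, Set.mem_univ _⟩, rfl⟩
    | one =>
      intro i
      exact Submodule.subset_span ⟨(1, i), ⟨Set.mem_insert _ _, Set.mem_univ _⟩, rfl⟩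
    | mul x y _ _ hx hy =>
      intro i
      rw [hc x y i]
      exact Submodule.add_mem _
        (Submodule.sum_mem _ fun j _ => Submodule.smul_mem _ _ (hx j)) (hy i)
    | inv x _ hx =>
      intro i
      have h1 : c 1 i ∈ Submodule.span ℤ gens :=
        Submodule.subset_span ⟨(1, i), ⟨Set.mem_insert _ _, Set.mem_univ _⟩, rfl⟩
      have h2 := hc x x⁻¹ i
      rw [mul_inv_cancel] at h2
      have h3 : c x⁻¹ i = c 1 i - ∑ j, ρ x⁻¹ i j • c x j := by
        rw [h2]; abel
      rw [h3]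
      exact Submodule.sub_mem _ h1
        (Submodule.sum_mem _ fun j _ => Submodule.smul_mem _ _ (hx j))
  have heq : Submodule.span ℤ {φ : V →ₗ[ℂ] ℂ | ∃ γ i, φ = c γ i} = Submodule.span ℤ gens := by
    apply le_antisymm
    · rw [Submodule.span_le]
      rintro φ ⟨γ, i, rfl⟩
      exact key γ i
    · apply Submodule.span_mono
      rintro φ ⟨⟨γ, i⟩, -, rfl⟩
      exact ⟨γ, i, rfl⟩
  rw [heq]
  exact Submodule.fg_span hgfin

end Fermat.Agent.S22
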