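import Mathlib
import Fermat.Prelude.Def_ModularForm_HeckeOperator
import Fermat.Agent.S22.Bol

/-!
# Eichler integrals and Hecke operators (S22, leaf H1)

If `F` is holomorphic on `ℍ` and zero at `i∞`, then
`G := p^(w+1) • heckeT (-w) p F` is holomorphic, zero at `i∞`, and
`D^[w+1] G = heckeT (w+2) p (D^[w+1] F)` (Bol's identity for the Hecke matrices, whose
determinant is `p`).  Same for `heckeU`.
-/

set_option autoImplicit false

open UpperHalfPlane hiding I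
open Real Complex Derivative ModularForm
open scoped Manifold MatrixGroups ModularForm Topology

namespace Fermat.Agent.S22.EichlerHecke

/-- The matrix determinant of `heckeMatrix p j` is `p`. -/
theorem val_det_heckeMatrix {p : ℕ} (hp : p ≠ 0) (j : ℕ) :
    (heckeMatrix p j).val.det = (p : ℝ) := by
  rw [← Matrix.GeneralLinearGroup.val_det_apply]; exact det_heckeMatrix hp j

/-- The matrix determinant of `heckeDiagMatrix p` is `p`. -/
theorem val_det_heckeDiagMatrix {p : ℕ} (hp : p ≠ 0) :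
    (heckeDiagMatrix p).val.det = (p : ℝ) := by
  rw [← Matrix.GeneralLinearGroup.val_det_apply]; exact det_heckeDiagMatrix hp

theorem val_det_heckeMatrix_pos (p j : ℕ) : 0 < (heckeMatrix p j).val.det := by
  rw [← Matrix.GeneralLinearGroup.val_det_apply]; exact det_heckeMatrix_pos p j

theorem val_det_heckeDiagMatrix_pos (p : ℕ) : 0 < (heckeDiagMatrix p).val.det := by
  rw [← Matrix.GeneralLinearGroup.val_det_apply]; exact det_heckeDiagMatrix_pos p

/-- The lower-left entry of `heckeMatrix p j` vanishes. -/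
theorem heckeMatrix_one_zero (p j : ℕ) : (heckeMatrix p j) 1 0 = 0 := by
  rcases eq_or_ne p 0 with rfl | hp
  · simp
  · have h := val_heckeMatrix hp j
    have : (heckeMatrix p j).val 1 0 = 0 := by rw [h]; simp
    exact this

/-- The lower-left entry of `heckeDiagMatrix p` vanishes. -/
theorem heckeDiagMatrix_one_zero (p : ℕ) : (heckeDiagMatrix p) 1 0 = 0 := by
  rcases eq_or_ne p 0 with rfl | hp
  · simp
  · have h := val_heckeDiagMatrix hp
    have : (heckeDiagMatrix p).val 1 0 = 0 := by rw [h]; simp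
    exact this

/-- Slashing by `heckeMatrix` preserves vanishing at `i∞`. -/
theorem isZeroAtImInfty_slash_heckeMatrix (k : ℤ) (p j : ℕ) {F : ℍ → ℂ}
    (hz : IsZeroAtImInfty F) : IsZeroAtImInfty (F ∣[k] heckeMatrix p j) :=
  hz.slash k (heckeMatrix_one_zero p j)

/-- Slashing by `heckeDiagMatrix` preserves vanishing at `i∞`. -/
theorem isZeroAtImInfty_slash_heckeDiagMatrix (k : ℤ) (p : ℕ) {F : ℍ → ℂ}
    (hz : IsZeroAtImInfty F) : IsZeroAtImInfty (F ∣[k] heckeDiagMatrix p) :=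
  hz.slash k (heckeDiagMatrix_one_zero p)

/-- A finite sum of functions vanishing at `i∞` vanishes at `i∞`. -/
theorem isZeroAtImInfty_finset_sum {ι : Type*} (s : Finset ι) {F : ι → ℍ → ℂ}
    (hF : ∀ i ∈ s, IsZeroAtImInfty (F i)) : IsZeroAtImInfty (∑ i ∈ s, F i) :=
  (zeroAtImInftySubmodule ℂ).sum_mem hF

theorem isZeroAtImInfty_add {F G : ℍ → ℂ} (hF : IsZeroAtImInfty F) (hG : IsZeroAtImInfty G) :
    IsZeroAtImInfty (F + G) :=
  (zeroAtImInftySubmodule ℂ).add_mem hF hG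

theorem isZeroAtImInfty_smul (c : ℂ) {F : ℍ → ℂ} (hF : IsZeroAtImInfty F) :
    IsZeroAtImInfty (c • F) :=
  (zeroAtImInftySubmodule ℂ).smul_mem c hF

/-- Holomorphy of a scalar multiple. -/
theorem mdifferentiable_smul (c : ℂ) {F : ℍ → ℂ} (hF : MDiff F) : MDiff (c • F) := by
  have h : c • F = (fun _ : ℍ ↦ c) * F := by funext z; simp
  rw [h]
  exact (mdifferentiable_const : MDiff (fun _ : ℍ ↦ c)).mul hF

/-- `heckeU` preserves holomorphy. -/
theorem mdifferentiable_heckeU (k : ℤ) (p : ℕ) {F : ℍ → ℂ} (hF : MDiff F) :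
    MDiff (heckeU k p F) := by
  rw [heckeU_def]
  exact Bol.mdifferentiable_finset_sum _ fun j _ ↦ hF.slash k _

/-- `heckeT` preserves holomorphy. -/
theorem mdifferentiable_heckeT (k : ℤ) (p : ℕ) {F : ℍ → ℂ} (hF : MDiff F) :
    MDiff (heckeT k p F) := by
  rw [heckeT_eq_heckeU_add]
  exact (mdifferentiable_heckeU k p hF).add (hF.slash k _)

/-- `heckeU` preserves vanishing at `i∞`. -/
theorem isZeroAtImInfty_heckeU (k : ℤ) (p : ℕ) {F : ℍ → ℂ} (hz : IsZeroAtImInfty F) :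
    IsZeroAtImInfty (heckeU k p F) := by
  rw [heckeU_def]
  exact isZeroAtImInfty_finset_sum _ fun j _ ↦ isZeroAtImInfty_slash_heckeMatrix k p j hz

/-- `heckeT` preserves vanishing at `i∞`. -/
theorem isZeroAtImInfty_heckeT (k : ℤ) (p : ℕ) {F : ℍ → ℂ} (hz : IsZeroAtImInfty F) :
    IsZeroAtImInfty (heckeT k p F) := by
  rw [heckeT_eq_heckeU_add]
  exact isZeroAtImInfty_add (isZeroAtImInfty_heckeU k p hz)
    (isZeroAtImInfty_slash_heckeDiagMatrix k p hz)

/-- Bol's identity for `heckeMatrix`. -/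
theorem bol_heckeMatrix (w : ℕ) {p : ℕ} (hp : p ≠ 0) (j : ℕ) {F : ℍ → ℂ} (hF : MDiff F) :
    D^[w + 1] ((p : ℂ) ^ (w + 1) • (F ∣[-(w : ℤ)] heckeMatrix p j)) =
      (D^[w + 1] F) ∣[(w : ℤ) + 2] heckeMatrix p j := by
  have hp' : (p : ℂ) ≠ 0 := by exact_mod_cast hp
  rw [Bol.iterate_D_smul _ _ (hF.slash _ _), Bol.bol_neg w hF (val_det_heckeMatrix_pos p j),
    val_det_heckeMatrix hp j]
  funext τ
  simp only [Pi.smul_apply, smul_eq_mul, Complex.ofReal_natCast]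
  rw [← mul_assoc, ← mul_pow, mul_inv_cancel₀ hp', one_pow, one_mul]

/-- Bol's identity for `heckeDiagMatrix`. -/
theorem bol_heckeDiagMatrix (w : ℕ) {p : ℕ} (hp : p ≠ 0) {F : ℍ → ℂ} (hF : MDiff F) :
    D^[w + 1] ((p : ℂ) ^ (w + 1) • (F ∣[-(w : ℤ)] heckeDiagMatrix p)) =
      (D^[w + 1] F) ∣[(w : ℤ) + 2] heckeDiagMatrix p := by
  have hp' : (p : ℂ) ≠ 0 := by exact_mod_cast hp
  rw [Bol.iterate_D_smul _ _ (hF.slash _ _), Bol.bol_neg w hF (val_det_heckeDiagMatrix_pos p),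
    val_det_heckeDiagMatrix hp]
  funext τ
  simp only [Pi.smul_apply, smul_eq_mul, Complex.ofReal_natCast]
  rw [← mul_assoc, ← mul_pow, mul_inv_cancel₀ hp', one_pow, one_mul]

/-- `D^[w+1]` intertwines `p^(w+1) • U_p` in weight `-w` with `U_p` in weight `w+2`. -/
theorem iterate_D_heckeU (w : ℕ) {p : ℕ} (hp : p ≠ 0) {F : ℍ → ℂ} (hF : MDiff F) :
    D^[w + 1] ((p : ℂ) ^ (w + 1) • heckeU (-(w : ℤ)) p F) =
      heckeU ((w : ℤ) + 2) p (D^[w + 1] F) := by
  rw [heckeU_def, heckeU_def, Finset.smul_sum,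
    Bol.iterate_D_sum _ _ fun j _ ↦ mdifferentiable_smul _ (hF.slash _ _)]
  exact Finset.sum_congr rfl fun j _ ↦ bol_heckeMatrix w hp j hF

/-- `D^[w+1]` intertwines `p^(w+1) • T_p` in weight `-w` with `T_p` in weight `w+2`. -/
theorem iterate_D_heckeT (w : ℕ) {p : ℕ} (hp : p ≠ 0) {F : ℍ → ℂ} (hF : MDiff F) :
    D^[w + 1] ((p : ℂ) ^ (w + 1) • heckeT (-(w : ℤ)) p F) =
      heckeT ((w : ℤ) + 2) p (D^[w + 1] F) := by
  rw [heckeT_eq_heckeU_add, heckeT_eq_heckeU_add, smul_add,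
    Bol.iterate_D_add _ (mdifferentiable_smul _ (mdifferentiable_heckeU _ _ hF))
      (mdifferentiable_smul _ (hF.slash _ _)),
    iterate_D_heckeU w hp hF, bol_heckeDiagMatrix w hp hF]

/-- **H1 (T-case)**: `p^(w+1) • T_p F` (weight `-w`) is an Eichler integral of `T_p (D^[w+1] F)`
(weight `w+2`). -/
theorem eichler_heckeT (w : ℕ) {p : ℕ} (hp : p ≠ 0) {F : ℍ → ℂ} (hF : MDiff F)
    (hz : IsZeroAtImInfty F) :
    MDiff ((p : ℂ) ^ (w + 1) • ModularForm.heckeT (-(w : ℤ)) p F) ∧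
    D^[w + 1] ((p : ℂ) ^ (w + 1) • ModularForm.heckeT (-(w : ℤ)) p F) =
      ModularForm.heckeT ((w : ℤ) + 2) p (D^[w + 1] F) ∧
    IsZeroAtImInfty ((p : ℂ) ^ (w + 1) • ModularForm.heckeT (-(w : ℤ)) p F) :=
  ⟨mdifferentiable_smul _ (mdifferentiable_heckeT _ _ hF), iterate_D_heckeT w hp hF,
    isZeroAtImInfty_smul _ (isZeroAtImInfty_heckeT _ _ hz)⟩

/-- **H1 (U-case)**: `p^(w+1) • U_p F` (weight `-w`) is an Eichler integral of `U_p (D^[w+1] F)`
(weight `w+2`). -/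
theorem eichler_heckeU (w : ℕ) {p : ℕ} (hp : p ≠ 0) {F : ℍ → ℂ} (hF : MDiff F)
    (hz : IsZeroAtImInfty F) :
    MDiff ((p : ℂ) ^ (w + 1) • ModularForm.heckeU (-(w : ℤ)) p F) ∧
    D^[w + 1] ((p : ℂ) ^ (w + 1) • ModularForm.heckeU (-(w : ℤ)) p F) =
      ModularForm.heckeU ((w : ℤ) + 2) p (D^[w + 1] F) ∧
    IsZeroAtImInfty ((p : ℂ) ^ (w + 1) • ModularForm.heckeU (-(w : ℤ)) p F) :=
  ⟨mdifferentiable_smul _ (mdifferentiable_heckeU _ _ hF), iterate_D_heckeU w hp hF,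
    isZeroAtImInfty_smul _ (isZeroAtImInfty_heckeU _ _ hz)⟩

end Fermat.Agent.S22.EichlerHecke
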