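import Mathlib

/-!
# `Γ₀(N)` is a finitely generated group

Schreier's lemma + `SL(2, ℤ) = ⟨S, T⟩` + finite index of `Γ₀(N)`.
-/

set_option autoImplicit false

open scoped MatrixGroups

namespace Fermat.Agent.S22

/-- `SL(2, ℤ)` is finitely generated (by `S` and `T`). -/
theorem sl2Z_fg : Group.FG SL(2, ℤ) := by
  classical
  refine ⟨⟨{ModularGroup.S, ModularGroup.T}, ?_⟩⟩
  rw [Finset.coe_insert, Finset.coe_singleton]
  exact SpecialLinearGroup.SL2Z_generators

/-- `Γ₀(N)` is a finitely generated group. -/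
theorem gamma0_fg (N : ℕ) [NeZero N] : Group.FG (CongruenceSubgroup.Gamma0 N) := by
  have : Group.FG SL(2, ℤ) := sl2Z_fg
  exact Subgroup.fg_of_index_ne_zero (CongruenceSubgroup.Gamma0 N)

end Fermat.Agent.S22
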