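import Mathlib
import Fermat.Prelude.Sol.S_ModularForm_heckeT_slash_eq_self_of_mem_Gamma0

set_option autoImplicit false

/-!
# Coset bookkeeping for Hecke operators and the slash action of `Γ₀(N)`

For `γ ∈ Γ₀(N)` and an arbitrary function `F : ℍ → ℂ` we express
`(T_p F) ∣[κ] γ - T_p F` (for `p` prime, `p ∤ N`) and `(U_p F) ∣[κ] γ - U_p F` (for `p ∣ N`) as a
finite sum of terms `(F ∣[κ] δ - F) ∣[κ] M` with `δ ∈ Γ₀(N)` and `M` one of the standard Hecke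
coset representatives; the elements `δ`, `M` do not depend on `F`.
-/

namespace Fermat.Agent.S22.HeckeCoset

open UpperHalfPlane Matrix.SpecialLinearGroup CongruenceSubgroup
open scoped MatrixGroups ModularForm
open P2MW.S_ModularForm_heckeT_slash_eq_self_of_mem_Gamma0.ModularForm.HeckeSlashInvariance

theorem heckeRep_eq (p : ℕ) (x : OnePoint (ZMod p)) :
    (∃ j : ℕ, heckeRep p x = ModularForm.heckeMatrix p j) ∨
      heckeRep p x = ModularForm.heckeDiagMatrix p := by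
  induction x using OnePoint.rec with
  | infty => exact Or.inr rfl
  | coe j => exact Or.inl ⟨j.val, rfl⟩

theorem sub_slash_GL (κ : ℤ) (g : GL (Fin 2) ℝ) (F G : ℍ → ℂ) :
    (F - G) ∣[κ] g = F ∣[κ] g - G ∣[κ] g := by
  rw [sub_eq_add_neg, SlashAction.add_slash, SlashAction.neg_slash, ← sub_eq_add_neg]

/-- Coset bookkeeping for `T_p`, `p ∤ N`. -/
theorem heckeT_slash_sub (N : ℕ) {p : ℕ} (hp : p.Prime) (hpN : ¬ p ∣ N) (κ : ℤ) (γ : Gamma0 N) :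
    ∃ (ι : Type) (_ : Fintype ι) (δ : ι → Gamma0 N) (M : ι → GL (Fin 2) ℝ),
      (∀ x, (∃ j : ℕ, M x = ModularForm.heckeMatrix p j) ∨ M x = ModularForm.heckeDiagMatrix p) ∧
      ∀ F : ℍ → ℂ, (ModularForm.heckeT κ p F) ∣[κ] (γ : SL(2, ℤ)) - ModularForm.heckeT κ p F =
        ∑ x, (F ∣[κ] (δ x : SL(2, ℤ)) - F) ∣[κ] M x := by
  have : Fact p.Prime := ⟨hp⟩
  have hγN : (N : ℤ) ∣ (γ : SL(2, ℤ)) 1 0 :=
    (ZMod.intCast_zmod_eq_zero_iff_dvd _ _).mp (Gamma0_mem.mp γ.2)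
  choose g' hg' hmul using fun x => heckeRep_mul hpN (γ : SL(2, ℤ)) hγN x
  refine ⟨OnePoint (ZMod p), inferInstance,
    fun x => ⟨g' x, Gamma0_mem.mpr ((ZMod.intCast_zmod_eq_zero_iff_dvd _ _).mpr (hg' x))⟩,
    fun x => heckeRep p (redMatrix p (γ : SL(2, ℤ)) • x), fun x => heckeRep_eq p _, fun F => ?_⟩
  have step : ∀ x : OnePoint (ZMod p),
      (F ∣[κ] heckeRep p x) ∣[κ] (γ : SL(2, ℤ)) =
        (F ∣[κ] (g' x)) ∣[κ] heckeRep p (redMatrix p (γ : SL(2, ℤ)) • x) := by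
    intro x
    have e1 : (F ∣[κ] heckeRep p x) ∣[κ] (γ : SL(2, ℤ)) =
        (F ∣[κ] heckeRep p x) ∣[κ] (mapGL ℝ (γ : SL(2, ℤ))) := rfl
    have e2 : F ∣[κ] (mapGL ℝ (g' x)) = F ∣[κ] (g' x) := rfl
    rw [e1, ← SlashAction.slash_mul, hmul x, SlashAction.slash_mul, e2]
  have hperm : ∑ x : OnePoint (ZMod p), F ∣[κ] heckeRep p x =
      ∑ x : OnePoint (ZMod p), F ∣[κ] heckeRep p (redMatrix p (γ : SL(2, ℤ)) • x) :=
    (Equiv.sum_comp (MulAction.toPerm (redMatrix p (γ : SL(2, ℤ))))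
      (fun x => F ∣[κ] heckeRep p x)).symm
  rw [heckeT_eq_sum_onePoint, SlashAction.sum_slash]
  simp_rw [step]
  rw [hperm, ← Finset.sum_sub_distrib]
  refine Finset.sum_congr rfl fun x _ => ?_
  exact (sub_slash_GL κ _ _ _).symm

/-- Coset bookkeeping for `U_p`, `p ∣ N`. -/
theorem heckeU_slash_sub (N : ℕ) {p : ℕ} (hp : p ≠ 0) (hpN : p ∣ N) (κ : ℤ) (γ : Gamma0 N) :
    ∃ (ι : Type) (_ : Fintype ι) (δ : ι → Gamma0 N) (M : ι → GL (Fin 2) ℝ),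
      (∀ x, ∃ j : ℕ, M x = ModularForm.heckeMatrix p j) ∧
      ∀ F : ℍ → ℂ, (ModularForm.heckeU κ p F) ∣[κ] (γ : SL(2, ℤ)) - ModularForm.heckeU κ p F =
        ∑ x, (F ∣[κ] (δ x : SL(2, ℤ)) - F) ∣[κ] M x := by
  have : NeZero p := ⟨hp⟩
  have hγN : (N : ℤ) ∣ (γ : SL(2, ℤ)) 1 0 :=
    (ZMod.intCast_zmod_eq_zero_iff_dvd _ _).mp (Gamma0_mem.mp γ.2)
  have hc : (p : ℤ) ∣ (γ : SL(2, ℤ)) 1 0 := (Int.natCast_dvd_natCast.mpr hpN).trans hγN
  choose g' hg' hmul using fun x => heckeMatrix_mul_of_dvd (γ : SL(2, ℤ)) hc x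
  have hg'N : ∀ x, g' x ∈ Gamma0 N := by
    intro x
    rw [Gamma0_mem, hg' x]
    push_cast
    rw [Gamma0_mem.mp γ.2, mul_zero]
  set σ : Equiv.Perm (ZMod p) :=
    affinePerm (γ : SL(2, ℤ)) ((ZMod.intCast_zmod_eq_zero_iff_dvd _ _).mpr hc) with hσ
  refine ⟨ZMod p, inferInstance, fun x => ⟨g' x, hg'N x⟩,
    fun x => ModularForm.heckeMatrix p (σ x).val, fun x => ⟨_, rfl⟩, fun F => ?_⟩
  have step : ∀ x : ZMod p,
      (F ∣[κ] ModularForm.heckeMatrix p x.val) ∣[κ] (γ : SL(2, ℤ)) =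
        (F ∣[κ] (g' x)) ∣[κ] ModularForm.heckeMatrix p (σ x).val := by
    intro x
    have e1 : (F ∣[κ] ModularForm.heckeMatrix p x.val) ∣[κ] (γ : SL(2, ℤ)) =
        (F ∣[κ] ModularForm.heckeMatrix p x.val) ∣[κ] (mapGL ℝ (γ : SL(2, ℤ))) := rfl
    have e2 : F ∣[κ] (mapGL ℝ (g' x)) = F ∣[κ] (g' x) := rfl
    rw [e1, ← SlashAction.slash_mul, hmul x, SlashAction.slash_mul, e2]
  have hperm : ∑ x : ZMod p, F ∣[κ] ModularForm.heckeMatrix p x.val =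
      ∑ x : ZMod p, F ∣[κ] ModularForm.heckeMatrix p (σ x).val :=
    (Equiv.sum_comp σ (fun x => F ∣[κ] ModularForm.heckeMatrix p x.val)).symm
  rw [heckeU_eq_sum_zmod, SlashAction.sum_slash]
  simp_rw [step]
  rw [hperm, ← Finset.sum_sub_distrib]
  refine Finset.sum_congr rfl fun x _ => ?_
  exact (sub_slash_GL κ _ _ _).symm

end Fermat.Agent.S22.HeckeCoset
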