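import Mathlib
import Fermat.Prelude.Thm_ModularForm_sturm_bound_Gamma0
import Fermat.Prelude.Thm_CongruenceSubgroup_one_mem_strictPeriods_Gamma0

set_option autoImplicit false

open UpperHalfPlane ModularForm
open scoped MatrixGroups Manifold

namespace Fermat.Agent.S22

/-- Package a holomorphic function on `ℍ` which is slash-invariant under `Γ₀(N)` and zero at `i∞`
after slashing with every element of `SL(2, ℤ)` as a cusp form. -/
noncomputable def cuspFormOfSlashInvariant (N : ℕ) [NeZero N] (k : ℤ) (G : ℍ → ℂ)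
    (hol : MDifferentiable 𝓘(ℂ) 𝓘(ℂ) G)
    (hinv : ∀ γ ∈ CongruenceSubgroup.Gamma0 N, G ∣[k] γ = G)
    (hzero : ∀ σ : SL(2, ℤ), IsZeroAtImInfty (G ∣[k] σ)) :
    CuspForm (CongruenceSubgroup.Gamma0 N) k where
  toFun := G
  slash_action_eq' := by
    rintro _ ⟨γ, hγ, rfl⟩
    exact hinv γ hγ
  holo' := hol
  zero_at_cusps' := by
    intro c hc
    rw [Subgroup.IsArithmetic.isCusp_iff_isCusp_SL2Z] at hc
    rw [OnePoint.isZeroAt_iff_forall_SL2Z hc]
    intro σ _
    exact hzero σ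

@[simp] theorem cuspFormOfSlashInvariant_apply (N : ℕ) [NeZero N] (k : ℤ) (G : ℍ → ℂ)
    (hol : MDifferentiable 𝓘(ℂ) 𝓘(ℂ) G)
    (hinv : ∀ γ ∈ CongruenceSubgroup.Gamma0 N, G ∣[k] γ = G)
    (hzero : ∀ σ : SL(2, ℤ), IsZeroAtImInfty (G ∣[k] σ)) (z : ℍ) :
    cuspFormOfSlashInvariant N k G hol hinv hzero z = G z := rfl

/-- Every cusp form of weight `k ≤ 0` on `Γ₀(N)` vanishes (Sturm bound with bound `0`). -/
theorem cuspForm_eq_zero_of_weight_nonpos (N : ℕ) [NeZero N] {k : ℤ} (hk : k ≤ 0)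
    (f : CuspForm (CongruenceSubgroup.Gamma0 N) k) : f = 0 := by
  have key : (f : ModularForm (CongruenceSubgroup.Gamma0 N) k) = 0 := by
    apply ModularForm.sturm_bound_Gamma0 N
    intro n hn
    have hn0 : n = 0 := by
      have h1 : (k * ((CongruenceSubgroup.Gamma0 N).index : ℤ)).toNat = 0 := by
        rw [Int.toNat_eq_zero]
        exact mul_nonpos_of_nonpos_of_nonneg hk (Int.natCast_nonneg _)
      rw [h1] at hn
      omega
    subst hn0
    exact CuspFormClass.qExpansion_coeff_zero f (by norm_num)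
      (CongruenceSubgroup.one_mem_strictPeriods_Gamma0 N)
  ext z
  have := DFunLike.congr_fun key z
  simpa using this

/-- A holomorphic function on `ℍ` of weight `k ≤ 0`, slash-invariant under `Γ₀(N)` and vanishing
at all cusps (i.e. all its `SL(2, ℤ)`-translates are zero at `i∞`) is identically zero. -/
theorem eq_zero_of_slash_invariant_of_weight_nonpos (N : ℕ) [NeZero N] {k : ℤ} (hk : k ≤ 0)
    (G : ℍ → ℂ) (hol : MDifferentiable 𝓘(ℂ) 𝓘(ℂ) G)
    (hinv : ∀ γ ∈ CongruenceSubgroup.Gamma0 N, G ∣[k] γ = G)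
    (hzero : ∀ σ : SL(2, ℤ), IsZeroAtImInfty (G ∣[k] σ)) : G = 0 := by
  have h := cuspForm_eq_zero_of_weight_nonpos N hk (cuspFormOfSlashInvariant N k G hol hinv hzero)
  funext z
  have := DFunLike.congr_fun h z
  simpa using this

/-- Package a holomorphic function on `ℍ` which is slash-invariant under `Γ₀(N)` and bounded at
`i∞` after slashing with every element of `SL(2, ℤ)` as a modular form. -/
noncomputable def modularFormOfSlashInvariant (N : ℕ) [NeZero N] (k : ℤ) (G : ℍ → ℂ)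
    (hol : MDifferentiable 𝓘(ℂ) 𝓘(ℂ) G)
    (hinv : ∀ γ ∈ CongruenceSubgroup.Gamma0 N, G ∣[k] γ = G)
    (hbdd : ∀ σ : SL(2, ℤ), IsBoundedAtImInfty (G ∣[k] σ)) :
    ModularForm (CongruenceSubgroup.Gamma0 N) k where
  toFun := G
  slash_action_eq' := by
    rintro _ ⟨γ, hγ, rfl⟩
    exact hinv γ hγ
  holo' := hol
  bdd_at_cusps' := by
    intro c hc
    rw [Subgroup.IsArithmetic.isCusp_iff_isCusp_SL2Z] at hc
    rw [OnePoint.isBoundedAt_iff_forall_SL2Z hc]
    intro σ _
    exact hbdd σ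

@[simp] theorem modularFormOfSlashInvariant_apply (N : ℕ) [NeZero N] (k : ℤ) (G : ℍ → ℂ)
    (hol : MDifferentiable 𝓘(ℂ) 𝓘(ℂ) G)
    (hinv : ∀ γ ∈ CongruenceSubgroup.Gamma0 N, G ∣[k] γ = G)
    (hbdd : ∀ σ : SL(2, ℤ), IsBoundedAtImInfty (G ∣[k] σ)) (z : ℍ) :
    modularFormOfSlashInvariant N k G hol hinv hbdd z = G z := rfl

/-- A modular form of weight `k ≤ 0` on `Γ₀(N)` which is zero at `i∞` vanishes
(Sturm bound with bound `0`). -/
theorem modularForm_eq_zero_of_weight_nonpos (N : ℕ) [NeZero N] {k : ℤ} (hk : k ≤ 0)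
    (f : ModularForm (CongruenceSubgroup.Gamma0 N) k) (hzero : IsZeroAtImInfty f) : f = 0 := by
  apply ModularForm.sturm_bound_Gamma0 N
  intro n hn
  have hn0 : n = 0 := by
    have h1 : (k * ((CongruenceSubgroup.Gamma0 N).index : ℤ)).toNat = 0 := by
      rw [Int.toNat_eq_zero]
      exact mul_nonpos_of_nonpos_of_nonneg hk (Int.natCast_nonneg _)
    rw [h1] at hn
    omega
  subst hn0
  have h1 := CongruenceSubgroup.one_mem_strictPeriods_Gamma0 N
  rw [UpperHalfPlane.qExpansion_coeff_zero (f := ⇑f) one_pos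
    (ModularFormClass.analyticAt_cuspFunction_zero f one_pos h1)
    (SlashInvariantFormClass.periodic_comp_ofComplex f h1)]
  exact hzero.valueAtInfty_eq_zero

/-- A holomorphic function on `ℍ` of weight `k ≤ 0`, slash-invariant under `Γ₀(N)`, bounded
at all cusps (i.e. all its `SL(2, ℤ)`-translates are bounded at `i∞`) and zero at `i∞`
is identically zero. -/
theorem eq_zero_of_slash_invariant_of_bounded_of_weight_nonpos (N : ℕ) [NeZero N] {k : ℤ}
    (hk : k ≤ 0) (G : ℍ → ℂ) (hol : MDifferentiable 𝓘(ℂ) 𝓘(ℂ) G)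
    (hinv : ∀ γ ∈ CongruenceSubgroup.Gamma0 N, G ∣[k] γ = G)
    (hbdd : ∀ σ : SL(2, ℤ), IsBoundedAtImInfty (G ∣[k] σ))
    (hzero : IsZeroAtImInfty G) : G = 0 := by
  have h := modularForm_eq_zero_of_weight_nonpos N hk
    (modularFormOfSlashInvariant N k G hol hinv hbdd) hzero
  funext z
  have := DFunLike.congr_fun h z
  simpa using this

end Fermat.Agent.S22
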