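import Mathlib

/-!
# Periodic primitives on the upper half plane (for S22)

For a holomorphic function `g : ℍ → ℂ` which is `h`-periodic and zero at `i∞` we construct a
holomorphic `h`-periodic function `G`, zero at `i∞`, with `D G = g`
(`D = (2πi)⁻¹ d/dz`, Mathlib's `Derivative.normalizedDerivOfComplex`).
-/

set_option autoImplicit false

open UpperHalfPlane hiding I
open Complex Filter Function Topology
open scoped Manifold Real
open Derivative

namespace Fermat.Agent.S22

/-- On the upper half plane, `G ∘ ofComplex` agrees near `z` with any `Gc : ℂ → ℂ` extending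
`G`. -/
theorem comp_ofComplex_eventuallyEq {G : ℍ → ℂ} {Gc : ℂ → ℂ}
    (hG : ∀ z : ℍ, G z = Gc (z : ℂ)) (z : ℍ) :
    (G ∘ ofComplex) =ᶠ[𝓝 (z : ℂ)] Gc := by
  filter_upwards [isOpen_upperHalfPlaneSet.mem_nhds z.im_pos] with w hw
  have hw' : 0 < w.im := hw
  simp only [comp_apply]
  rw [hG, ofComplex_apply_of_im_pos hw']

/-- If `Gc : ℂ → ℂ` extends `G : ℍ → ℂ` and has a complex derivative at every point of the upper
half plane, then `G` is holomorphic. -/
theorem mdifferentiable_of_hasDerivAt {G : ℍ → ℂ} {Gc : ℂ → ℂ} {G' : ℂ → ℂ}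
    (hG : ∀ z : ℍ, G z = Gc (z : ℂ))
    (hd : ∀ w : ℂ, 0 < w.im → HasDerivAt Gc (G' w) w) :
    MDifferentiable 𝓘(ℂ) 𝓘(ℂ) G := by
  intro z
  rw [UpperHalfPlane.mdifferentiableAt_iff]
  exact ((hd z z.im_pos).differentiableAt).congr_of_eventuallyEq
    (comp_ofComplex_eventuallyEq hG z)

/-- Computation of `D G` from a derivative of an extension of `G` to `ℂ`. -/
theorem D_eq_of_hasDerivAt {G : ℍ → ℂ} {Gc : ℂ → ℂ} {G' : ℂ → ℂ}
    (hG : ∀ z : ℍ, G z = Gc (z : ℂ))
    (hd : ∀ w : ℂ, 0 < w.im → HasDerivAt Gc (G' w) w) (z : ℍ) :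
    D G z = (2 * π * I)⁻¹ * G' (z : ℂ) := by
  have h1 : deriv (G ∘ ofComplex) (z : ℂ) = G' (z : ℂ) := by
    rw [(comp_ofComplex_eventuallyEq hG z).deriv_eq]
    exact (hd z z.im_pos).deriv
  simp only [normalizedDerivOfComplex, h1]

/-- Periodicity of `G ∘ ofComplex` from periodicity of an extension. -/
theorem periodic_comp_ofComplex_of_extension {G : ℍ → ℂ} {Gc : ℂ → ℂ} {h : ℝ}
    (hG : ∀ z : ℍ, G z = Gc (z : ℂ)) (hper : ∀ w : ℂ, 0 < w.im → Gc (w + h) = Gc w) :
    Periodic (G ∘ ofComplex) h := by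
  intro w
  by_cases hw : 0 < w.im
  · have hw' : 0 < (w + (h : ℂ)).im := by simpa using hw
    simp only [comp_apply]
    rw [hG, hG, ofComplex_apply_of_im_pos hw', ofComplex_apply_of_im_pos hw]
    exact hper w hw
  · have hw1 : w.im ≤ 0 := not_lt.mp hw
    have hw' : (w + (h : ℂ)).im ≤ 0 := by simpa using hw1
    simp only [comp_apply]
    rw [ofComplex_apply_of_im_nonpos hw', ofComplex_apply_of_im_nonpos hw1]

theorem hasDerivAt_qParam (h : ℝ) (w : ℂ) :
    HasDerivAt (Periodic.qParam h) (Periodic.qParam h w * (2 * π * I / h)) w := by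
  unfold Periodic.qParam
  have h1 : HasDerivAt (fun z : ℂ => 2 * π * I * z / h) (2 * π * I / h) w := by
    have := ((hasDerivAt_id w).const_mul (2 * π * I)).div_const (h : ℂ)
    simpa using this
  exact h1.cexp

theorem qParam_add_period {h : ℝ} (hh : h ≠ 0) (w : ℂ) :
    Periodic.qParam h (w + h) = Periodic.qParam h w := by
  unfold Periodic.qParam
  have hh' : (h : ℂ) ≠ 0 := by exact_mod_cast hh
  have : 2 * π * I * (w + h) / h = 2 * π * I * w / h + 2 * π * I := by
    field_simp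
  rw [this, Complex.exp_add, Complex.exp_two_pi_mul_I, mul_one]

/-- **Periodic primitive.** A holomorphic `h`-periodic function on `ℍ` which is zero at `i∞` is
`D G` for a holomorphic `h`-periodic function `G` which is zero at `i∞`. -/
theorem exists_periodic_primitive {g : ℍ → ℂ} {h : ℝ} (hh : 0 < h)
    (hg : MDifferentiable 𝓘(ℂ) 𝓘(ℂ) g) (hper : Periodic (g ∘ ofComplex) h)
    (hzero : IsZeroAtImInfty g) :
    ∃ G : ℍ → ℂ, MDifferentiable 𝓘(ℂ) 𝓘(ℂ) G ∧ D G = g ∧
      Periodic (G ∘ ofComplex) h ∧ IsZeroAtImInfty G := by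
  have hbdd : IsBoundedAtImInfty g := hzero.boundedAtFilter
  have hΦ : DifferentiableOn ℂ (cuspFunction h g) (Metric.ball 0 1) :=
    differentiableOn_cuspFunction_ball hh hper hg hbdd
  have hΦ0 : cuspFunction h g 0 = 0 := by
    rw [cuspFunction_apply_zero hh (analyticAt_cuspFunction_zero hh hper hg hbdd) hper]
    exact hzero.valueAtInfty_eq_zero
  have hφ : DifferentiableOn ℂ (dslope (cuspFunction h g) 0) (Metric.ball 0 1) :=
    (Complex.differentiableOn_dslope (Metric.ball_mem_nhds 0 one_pos)).mpr hΦ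
  obtain ⟨Ψ, hΨ0, hΨ⟩ := (hφ.isExactOn_ball).with_val_at 0 0
  have hh0 : (h : ℂ) ≠ 0 := by exact_mod_cast hh.ne'
  have h2pi : (2 * π * I : ℂ) ≠ 0 := Complex.two_pi_I_ne_zero
  -- the extension to `ℂ`
  let Gc : ℂ → ℂ := fun w => (h : ℂ) * Ψ (Periodic.qParam h w)
  have hqball : ∀ w : ℂ, 0 < w.im → Periodic.qParam h w ∈ Metric.ball (0 : ℂ) 1 := by
    intro w hw
    rw [mem_ball_zero_iff]
    exact Periodic.norm_qParam_lt_one hh hw
  have hderiv : ∀ w : ℂ, 0 < w.im →
      HasDerivAt Gc ((2 * π * I) * g (ofComplex w)) w := by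
    intro w hw
    have h1 := (hΨ _ (hqball w hw)).comp w (hasDerivAt_qParam h w)
    have h2 := h1.const_mul (h : ℂ)
    have h3 : (h : ℂ) * (dslope (cuspFunction h g) 0 (Periodic.qParam h w) *
        (Periodic.qParam h w * (2 * π * I / h))) = (2 * π * I) * g (ofComplex w) := by
      have e1 : Periodic.qParam h w * dslope (cuspFunction h g) 0 (Periodic.qParam h w) =
          cuspFunction h g (Periodic.qParam h w) := by
        have := sub_smul_dslope (cuspFunction h g) 0 (Periodic.qParam h w)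
        simpa [hΦ0] using this
      have e2 : cuspFunction h g (Periodic.qParam h w) = g (ofComplex w) := by
        have := Periodic.eq_cuspFunction hh.ne' hper w
        simpa [cuspFunction] using this
      rw [← e2, ← e1]
      field_simp
    rw [h3] at h2
    exact h2
  refine ⟨fun z => Gc (z : ℂ), ?_, ?_, ?_, ?_⟩
  · exact mdifferentiable_of_hasDerivAt (fun _ => rfl) hderiv
  · funext z
    rw [D_eq_of_hasDerivAt (G := fun z : ℍ => Gc (z : ℂ)) (fun _ => rfl) hderiv z,
      ofComplex_apply, ← mul_assoc, inv_mul_cancel₀ h2pi, one_mul]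
  · refine periodic_comp_ofComplex_of_extension (fun _ => rfl) ?_
    intro w _
    show (h : ℂ) * Ψ (Periodic.qParam h (w + h)) = (h : ℂ) * Ψ (Periodic.qParam h w)
    rw [qParam_add_period hh.ne']
  · have hcont : ContinuousAt Ψ 0 := (hΨ 0 (Metric.mem_ball_self one_pos)).continuousAt
    have h1 : Tendsto (fun τ : ℍ => Ψ (Periodic.qParam h τ)) atImInfty (𝓝 (Ψ 0)) :=
      hcont.tendsto.comp (qParam_tendsto_atImInfty hh)
    have h2 : Tendsto (fun τ : ℍ => (h : ℂ) * Ψ (Periodic.qParam h τ)) atImInfty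
        (𝓝 ((h : ℂ) * Ψ 0)) := h1.const_mul _
    rw [hΨ0, mul_zero] at h2
    exact h2

end Fermat.Agent.S22
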