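import Mathlib
import Fermat.Agent.S22.Bol
import Fermat.Agent.S22.PeriodicPrimitive

/-!
# Periodic holomorphic functions with a derivative vanishing at `i∞` (for S22)

* `isBoundedAtImInfty_of_iterate_D_isZeroAtImInfty`: a periodic holomorphic function `H` on `ℍ`
  such that `D^[n] H` is zero at `i∞` is bounded at `i∞` (it even has a limit);
* `eq_zero_of_iterate_D_eq_zero`: a periodic holomorphic function which is zero at `i∞` and is
  killed by `D^[n]` is zero.
-/

set_option autoImplicit false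

open UpperHalfPlane hiding I
open Complex Filter Function Topology
open scoped Manifold Real
open Derivative

namespace Fermat.Agent.S22

/-- The translate of a point of `ℍ` by a real number. -/
def translate (z : ℍ) (h : ℝ) : ℍ := ⟨(z : ℂ) + h, by simpa using z.im_pos⟩

@[simp] theorem coe_translate (z : ℍ) (h : ℝ) : ((translate z h : ℍ) : ℂ) = (z : ℂ) + h := rfl

/-- Periodicity of `H ∘ ofComplex` in terms of points of `ℍ`. -/
theorem apply_translate_of_periodic {H : ℍ → ℂ} {h : ℝ} (hper : Periodic (H ∘ ofComplex) h)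
    (z : ℍ) : H (translate z h) = H z := by
  have h1 := hper (z : ℂ)
  simp only [comp_apply] at h1
  rw [ofComplex_apply] at h1
  rw [← h1]
  congr 1
  have : 0 < ((z : ℂ) + (h : ℂ)).im := by simpa using z.im_pos
  rw [ofComplex_apply_of_im_pos this]
  rfl

/-- `D` preserves periodicity. -/
theorem periodic_D {H : ℍ → ℂ} {h : ℝ} (hper : Periodic (H ∘ ofComplex) h) :
    Periodic ((D H) ∘ ofComplex) h := by
  intro w
  by_cases hw : 0 < w.im
  · have hw' : 0 < (w + (h : ℂ)).im := by simpa using hw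
    simp only [comp_apply, normalizedDerivOfComplex]
    rw [ofComplex_apply_of_im_pos hw', ofComplex_apply_of_im_pos hw]
    congr 1
    show deriv (H ∘ ofComplex) (w + h) = deriv (H ∘ ofComplex) w
    have h1 : (fun x : ℂ => (H ∘ ofComplex) (x + h)) = H ∘ ofComplex := funext hper
    rw [← deriv_comp_add_const, h1]
  · have hw1 : w.im ≤ 0 := not_lt.mp hw
    have hw' : (w + (h : ℂ)).im ≤ 0 := by simpa using hw1
    simp only [comp_apply]
    rw [ofComplex_apply_of_im_nonpos hw', ofComplex_apply_of_im_nonpos hw1]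

/-- Iterates of `D` preserve periodicity. -/
theorem periodic_iterate_D {H : ℍ → ℂ} {h : ℝ} (hper : Periodic (H ∘ ofComplex) h) (n : ℕ) :
    Periodic ((D^[n] H) ∘ ofComplex) h := by
  induction n generalizing H with
  | zero => simpa using hper
  | succ n ih =>
    rw [Function.iterate_succ_apply]
    exact ih (periodic_D hper)

/-- A periodic holomorphic function whose derivative is zero at `i∞` has a limit at `i∞`. -/
theorem exists_isZeroAtImInfty_sub_const_of_D {H : ℍ → ℂ} {h : ℝ} (hh : 0 < h)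
    (hH : MDifferentiable 𝓘(ℂ) 𝓘(ℂ) H) (hper : Periodic (H ∘ ofComplex) h)
    (hz : IsZeroAtImInfty (D H)) :
    ∃ c : ℂ, IsZeroAtImInfty (fun z => H z - c) := by
  obtain ⟨G, hG, hDG, -, hG0⟩ := exists_periodic_primitive hh
    (normalizedDerivOfComplex_mdifferentiable hH) (periodic_D hper) hz
  have h0 : D (H - G) = 0 := by
    rw [normalizedDerivOfComplex_sub H G hH hG, hDG, sub_self]
  obtain ⟨c, hc⟩ := Bol.exists_const_of_D_eq_zero (hH.sub hG) h0
  refine ⟨c, ?_⟩
  have : (fun z => H z - c) = G := by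
    funext z
    have := hc z
    simp only [Pi.sub_apply] at this
    rw [← this]; ring
  rw [this]
  exact hG0

/-- If the derivative of a periodic holomorphic function tends to a constant at `i∞`, the
constant is zero. -/
theorem eq_zero_of_isZeroAtImInfty_D_sub_const {H : ℍ → ℂ} {h : ℝ} (hh : 0 < h)
    (hH : MDifferentiable 𝓘(ℂ) 𝓘(ℂ) H) (hper : Periodic (H ∘ ofComplex) h) (c : ℂ)
    (hz : IsZeroAtImInfty (fun z => D H z - c)) : c = 0 := by
  have hconst : MDifferentiable 𝓘(ℂ) 𝓘(ℂ) (fun _ : ℍ => c) := mdifferentiable_const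
  have hDH : MDifferentiable 𝓘(ℂ) 𝓘(ℂ) (D H) := normalizedDerivOfComplex_mdifferentiable hH
  have hg : MDifferentiable 𝓘(ℂ) 𝓘(ℂ) (fun z => D H z - c) := hDH.sub hconst
  have hgper : Periodic ((fun z => D H z - c) ∘ ofComplex) h := by
    intro w
    have := periodic_D hper w
    simp only [comp_apply] at this ⊢
    rw [this]
  obtain ⟨G, hG, hDG, hGper, -⟩ := exists_periodic_primitive hh hg hgper hz
  have h2pi : (2 * π * I : ℂ) ≠ 0 := Complex.two_pi_I_ne_zero
  set a : ℂ := 2 * π * I * c with ha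
  have hlin : MDifferentiable 𝓘(ℂ) 𝓘(ℂ) (a • fun τ : ℍ => (τ : ℂ)) :=
    Bol.mdifferentiable_coe'.const_smul a
  have h0 : D (H - G - a • fun τ : ℍ => (τ : ℂ)) = 0 := by
    rw [normalizedDerivOfComplex_sub _ _ (hH.sub hG) hlin,
      normalizedDerivOfComplex_sub H G hH hG, hDG,
      normalizedDerivOfComplex_smul a _ Bol.mdifferentiable_coe', Bol.D_coe]
    funext z
    simp only [Pi.sub_apply, Pi.smul_apply, smul_eq_mul, Pi.zero_apply, ha]
    field_simp
    ring
  obtain ⟨κ, hκ⟩ := Bol.exists_const_of_D_eq_zero ((hH.sub hG).sub hlin) h0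
  -- compare at `i` and `i + h`
  have h1 := hκ UpperHalfPlane.I
  have h2 := hκ (translate UpperHalfPlane.I h)
  simp only [Pi.sub_apply, Pi.smul_apply, smul_eq_mul, coe_translate] at h1 h2
  rw [apply_translate_of_periodic hper, apply_translate_of_periodic hGper] at h2
  have h3 : a * (h : ℂ) = 0 := by
    have := h1.trans h2.symm
    linear_combination this
  have hh0 : (h : ℂ) ≠ 0 := by exact_mod_cast hh.ne'
  have ha0 : a = 0 := (mul_eq_zero.mp h3).resolve_right hh0
  rw [ha] at ha0
  exact (mul_eq_zero.mp ha0).resolve_left h2pi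

/-- A periodic holomorphic function `H` such that `D^[n] H` is zero at `i∞` has a limit at
`i∞`. -/
theorem exists_isZeroAtImInfty_sub_const_of_iterate_D {h : ℝ} (hh : 0 < h) (n : ℕ) :
    ∀ {H : ℍ → ℂ}, MDifferentiable 𝓘(ℂ) 𝓘(ℂ) H → Periodic (H ∘ ofComplex) h →
      IsZeroAtImInfty (D^[n] H) → ∃ c : ℂ, IsZeroAtImInfty (fun z => H z - c) := by
  induction n with
  | zero =>
    intro H _ _ hz
    exact ⟨0, by simpa using hz⟩
  | succ n ih =>
    intro H hH hper hz
    rw [Function.iterate_succ_apply] at hz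
    obtain ⟨c, hc⟩ := ih (normalizedDerivOfComplex_mdifferentiable hH) (periodic_D hper) hz
    have hc0 : c = 0 := eq_zero_of_isZeroAtImInfty_D_sub_const hh hH hper c hc
    subst hc0
    exact exists_isZeroAtImInfty_sub_const_of_D hh hH hper (by simpa using hc)

/-- **Lemma Q.** A periodic holomorphic function `H` on `ℍ` such that `D^[n] H` is zero at `i∞`
is bounded at `i∞`. -/
theorem isBoundedAtImInfty_of_iterate_D_isZeroAtImInfty {H : ℍ → ℂ} {h : ℝ} (hh : 0 < h)
    (hH : MDifferentiable 𝓘(ℂ) 𝓘(ℂ) H) (hper : Periodic (H ∘ ofComplex) h) (n : ℕ)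
    (hn : IsZeroAtImInfty (D^[n] H)) : IsBoundedAtImInfty H := by
  obtain ⟨c, hc⟩ := exists_isZeroAtImInfty_sub_const_of_iterate_D hh n hH hper hn
  have h1 : IsBoundedAtImInfty (fun z => H z - c) := hc.boundedAtFilter
  have h2 : IsBoundedAtImInfty (fun _ : ℍ => c) := Filter.const_boundedAtFilter _ c
  have h3 := h1.add h2
  have : ((fun z => H z - c) + fun _ : ℍ => c) = H := by
    funext z
    simp
  rw [this] at h3
  exact h3

/-- A periodic holomorphic function which is zero at `i∞` and killed by `D^[n]` is zero. -/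
theorem eq_zero_of_iterate_D_eq_zero {h : ℝ} (hh : 0 < h) (n : ℕ) :
    ∀ {G : ℍ → ℂ}, MDifferentiable 𝓘(ℂ) 𝓘(ℂ) G → Periodic (G ∘ ofComplex) h →
      D^[n] G = 0 → IsZeroAtImInfty G → G = 0 := by
  induction n with
  | zero =>
    intro G _ _ h0 _
    simpa using h0
  | succ n ih =>
    intro G hG hper h0 hz
    rw [Function.iterate_succ_apply] at h0
    have hDG : MDifferentiable 𝓘(ℂ) 𝓘(ℂ) (D G) := normalizedDerivOfComplex_mdifferentiable hG
    have hz' : IsZeroAtImInfty (D^[n] (D G)) := by
      rw [h0]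
      exact zero_zeroAtFilter _
    obtain ⟨c, hc⟩ := exists_isZeroAtImInfty_sub_const_of_iterate_D hh n hDG (periodic_D hper) hz'
    have hc0 : c = 0 := eq_zero_of_isZeroAtImInfty_D_sub_const hh hG hper c hc
    subst hc0
    have hDG0 : D G = 0 := ih hDG (periodic_D hper) h0 (by simpa using hc)
    obtain ⟨κ, hκ⟩ := Bol.exists_const_of_D_eq_zero hG hDG0
    have hGc : G = fun _ => κ := funext hκ
    have hκ0 : κ = 0 := by
      rw [hGc] at hz
      have h1 : Tendsto (fun _ : ℍ => κ) atImInfty (𝓝 0) := hz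
      exact tendsto_nhds_unique tendsto_const_nhds h1
    rw [hGc, hκ0]
    rfl

end Fermat.Agent.S22
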