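import Mathlib
import Fermat.Agent.S22.Bol
import Fermat.Agent.S22.CuspBounded
import Fermat.Agent.S22.NonposWeight

/-!
# Behaviour of Eichler integrals at the cusps, and separation (for S22)

* `periodic_slash`: if `F` is slash-invariant of weight `κ` under `Γ₀(N)`, then for every
  `σ ∈ SL(2, ℤ)` the function `F ∣[κ] σ` is `N`-periodic;
* `cusp_bound` (leaf L5): if `F` is holomorphic, `Γ₀(N)`-invariant of weight `-w` and
  `D^[w+1] F` is a cusp form `f` of weight `w + 2`, then `F ∣[-w] σ` is bounded at `i∞` for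
  every `σ ∈ SL(2, ℤ)`;
* `eq_zero_of_periods_vanish` (separation): if moreover `F` is zero at `i∞`, then `f = 0`.
-/

set_option autoImplicit false

open UpperHalfPlane hiding I
open Filter Function Topology ModularForm CongruenceSubgroup
open scoped Manifold Real MatrixGroups
open Derivative

namespace Fermat.Agent.S22.SlashCusp

/-- `Γ(N) ≤ Γ₀(N)`. -/
theorem Gamma_le_Gamma0 (N : ℕ) : Gamma N ≤ Gamma0 N := by
  intro γ hγ
  rw [Gamma_mem] at hγ
  rw [Gamma0_mem]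
  exact hγ.2.2.1

/-- If `F` is slash-invariant under `Γ₀(N)`, then `F ∣[κ] σ` is slash-invariant under `Γ(N)`
for every `σ ∈ SL(2, ℤ)`. -/
theorem slash_invariant_Gamma (N : ℕ) (κ : ℤ) {F : ℍ → ℂ}
    (hinv : ∀ γ ∈ Gamma0 N, F ∣[κ] γ = F) (σ γ : SL(2, ℤ)) (hγ : γ ∈ Gamma N) :
    (F ∣[κ] σ) ∣[κ] γ = F ∣[κ] σ := by
  have h1 : σ * γ * σ⁻¹ ∈ Gamma0 N :=
    Gamma_le_Gamma0 N ((Gamma_normal N).conj_mem γ hγ σ)
  have h2 : σ * γ = (σ * γ * σ⁻¹) * σ := by group
  rw [← SlashAction.slash_mul, h2, SlashAction.slash_mul, hinv _ h1]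

/-- If `F` is slash-invariant under `Γ₀(N)`, then `F ∣[κ] σ` is `N`-periodic
for every `σ ∈ SL(2, ℤ)`. -/
theorem periodic_slash (N : ℕ) (κ : ℤ) {F : ℍ → ℂ}
    (hinv : ∀ γ ∈ Gamma0 N, F ∣[κ] γ = F) (σ : SL(2, ℤ)) :
    Periodic ((F ∣[κ] σ) ∘ ofComplex) (N : ℝ) := by
  let f : SlashInvariantForm (Gamma N) κ :=
    { toFun := F ∣[κ] σ
      slash_action_eq' := by
        rintro _ ⟨γ, hγ, rfl⟩
        exact slash_invariant_Gamma N κ hinv σ γ hγ }
  have h := SlashInvariantFormClass.periodic_comp_ofComplex (h := (N : ℝ)) f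
    (by rw [strictPeriods_Gamma]; exact AddSubgroup.mem_zmultiples _)
  exact h

/-- **Leaf L5.** The Eichler integral of a cusp form is bounded at all cusps. -/
theorem cusp_bound (N : ℕ) [NeZero N] (w : ℕ) (f : CuspForm (Gamma0 N) ((w : ℤ) + 2))
    {F : ℍ → ℂ} (hF : MDiff F) (hD : D^[w + 1] F = ⇑f)
    (hinv : ∀ γ ∈ Gamma0 N, F ∣[-(w : ℤ)] γ = F) (σ : SL(2, ℤ)) :
    IsBoundedAtImInfty (F ∣[-(w : ℤ)] σ) := by
  have hN : (0 : ℝ) < N := by exact_mod_cast Nat.pos_of_ne_zero (NeZero.ne N)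
  refine isBoundedAtImInfty_of_iterate_D_isZeroAtImInfty hN
    (Bol.mdifferentiable_slash_SL hF _ σ) (periodic_slash N _ hinv σ) (w + 1) ?_
  rw [Bol.bol_neg_SL w hF σ, hD]
  exact CuspFormClass.zero_at_infty_slash f σ

/-- **Separation.** If the Eichler integral `F` of a cusp form `f` (normalised to be zero at
`i∞`) is slash-invariant of weight `-w` under `Γ₀(N)` (i.e. all period polynomials of `f`
vanish), then `f = 0`. -/
theorem eq_zero_of_periods_vanish (N : ℕ) [NeZero N] (w : ℕ)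
    (f : CuspForm (Gamma0 N) ((w : ℤ) + 2)) {F : ℍ → ℂ} (hF : MDiff F)
    (hD : D^[w + 1] F = ⇑f) (hF0 : IsZeroAtImInfty F)
    (hinv : ∀ γ ∈ Gamma0 N, F ∣[-(w : ℤ)] γ = F) : f = 0 := by
  have h0 : F = 0 :=
    eq_zero_of_slash_invariant_of_bounded_of_weight_nonpos N (by omega) F hF hinv
      (cusp_bound N w f hF hD hinv) hF0
  subst h0
  rw [Bol.iterate_D_zero] at hD
  ext z
  have := congrFun hD z
  simpa using this.symm

end Fermat.Agent.S22.SlashCusp
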