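import Mathlib

/-!
# Uniqueness lemmas for Eichler integrals (for S22)

* `polynomial_eq_zero_of_isZeroAtImInfty`: a polynomial function on `ℍ` that tends to `0` at `i∞`
  is the zero polynomial;
* `polynomial_eq_of_eval_eq`: two polynomials agreeing on `ℍ` are equal;
* `iterate_D_sub` etc.: linearity of the iterated normalized derivative on holomorphic functions;
* `eq_of_iterate_D_eq`: two holomorphic functions on `ℍ`, zero at `i∞`, with the same `n`-th
  derivative are equal (given the "`n`-th derivative zero implies polynomial" lemma).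
-/

set_option autoImplicit false

open UpperHalfPlane Polynomial Filter Topology
open scoped Manifold MatrixGroups ModularForm
open Derivative

namespace Fermat.Agent.S22.Unique

/-- The point `i * (t + 1)` of the upper half plane. -/
noncomputable def pt (t : ℕ) : ℍ :=
  ⟨Complex.I * ((t : ℂ) + 1), by
    have : (Complex.I * ((t : ℂ) + 1)).im = (t : ℝ) + 1 := by simp
    rw [this]; positivity⟩

theorem coe_pt (t : ℕ) : ((pt t : ℍ) : ℂ) = Complex.I * ((t : ℂ) + 1) := rfl

theorem im_pt (t : ℕ) : (pt t).im = (t : ℝ) + 1 := by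
  show (Complex.I * ((t : ℂ) + 1)).im = (t : ℝ) + 1
  simp

theorem tendsto_pt : Tendsto pt atTop atImInfty := by
  rw [atImInfty, tendsto_comap_iff]
  have : (UpperHalfPlane.im ∘ pt) = fun t : ℕ => (t : ℝ) + 1 := funext im_pt
  rw [this]
  exact tendsto_atTop_add_const_right _ _ tendsto_natCast_atTop_atTop

theorem norm_coe_pt (t : ℕ) : ‖((pt t : ℍ) : ℂ)‖ = (t : ℝ) + 1 := by
  rw [coe_pt, norm_mul, Complex.norm_I, one_mul]
  have : ((t : ℂ) + 1) = (((t : ℝ) + 1 : ℝ) : ℂ) := by push_cast; rfl
  rw [this, Complex.norm_real, Real.norm_of_nonneg (by positivity)]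

/-- (a) A polynomial function on `ℍ` which is zero at `i∞` is the zero polynomial. -/
theorem polynomial_eq_zero_of_isZeroAtImInfty (p : Polynomial ℂ)
    (h : IsZeroAtImInfty (fun z : ℍ => p.eval (z : ℂ))) : p = 0 := by
  have h0 : Tendsto (fun t : ℕ => p.eval ((pt t : ℍ) : ℂ)) atTop (𝓝 0) := h.comp tendsto_pt
  by_cases hdeg : 0 < p.degree
  · exfalso
    have hnorm : Tendsto (fun t : ℕ => ‖((pt t : ℍ) : ℂ)‖) atTop atTop := by
      have : (fun t : ℕ => ‖((pt t : ℍ) : ℂ)‖) = fun t : ℕ => (t : ℝ) + 1 := funext norm_coe_pt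
      rw [this]
      exact tendsto_atTop_add_const_right _ _ tendsto_natCast_atTop_atTop
    have h1 : Tendsto (fun t : ℕ => ‖p.eval ((pt t : ℍ) : ℂ)‖) atTop atTop :=
      p.tendsto_norm_atTop hdeg hnorm
    have h2 : Tendsto (fun t : ℕ => ‖p.eval ((pt t : ℍ) : ℂ)‖) atTop (𝓝 0) := by
      simpa using h0.norm
    exact not_tendsto_nhds_of_tendsto_atTop h1 _ h2
  · have hC : p = C (p.coeff 0) := eq_C_of_degree_le_zero (not_lt.mp hdeg)
    rw [hC] at h0
    simp only [eval_C] at h0
    have : p.coeff 0 = 0 := tendsto_nhds_unique tendsto_const_nhds h0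
    rw [hC, this, C_0]

/-- (b) Two polynomials agreeing on the upper half plane are equal. -/
theorem polynomial_eq_of_eval_eq (p q : Polynomial ℂ)
    (h : ∀ z : ℍ, p.eval (z : ℂ) = q.eval (z : ℂ)) : p = q := by
  rw [← sub_eq_zero]
  apply polynomial_eq_zero_of_isZeroAtImInfty
  have : (fun z : ℍ => (p - q).eval (z : ℂ)) = fun _ => (0 : ℂ) := by
    funext z
    rw [eval_sub, h z, sub_self]
  rw [this]
  exact tendsto_const_nhds

/-- Iterates of the normalized derivative preserve holomorphy. -/
theorem iterate_D_mdifferentiable (n : ℕ) {F : ℍ → ℂ} (hF : MDiff F) : MDiff (D^[n] F) := by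
  induction n generalizing F with
  | zero => simpa using hF
  | succ n ih =>
    rw [Function.iterate_succ_apply]
    exact ih (normalizedDerivOfComplex_mdifferentiable hF)

theorem iterate_D_add (n : ℕ) {F G : ℍ → ℂ} (hF : MDiff F) (hG : MDiff G) :
    D^[n] (F + G) = D^[n] F + D^[n] G := by
  induction n generalizing F G with
  | zero => rfl
  | succ n ih =>
    rw [Function.iterate_succ_apply, Function.iterate_succ_apply, Function.iterate_succ_apply,
      normalizedDerivOfComplex_add F G hF hG,
      ih (normalizedDerivOfComplex_mdifferentiable hF) (normalizedDerivOfComplex_mdifferentiable hG)]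

theorem iterate_D_sub (n : ℕ) {F G : ℍ → ℂ} (hF : MDiff F) (hG : MDiff G) :
    D^[n] (F - G) = D^[n] F - D^[n] G := by
  induction n generalizing F G with
  | zero => rfl
  | succ n ih =>
    rw [Function.iterate_succ_apply, Function.iterate_succ_apply, Function.iterate_succ_apply,
      normalizedDerivOfComplex_sub F G hF hG,
      ih (normalizedDerivOfComplex_mdifferentiable hF) (normalizedDerivOfComplex_mdifferentiable hG)]

theorem iterate_D_smul (n : ℕ) (c : ℂ) {F : ℍ → ℂ} (hF : MDiff F) :
    D^[n] (c • F) = c • D^[n] F := by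
  induction n generalizing F with
  | zero => rfl
  | succ n ih =>
    rw [Function.iterate_succ_apply, Function.iterate_succ_apply,
      normalizedDerivOfComplex_smul c F hF, ih (normalizedDerivOfComplex_mdifferentiable hF)]

theorem iterate_D_neg (n : ℕ) {F : ℍ → ℂ} (hF : MDiff F) :
    D^[n] (-F) = -D^[n] F := by
  have h : -F = (-1 : ℂ) • F := by ext; simp
  rw [h, iterate_D_smul n _ hF]
  ext; simp

theorem iterate_D_zero (n : ℕ) : D^[n] (0 : ℍ → ℂ) = 0 := by
  induction n with
  | zero => rfl
  | succ n ih =>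
    rw [Function.iterate_succ_apply]
    have : D (0 : ℍ → ℂ) = 0 := normalizedDerivOfComplex_const 0
    rw [this, ih]

theorem iterate_D_finset_sum {ι : Type*} (s : Finset ι) (n : ℕ) {F : ι → ℍ → ℂ}
    (hF : ∀ i ∈ s, MDiff (F i)) :
    D^[n] (∑ i ∈ s, F i) = ∑ i ∈ s, D^[n] (F i) := by
  classical
  induction s using Finset.induction_on with
  | empty => simpa using iterate_D_zero n
  | insert a s ha ih =>
    have hs : MDiff (∑ i ∈ s, F i) := by
      have : ∀ t : Finset ι, (∀ i ∈ t, MDiff (F i)) → MDiff (∑ i ∈ t, F i) := by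
        intro t
        induction t using Finset.induction_on with
        | empty =>
          intro _
          rw [Finset.sum_empty]
          exact (mdifferentiable_const : MDiff (fun _ : ℍ => (0 : ℂ)))
        | insert b t hb iht =>
          intro h
          rw [Finset.sum_insert hb]
          exact (h b (Finset.mem_insert_self b t)).add
            (iht fun i hi => h i (Finset.mem_insert_of_mem hi))
      exact this s fun i hi => hF i (Finset.mem_insert_of_mem hi)
    rw [Finset.sum_insert ha, Finset.sum_insert ha,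
      iterate_D_add n (hF a (Finset.mem_insert_self a s)) hs,
      ih fun i hi => hF i (Finset.mem_insert_of_mem hi)]

/-- (c) Uniqueness of Eichler integrals: two holomorphic functions on `ℍ` that are zero at `i∞`
and have the same `n`-th normalized derivative are equal.  The hypothesis `hpoly` is the lemma
"`D^[n] G = 0` implies `G` is a polynomial of degree `< n`" (from `Bol.lean`). -/
theorem eq_of_iterate_D_eq
    (hpoly : ∀ (n : ℕ) {G : ℍ → ℂ}, MDiff G → D^[n] G = 0 →
      ∃ p : Polynomial ℂ, p.degree < n ∧ ∀ z : ℍ, G z = p.eval (z : ℂ))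
    (n : ℕ) {G₁ G₂ : ℍ → ℂ} (h₁ : MDiff G₁) (h₂ : MDiff G₂)
    (hD : D^[n] G₁ = D^[n] G₂) (hz₁ : IsZeroAtImInfty G₁) (hz₂ : IsZeroAtImInfty G₂) :
    G₁ = G₂ := by
  have hsub : D^[n] (G₁ - G₂) = 0 := by
    rw [iterate_D_sub n h₁ h₂, hD, sub_self]
  obtain ⟨p, -, hp⟩ := hpoly n (h₁.sub h₂) hsub
  have hzero : IsZeroAtImInfty (fun z : ℍ => p.eval (z : ℂ)) := by
    have : (fun z : ℍ => p.eval (z : ℂ)) = G₁ - G₂ := funext fun z => (hp z).symm
    rw [this]
    have h : Tendsto (fun z => G₁ z - G₂ z) atImInfty (𝓝 (0 - 0)) := Filter.Tendsto.sub hz₁ hz₂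
    rw [sub_zero] at h
    exact h
  have hp0 : p = 0 := polynomial_eq_zero_of_isZeroAtImInfty p hzero
  funext z
  have := hp z
  rw [hp0, eval_zero, Pi.sub_apply, sub_eq_zero] at this
  exact this

end Fermat.Agent.S22.Unique
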