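import Mathlib
import Fermat.Prelude.Def_CuspForm_HeckeAlgebra
import Fermat.Prelude.Thm_CongruenceSubgroup_one_mem_strictPeriods_Gamma0
import Fermat.Agent.S22.Cocycle
import Fermat.Agent.S22.Gamma0FG
import Fermat.Agent.S22.NonposWeight
import Fermat.Agent.S22.Alg
import Fermat.Agent.S22.Bol
import Fermat.Agent.S22.Unique
import Fermat.Agent.S22.PeriodicPrimitive
import Fermat.Agent.S22.EichlerHecke
import Fermat.Agent.S22.HeckeCoset
import Fermat.Agent.S22.PolySlash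
import Fermat.Agent.S22.SlashCusp

/-!
# Eichler integrals, period polynomials and the period lattice (assembly for S22)
-/

set_option autoImplicit false

open UpperHalfPlane Derivative ModularForm CongruenceSubgroup Polynomial
open scoped MatrixGroups ModularForm Manifold

namespace Fermat.Agent.S22.Eichler

open Fermat.Agent.S22

variable {N : ℕ} [NeZero N] {w : ℕ}

/-- Iterated periodic primitives. -/
theorem exists_iterated_primitive (n : ℕ) {g : ℍ → ℂ} {h : ℝ} (hh : 0 < h) (hg : MDiff g)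
    (hper : Function.Periodic (g ∘ ofComplex) h) (hzero : IsZeroAtImInfty g) :
    ∃ G : ℍ → ℂ, MDiff G ∧ D^[n] G = g ∧ Function.Periodic (G ∘ ofComplex) h ∧
      IsZeroAtImInfty G := by
  induction n generalizing g with
  | zero => exact ⟨g, hg, rfl, hper, hzero⟩
  | succ n ih =>
    obtain ⟨G₁, hG₁, hD₁, hper₁, hz₁⟩ := exists_periodic_primitive hh hg hper hzero
    obtain ⟨G, hG, hD, hperG, hzG⟩ := ih hG₁ hper₁ hz₁
    refine ⟨G, hG, ?_, hperG, hzG⟩
    rw [Function.iterate_succ_apply', hD, hD₁]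

/-- Existence of the Eichler integral of a cusp form of weight `w + 2`. -/
theorem exists_eichler (f : CuspForm (Gamma0 N) ((w : ℤ) + 2)) :
    ∃ F : ℍ → ℂ, MDiff F ∧ D^[w + 1] F = ⇑f ∧ IsZeroAtImInfty F := by
  have h1 := CongruenceSubgroup.one_mem_strictPeriods_Gamma0 N
  obtain ⟨G, hG, hD, -, hz⟩ := exists_iterated_primitive (w + 1) (g := ⇑f) one_pos
    (CuspFormClass.holo f) (SlashInvariantFormClass.periodic_comp_ofComplex f h1)
    (CuspFormClass.zero_at_infty f)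
  exact ⟨G, hG, hD, hz⟩

/-- The Eichler integral of a cusp form `f` of weight `w + 2`: the unique holomorphic function
with `D^[w+1] F = f` vanishing at `i∞`. -/
noncomputable def E (f : CuspForm (Gamma0 N) ((w : ℤ) + 2)) : ℍ → ℂ :=
  Classical.choose (exists_eichler f)

theorem E_mdiff (f : CuspForm (Gamma0 N) ((w : ℤ) + 2)) : MDiff (E f) :=
  (Classical.choose_spec (exists_eichler f)).1

theorem E_iterD (f : CuspForm (Gamma0 N) ((w : ℤ) + 2)) : D^[w + 1] (E f) = ⇑f :=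
  (Classical.choose_spec (exists_eichler f)).2.1

theorem E_zero_at (f : CuspForm (Gamma0 N) ((w : ℤ) + 2)) : IsZeroAtImInfty (E f) :=
  (Classical.choose_spec (exists_eichler f)).2.2

theorem E_unique (f : CuspForm (Gamma0 N) ((w : ℤ) + 2)) {F : ℍ → ℂ} (hF : MDiff F)
    (hD : D^[w + 1] F = ⇑f) (hz : IsZeroAtImInfty F) : F = E f :=
  Unique.eq_of_iterate_D_eq (fun n _ hG h => Bol.exists_polynomial_of_iterate_D_eq_zero n hG h)
    (w + 1) hF (E_mdiff f) (hD.trans (E_iterD f).symm) hz (E_zero_at f)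

theorem E_add (f g : CuspForm (Gamma0 N) ((w : ℤ) + 2)) : E (f + g) = E f + E g := by
  symm
  apply E_unique
  · exact (E_mdiff f).add (E_mdiff g)
  · rw [Bol.iterate_D_add _ (E_mdiff f) (E_mdiff g), E_iterD, E_iterD]
    rfl
  · exact (E_zero_at f).add (E_zero_at g)

theorem E_smul (c : ℂ) (f : CuspForm (Gamma0 N) ((w : ℤ) + 2)) : E (c • f) = c • E f := by
  symm
  apply E_unique
  · exact (E_mdiff f).const_smul c
  · rw [Bol.iterate_D_smul _ c (E_mdiff f), E_iterD]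
    rfl
  · exact (E_zero_at f).smul c


/-- For `γ ∈ Γ₀(N)` the function `E f ∣[-w] γ - E f` is killed by `D^[w+1]`. -/
theorem iterD_slash_sub (f : CuspForm (Gamma0 N) ((w : ℤ) + 2)) (γ : SL(2, ℤ))
    (hγ : γ ∈ Gamma0 N) : D^[w + 1] (E f ∣[-(w : ℤ)] γ - E f) = 0 := by
  have hE := E_mdiff f
  have hs : MDiff (E f ∣[-(w : ℤ)] γ) := hE.slash _ _
  rw [Bol.iterate_D_sub _ hs hE, E_iterD, Bol.bol_neg_SL w hE γ, E_iterD]
  have hinv : (⇑f) ∣[(w : ℤ) + 2] γ = ⇑f :=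
    SlashInvariantFormClass.slash_action_eq f _ (Subgroup.mem_map_of_mem _ hγ)
  rw [hinv, sub_self]

theorem exists_ppoly (f : CuspForm (Gamma0 N) ((w : ℤ) + 2)) (γ : Gamma0 N) :
    ∃ p : Polynomial ℂ, p.degree < ((w + 1 : ℕ) : WithBot ℕ) ∧
      ∀ z : ℍ, (E f ∣[-(w : ℤ)] (γ : SL(2, ℤ))) z - E f z = p.eval (z : ℂ) := by
  have hE := E_mdiff f
  have hs : MDiff (E f ∣[-(w : ℤ)] (γ : SL(2, ℤ))) := hE.slash _ _
  obtain ⟨p, hp, hpe⟩ := Bol.exists_polynomial_of_iterate_D_eq_zero (w + 1) (hs.sub hE)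
    (iterD_slash_sub f γ γ.2)
  exact ⟨p, hp, fun z => hpe z⟩

/-- The period polynomial of `f` at `γ ∈ Γ₀(N)`. -/
noncomputable def pp (γ : Gamma0 N) (f : CuspForm (Gamma0 N) ((w : ℤ) + 2)) : Polynomial ℂ :=
  Classical.choose (exists_ppoly f γ)

theorem pp_degree_lt (γ : Gamma0 N) (f : CuspForm (Gamma0 N) ((w : ℤ) + 2)) :
    (pp γ f).degree < ((w + 1 : ℕ) : WithBot ℕ) :=
  (Classical.choose_spec (exists_ppoly f γ)).1

theorem pp_eval (γ : Gamma0 N) (f : CuspForm (Gamma0 N) ((w : ℤ) + 2)) (z : ℍ) :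
    (E f ∣[-(w : ℤ)] (γ : SL(2, ℤ))) z - E f z = (pp γ f).eval (z : ℂ) :=
  (Classical.choose_spec (exists_ppoly f γ)).2 z

theorem pp_fun (γ : Gamma0 N) (f : CuspForm (Gamma0 N) ((w : ℤ) + 2)) :
    E f ∣[-(w : ℤ)] (γ : SL(2, ℤ)) - E f = fun z : ℍ => (pp γ f).eval (z : ℂ) :=
  funext fun z => pp_eval γ f z

theorem pp_unique (γ : Gamma0 N) (f : CuspForm (Gamma0 N) ((w : ℤ) + 2)) (q : Polynomial ℂ)
    (hq : ∀ z : ℍ, (E f ∣[-(w : ℤ)] (γ : SL(2, ℤ))) z - E f z = q.eval (z : ℂ)) :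
    q = pp γ f :=
  polynomial_eq_of_eval_upperHalfPlane _ _ fun z => (hq z).symm.trans (pp_eval γ f z)

theorem pp_add (γ : Gamma0 N) (f g : CuspForm (Gamma0 N) ((w : ℤ) + 2)) :
    pp γ (f + g) = pp γ f + pp γ g := by
  symm
  apply pp_unique
  intro z
  rw [E_add, SlashAction.add_slash, eval_add, ← pp_eval, ← pp_eval]
  simp only [Pi.add_apply]
  ring

theorem pp_smul (γ : Gamma0 N) (c : ℂ) (f : CuspForm (Gamma0 N) ((w : ℤ) + 2)) :
    pp γ (c • f) = c • pp γ f := by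
  symm
  apply pp_unique
  intro z
  rw [E_smul, SL_smul_slash, eval_smul, ← pp_eval]
  simp only [Pi.smul_apply, smul_eq_mul]
  ring

/-- The cocycle rule for period polynomials. -/
theorem pp_mul (γ γ' : Gamma0 N) (f : CuspForm (Gamma0 N) ((w : ℤ) + 2)) :
    pp (γ * γ') f = polyAct w (γ' : SL(2, ℤ)) (pp γ f) + pp γ' f := by
  symm
  apply pp_unique
  intro z
  have h1 : E f ∣[-(w : ℤ)] ((γ * γ' : Gamma0 N) : SL(2, ℤ)) =
      (E f ∣[-(w : ℤ)] (γ : SL(2, ℤ)) - E f) ∣[-(w : ℤ)] (γ' : SL(2, ℤ)) +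
        E f ∣[-(w : ℤ)] (γ' : SL(2, ℤ)) := by
    rw [Subgroup.coe_mul, SlashAction.slash_mul, sub_eq_add_neg, SlashAction.add_slash,
      SlashAction.neg_slash]
    abel
  rw [h1, pp_fun, eval_add, ← slash_polynomial w _ _ (pp_degree_lt γ f), ← pp_eval γ' f]
  simp only [Pi.add_apply]
  ring

/-- The coefficient functionals of the period polynomials. -/
noncomputable def cf (γ : Gamma0 N) (i : Fin (w + 1)) :
    CuspForm (Gamma0 N) ((w : ℤ) + 2) →ₗ[ℂ] ℂ where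
  toFun f := (pp γ f).coeff i
  map_add' f g := by rw [pp_add, coeff_add]
  map_smul' c f := by rw [pp_smul, coeff_smul]; rfl

theorem cf_apply (γ : Gamma0 N) (i : Fin (w + 1)) (f : CuspForm (Gamma0 N) ((w : ℤ) + 2)) :
    cf γ i f = (pp γ f).coeff i := rfl

/-- The integer matrix of the weight `-w` action on coefficient vectors. -/
noncomputable def rho (w : ℕ) (γ : Gamma0 N) : Matrix (Fin (w + 1)) (Fin (w + 1)) ℤ :=
  fun i j => (actPoly w (γ : SL(2, ℤ)) j).coeff i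

theorem cf_mul (γ γ' : Gamma0 N) (i : Fin (w + 1)) :
    (cf (γ * γ') i : CuspForm (Gamma0 N) ((w : ℤ) + 2) →ₗ[ℂ] ℂ) =
      ∑ j, rho w γ' i j • cf γ j + cf γ' i := by
  ext f
  rw [cf_apply, pp_mul, coeff_add, polyAct_coeff, Finset.sum_range]
  simp [cf_apply, rho]

/-- The period lattice. -/
noncomputable def lattice (N : ℕ) [NeZero N] (w : ℕ) :
    Submodule ℤ (CuspForm (Gamma0 N) ((w : ℤ) + 2) →ₗ[ℂ] ℂ) :=
  Submodule.span ℤ {φ | ∃ (γ : Gamma0 N) (i : Fin (w + 1)), φ = cf γ i}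

theorem cf_mem_lattice (γ : Gamma0 N) (i : Fin (w + 1)) : cf γ i ∈ lattice N w :=
  Submodule.subset_span ⟨γ, i, rfl⟩

theorem lattice_fg (N : ℕ) [NeZero N] (w : ℕ) : (lattice N w).FG :=
  fg_span_of_cocycle (gamma0_fg N) (rho w) cf cf_mul

/-- The period lattice separates points (Eichler–Shimura injectivity). -/
theorem lattice_separates (f : CuspForm (Gamma0 N) ((w : ℤ) + 2))
    (h : ∀ φ ∈ lattice N w, φ f = 0) : f = 0 := by
  have hpp : ∀ γ : Gamma0 N, pp γ f = 0 := by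
    intro γ
    ext i
    rw [coeff_zero]
    by_cases hi : i < w + 1
    · exact h _ (cf_mem_lattice γ ⟨i, hi⟩)
    · exact coeff_eq_zero_of_degree_lt
        (lt_of_lt_of_le (pp_degree_lt γ f) (by exact_mod_cast not_lt.mp hi))
  have hinv : ∀ γ ∈ Gamma0 N, E f ∣[-(w : ℤ)] γ = E f := by
    intro γ hγ
    have := pp_fun ⟨γ, hγ⟩ f
    rw [hpp] at this
    funext z
    have hz := congrFun this z
    simpa [sub_eq_zero] using hz
  have hbdd : ∀ σ : SL(2, ℤ), IsBoundedAtImInfty (E f ∣[-(w : ℤ)] σ) :=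
    fun σ => SlashCusp.cusp_bound N w f (E_mdiff f) (E_iterD f) hinv σ
  have hE0 : E f = 0 :=
    eq_zero_of_slash_invariant_of_bounded_of_weight_nonpos N (k := -(w : ℤ)) (by omega) (E f)
      (E_mdiff f) hinv hbdd (E_zero_at f)
  have hf : ⇑f = 0 := by
    rw [← E_iterD f, hE0, Bol.iterate_D_zero]
  exact DFunLike.coe_injective hf


/-! ### Hecke stability of the period lattice -/

/-- Abstract Hecke step: if `E (T f) = p^(w+1) • HT (E f)` for an operator `HT` on functions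
which satisfies a coset identity with respect to `γ`, then `cf γ i ∘ T` lies in the lattice. -/
theorem cf_comp_mem_of
    (T : CuspForm (Gamma0 N) ((w : ℤ) + 2) →ₗ[ℂ] CuspForm (Gamma0 N) ((w : ℤ) + 2)) (p : ℕ)
    (HT : (ℍ → ℂ) → (ℍ → ℂ))
    (hE : ∀ f, E (T f) = (p : ℂ) ^ (w + 1) • HT (E f))
    (γ : Gamma0 N) {ι : Type} [Fintype ι] (δ : ι → Gamma0 N) (M : ι → GL (Fin 2) ℝ)
    (hκ : ∀ x : ι, ∃ κ : Matrix (Fin (w + 1)) (Fin (w + 1)) ℤ, ∀ q : Polynomial ℂ,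
      q.degree < ((w + 1 : ℕ) : WithBot ℕ) →
      ∃ q' : Polynomial ℂ, q'.degree < ((w + 1 : ℕ) : WithBot ℕ) ∧
        (∀ i : Fin (w + 1), q'.coeff i = ∑ l, κ i l • q.coeff l) ∧
        (p : ℂ) ^ (w + 1) • ((fun z : ℍ => q.eval (z : ℂ)) ∣[-(w : ℤ)] M x)
          = fun z : ℍ => q'.eval (z : ℂ))
    (hF : ∀ F : ℍ → ℂ, (HT F) ∣[-(w : ℤ)] (γ : SL(2, ℤ)) - HT F
        = ∑ x, (F ∣[-(w : ℤ)] (δ x : SL(2, ℤ)) - F) ∣[-(w : ℤ)] M x)
    (i : Fin (w + 1)) : (cf γ i) ∘ₗ T ∈ lattice N w := by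
  choose κ hκ' using hκ
  have key : (cf γ i) ∘ₗ T = ∑ x, ∑ l, κ x i l • cf (δ x) l := by
    ext f
    simp only [LinearMap.comp_apply, cf_apply, LinearMap.sum_apply, LinearMap.smul_apply]
    choose q' hq'deg hq'coeff hq'eval using
      fun x => hκ' x (pp (δ x) f) (pp_degree_lt (δ x) f)
    have hpp : pp γ (T f) = ∑ x, q' x := by
      symm
      apply pp_unique
      intro z
      rw [hE, SL_smul_slash]
      have h1 := congrFun (hF (E f)) z
      simp only [Pi.sub_apply, Finset.sum_apply] at h1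
      simp only [Pi.smul_apply, smul_eq_mul]
      rw [← mul_sub, h1, Finset.mul_sum, eval_finsetSum]
      refine Finset.sum_congr rfl fun x _ => ?_
      have h2 := congrFun (hq'eval x) z
      simp only [Pi.smul_apply, smul_eq_mul] at h2
      rw [← h2, pp_fun]
    rw [hpp, finsetSum_coeff]
    exact Finset.sum_congr rfl fun x _ => hq'coeff x i
  rw [key]
  exact Submodule.sum_mem _ fun x _ => Submodule.sum_mem _ fun l _ =>
    Submodule.smul_mem _ _ (cf_mem_lattice _ _)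

theorem E_heckeT {p : ℕ} (hp : p.Prime) (hpN : ¬ p ∣ N) (f : CuspForm (Gamma0 N) ((w : ℤ) + 2)) :
    E (CuspForm.heckeTLin ((w : ℤ) + 2) hp hpN f)
      = (p : ℂ) ^ (w + 1) • ModularForm.heckeT (-(w : ℤ)) p (E f) := by
  symm
  obtain ⟨h1, h2, h3⟩ := EichlerHecke.eichler_heckeT w hp.ne_zero (E_mdiff f) (E_zero_at f)
  refine E_unique _ h1 ?_ h3
  rw [h2, E_iterD]
  rfl

theorem E_heckeU {p : ℕ} (hp : p ≠ 0) (hpN : p ∣ N) (f : CuspForm (Gamma0 N) ((w : ℤ) + 2)) :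
    E (CuspForm.heckeULin ((w : ℤ) + 2) hpN f)
      = (p : ℂ) ^ (w + 1) • ModularForm.heckeU (-(w : ℤ)) p (E f) := by
  symm
  obtain ⟨h1, h2, h3⟩ := EichlerHecke.eichler_heckeU w hp (E_mdiff f) (E_zero_at f)
  refine E_unique _ h1 ?_ h3
  rw [h2, E_iterD]
  rfl

theorem cf_comp_heckeT_mem {p : ℕ} (hp : p.Prime) (hpN : ¬ p ∣ N) (γ : Gamma0 N)
    (i : Fin (w + 1)) :
    (cf γ i) ∘ₗ (CuspForm.heckeTLin ((w : ℤ) + 2) hp hpN) ∈ lattice N w := by
  obtain ⟨ι, _, δ, M, hM, hF⟩ := HeckeCoset.heckeT_slash_sub N hp hpN (-(w : ℤ)) γ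
  refine cf_comp_mem_of _ p (ModularForm.heckeT (-(w : ℤ)) p) (E_heckeT hp hpN) γ δ M ?_ hF i
  intro x
  rcases hM x with ⟨j, hj⟩ | hd
  · rw [hj]
    exact PolySlash.heckeMatrix_slash_polynomial w hp.ne_zero j
  · rw [hd]
    exact PolySlash.heckeDiagMatrix_slash_polynomial w hp.ne_zero

theorem cf_comp_heckeU_mem {p : ℕ} (hp : p ≠ 0) (hpN : p ∣ N) (γ : Gamma0 N)
    (i : Fin (w + 1)) :
    (cf γ i) ∘ₗ (CuspForm.heckeULin ((w : ℤ) + 2) hpN) ∈ lattice N w := by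
  obtain ⟨ι, _, δ, M, hM, hF⟩ := HeckeCoset.heckeU_slash_sub N hp hpN (-(w : ℤ)) γ
  refine cf_comp_mem_of _ p (ModularForm.heckeU (-(w : ℤ)) p) (E_heckeU hp hpN) γ δ M ?_ hF i
  intro x
  obtain ⟨j, hj⟩ := hM x
  rw [hj]
  exact PolySlash.heckeMatrix_slash_polynomial w hp j

/-- The period lattice is stable under the transposes of the Hecke generators. -/
theorem lattice_stable (S : Set ℕ)
    (T : Module.End ℂ (CuspForm (Gamma0 N) ((w : ℤ) + 2)))
    (hT : T ∈ CuspForm.heckeGenerators N ((w : ℤ) + 2) S)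
    (φ : CuspForm (Gamma0 N) ((w : ℤ) + 2) →ₗ[ℂ] ℂ) (hφ : φ ∈ lattice N w) :
    φ ∘ₗ T ∈ lattice N w := by
  induction hφ using Submodule.span_induction with
  | mem φ hφ =>
    obtain ⟨γ, i, rfl⟩ := hφ
    rcases hT with ⟨ℓ, hℓ, hℓN, -, rfl⟩ | ⟨q, hqN, hq, -, rfl⟩
    · exact cf_comp_heckeT_mem hℓ hℓN γ i
    · exact cf_comp_heckeU_mem hq.ne_zero hqN γ i
  | zero =>
    rw [LinearMap.zero_comp]
    exact Submodule.zero_mem _
  | add φ ψ _ _ hφ hψ =>
    rw [LinearMap.add_comp]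
    exact Submodule.add_mem _ hφ hψ
  | smul n φ _ hφ =>
    have : (n • φ) ∘ₗ T = n • (φ ∘ₗ T) := by
      ext f
      simp
    rw [this]
    exact Submodule.smul_mem _ _ hφ

/-- `S22` for weights `k = w + 2 ≥ 2`. -/
theorem finite_heckeAlgebra_weight_add_two (N : ℕ) [NeZero N] (w : ℕ) (S : Set ℕ) :
    Module.Finite ℤ (CuspForm.heckeAlgebra N ((w : ℤ) + 2) S) :=
  Fermat.Agent.S22.Alg.finite_adjoin_of_dual_lattice _ (lattice N w) (lattice_fg N w)
    (fun g hg φ hφ => lattice_stable S g hg φ hφ) lattice_separates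

end Fermat.Agent.S22.Eichler
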