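import Mathlib
import Fermat.Prelude.Def_CuspForm_HeckeAlgebra
import Fermat.Prelude.Thm_ModularForm_sturm_bound_Gamma0
import Fermat.Prelude.Thm_CongruenceSubgroup_one_mem_strictPeriods_Gamma0

set_option autoImplicit false

namespace Fermat.Agent.S22.Trivial

open UpperHalfPlane CongruenceSubgroup
open scoped MatrixGroups ModularForm

/-- A modular form of weight `≤ 0` on `Γ₀(N)` whose constant `q`-coefficient vanishes is zero
(Sturm bound). -/
theorem modularForm_eq_zero_of_weight_nonpos (N : ℕ) [NeZero N] {k : ℤ} (hk : k ≤ 0)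
    (f : ModularForm (Gamma0 N) k) (h0 : (qExpansion 1 f).coeff 0 = 0) : f = 0 := by
  refine ModularForm.sturm_bound_Gamma0 N f ?_
  intro n hn
  have hz : (k * ((Gamma0 N).index : ℤ)).toNat = 0 := by
    apply Int.toNat_of_nonpos
    exact mul_nonpos_of_nonpos_of_nonneg hk (by positivity)
  rw [hz] at hn
  have hn0 : n = 0 := by omega
  subst hn0
  exact h0

/-- Cusp forms of weight `≤ 0` on `Γ₀(N)` vanish. -/
theorem cuspForm_eq_zero_of_weight_nonpos (N : ℕ) [NeZero N] {k : ℤ} (hk : k ≤ 0)
    (f : CuspForm (Gamma0 N) k) : f = 0 := by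
  have h1 : (1 : ℝ) ∈ (Subgroup.map (Matrix.SpecialLinearGroup.mapGL ℝ) (Gamma0 N)).strictPeriods :=
    CongruenceSubgroup.one_mem_strictPeriods_Gamma0 N
  have h0 : (qExpansion 1 (ModularFormClass.modularForm f)).coeff 0 = 0 :=
    CuspFormClass.qExpansion_coeff_zero f one_pos h1
  have h := modularForm_eq_zero_of_weight_nonpos N hk (ModularFormClass.modularForm f) h0
  ext z
  have := congrArg (fun g : ModularForm (Gamma0 N) k => g z) h
  simpa using this

/-- Cusp forms of odd weight on `Γ₀(N)` vanish. -/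
theorem cuspForm_eq_zero_of_weight_odd (N : ℕ) {k : ℤ} (hk : Odd k)
    (f : CuspForm (Gamma0 N) k) : f = 0 := by
  have hneg : (-1 : GL (Fin 2) ℝ) ∈
      (Subgroup.map (Matrix.SpecialLinearGroup.mapGL ℝ) (Gamma0 N)) := by
    refine ⟨-1, ?_, by ext; simp⟩
    simp [CongruenceSubgroup.Gamma0_mem]
  have h := ModularForm.eq_zero_of_neg_one_mem hneg hk (ModularFormClass.modularForm f)
  ext z
  have := congrArg (fun g : ModularForm (Gamma0 N) k => g z) h
  simpa using this

/-- If the space of cusp forms is trivial, the Hecke algebra is a finite `ℤ`-module. -/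
theorem finite_heckeAlgebra_of_forall_eq_zero (N : ℕ) [NeZero N] (k : ℤ) (S : Set ℕ)
    (h : ∀ f : CuspForm (Gamma0 N) k, f = 0) :
    Module.Finite ℤ (CuspForm.heckeAlgebra N k S) := by
  have hsub : Subsingleton (CuspForm.heckeAlgebra N k S) := by
    refine ⟨fun a b => ?_⟩
    apply Subtype.ext
    ext f
    rw [h ((a : Module.End ℂ (CuspForm (Gamma0 N) k)) f),
      h ((b : Module.End ℂ (CuspForm (Gamma0 N) k)) f)]
  have : Finite (CuspForm.heckeAlgebra N k S) := Finite.of_subsingleton
  exact Module.Finite.of_finite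

/-- `S22` in the degenerate weights: `k ≤ 1`. -/
theorem finite_heckeAlgebra_of_weight_le_one (N : ℕ) [NeZero N] {k : ℤ} (hk : k ≤ 1) (S : Set ℕ) :
    Module.Finite ℤ (CuspForm.heckeAlgebra N k S) := by
  apply finite_heckeAlgebra_of_forall_eq_zero
  intro f
  rcases lt_or_eq_of_le hk with h | h
  · exact cuspForm_eq_zero_of_weight_nonpos N (by omega) f
  · subst h
    exact cuspForm_eq_zero_of_weight_odd N odd_one f

end Fermat.Agent.S22.Trivial
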