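import Mathlib
import Fermat.Agent.S23.LevelOneInt

/-!
# S22 (route B) helper: the `q`-expansion of `Δ` has integer coefficients

`Δ = (E₄³ - E₆²) / 1728`, `E₄ = 1 + 240 A`, `E₆ = 1 - 504 B` with `A = ∑ σ₃(n) qⁿ`,
`B = ∑ σ₅(n) qⁿ`, hence `Δ = (5 A + 7 B) / 12 + 100 A² + 8000 A³ - 147 B²`, and
`12 ∣ 5 d³ + 7 d⁵` for every `d`.
-/

set_option autoImplicit false

open UpperHalfPlane ModularForm EisensteinSeries
open scoped MatrixGroups ModularForm

namespace Fermat.Agent.S22.DeltaInt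

/-- `A = ∑_{n ≥ 1} σ₃(n) Xⁿ`. -/
noncomputable def sA : PowerSeries ℤ :=
  PowerSeries.mk fun m => if m = 0 then 0 else ((ArithmeticFunction.sigma 3 m : ℕ) : ℤ)

/-- `B = ∑_{n ≥ 1} σ₅(n) Xⁿ`. -/
noncomputable def sB : PowerSeries ℤ :=
  PowerSeries.mk fun m => if m = 0 then 0 else ((ArithmeticFunction.sigma 5 m : ℕ) : ℤ)

/-- `C = (5 A + 7 B) / 12`. -/
noncomputable def sC : PowerSeries ℤ :=
  PowerSeries.mk fun m => if m = 0 then 0 else
    (5 * ((ArithmeticFunction.sigma 3 m : ℕ) : ℤ) + 7 * ((ArithmeticFunction.sigma 5 m : ℕ) : ℤ)) / 12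

theorem twelve_dvd (d : ℕ) : (12 : ℤ) ∣ 5 * (d : ℤ) ^ 3 + 7 * (d : ℤ) ^ 5 := by
  have h : ∀ x : ZMod 12, 5 * x ^ 3 + 7 * x ^ 5 = 0 := by decide
  have h2 := h (d : ZMod 12)
  have h3 : ((5 * (d : ℤ) ^ 3 + 7 * (d : ℤ) ^ 5 : ℤ) : ZMod 12) = 0 := by
    push_cast
    exact h2
  exact (ZMod.intCast_zmod_eq_zero_iff_dvd _ 12).mp h3

theorem twelve_dvd_sigma (m : ℕ) :
    (12 : ℤ) ∣ 5 * ((ArithmeticFunction.sigma 3 m : ℕ) : ℤ) +
      7 * ((ArithmeticFunction.sigma 5 m : ℕ) : ℤ) := by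
  rw [ArithmeticFunction.sigma_apply, ArithmeticFunction.sigma_apply]
  push_cast
  rw [Finset.mul_sum, Finset.mul_sum, ← Finset.sum_add_distrib]
  exact Finset.dvd_sum fun d _ => twelve_dvd d

theorem five_sA_add_seven_sB : 5 * sA + 7 * sB = 12 * sC := by
  ext m
  have h5 : (5 : PowerSeries ℤ) = PowerSeries.C (5 : ℤ) := by simp
  have h7 : (7 : PowerSeries ℤ) = PowerSeries.C (7 : ℤ) := by simp
  have h12 : (12 : PowerSeries ℤ) = PowerSeries.C (12 : ℤ) := by simp
  rw [h5, h7, h12, map_add, PowerSeries.coeff_C_mul, PowerSeries.coeff_C_mul,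
    PowerSeries.coeff_C_mul, sA, sB, sC, PowerSeries.coeff_mk, PowerSeries.coeff_mk,
    PowerSeries.coeff_mk]
  split_ifs with hm
  · simp
  · rw [Int.mul_ediv_cancel' (twelve_dvd_sigma m)]

theorem qExpansion_E4 :
    qExpansion 1 E₄ = 1 + 240 * PowerSeries.map (Int.castRingHom ℂ) sA := by
  ext m
  have h240 : (240 : PowerSeries ℂ) = PowerSeries.C (240 : ℂ) := (map_ofNat _ 240).symm
  rw [E_qExpansion_coeff (by norm_num) ⟨2, rfl⟩ m, map_add, h240, PowerSeries.coeff_C_mul,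
    PowerSeries.coeff_map, sA, PowerSeries.coeff_mk, PowerSeries.coeff_one]
  rw [show bernoulli 4 = -1 / 30 by decide +kernel]
  split_ifs with hm
  · simp
  · push_cast
    norm_num

theorem qExpansion_E6 :
    qExpansion 1 E₆ = 1 - 504 * PowerSeries.map (Int.castRingHom ℂ) sB := by
  ext m
  have h504 : (504 : PowerSeries ℂ) = PowerSeries.C (504 : ℂ) := (map_ofNat _ 504).symm
  rw [E_qExpansion_coeff (by norm_num) ⟨3, rfl⟩ m, map_sub, h504, PowerSeries.coeff_C_mul,
    PowerSeries.coeff_map, sB, PowerSeries.coeff_mk, PowerSeries.coeff_one]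
  rw [show bernoulli 6 = 1 / 42 by decide +kernel]
  split_ifs with hm
  · simp
  · push_cast
    norm_num

/-- The integral power series whose image is the `q`-expansion of `Δ`. -/
noncomputable def deltaInt : PowerSeries ℤ :=
  sC + 100 * sA ^ 2 + 8000 * sA ^ 3 - 147 * sB ^ 2

/-- The `q`-expansion of `Δ` is the image of an integral power series. -/
theorem qExpansion_discriminant_eq_map :
    qExpansion 1 ModularForm.discriminant = PowerSeries.map (Int.castRingHom ℂ) deltaInt := by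
  rw [Fermat.Agent.S23.LevelOneInt.discriminant_qExpansion, qExpansion_E4, qExpansion_E6]
  have h := congrArg (PowerSeries.map (Int.castRingHom ℂ)) five_sA_add_seven_sB
  simp only [map_add, map_mul, map_ofNat] at h
  set a := PowerSeries.map (Int.castRingHom ℂ) sA with ha
  set b := PowerSeries.map (Int.castRingHom ℂ) sB with hb
  set c := PowerSeries.map (Int.castRingHom ℂ) sC with hc
  have key : (1 + 240 * a) ^ 3 - (1 - 504 * b) ^ 2 =
      (1728 : ℂ) • (c + 100 * a ^ 2 + 8000 * a ^ 3 - 147 * b ^ 2) := by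
    have h1728 : ∀ Y : PowerSeries ℂ, (1728 : ℂ) • Y = 1728 * Y := by
      intro Y
      rw [PowerSeries.smul_eq_C_mul, map_ofNat]
    rw [h1728]
    linear_combination 144 * h
  rw [key, smul_smul]
  simp only [deltaInt, map_add, map_sub, map_mul, map_pow, map_ofNat]
  norm_num
  rfl

/-- **Integrality of Ramanujan's `τ`**: the `q`-coefficients of `Δ` are integers. -/
theorem discriminant_coeff_int (n : ℕ) :
    ∃ m : ℤ, (qExpansion 1 ModularForm.discriminant).coeff n = (m : ℂ) := by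
  rw [qExpansion_discriminant_eq_map]
  exact ⟨deltaInt.coeff n, by simp⟩

end Fermat.Agent.S22.DeltaInt
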