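import Mathlib
import Fermat.Prelude.Def_CuspForm_HeckeAlgebra
import Fermat.Prelude.Def_FLTPrelim_Modularity
import Fermat.Prelude.Thm_ModularFormClass_qCoeff_heckeT
import Fermat.Prelude.Thm_ModularFormClass_qCoeff_heckeU
import Fermat.Prelude.Thm_CongruenceSubgroup_one_mem_strictPeriods_Gamma0
import Fermat.Agent.S22.Alg

/-!
# S22 via coefficient spans

`CoeffSpanProp N k`: the `q`-coefficient sequences of all weight-`k` cusp forms on `Γ₀(N)` lie in
the `ℂ`-span of finitely many fixed sequences taking values in a finitely generated `ℤ`-submodule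
of `ℂ`.  We show that this property implies that the Hecke algebra is a finite `ℤ`-module
(for `k ≥ 1`).
-/

set_option autoImplicit false

namespace Fermat.Agent.S22.CoeffSpan

open UpperHalfPlane CongruenceSubgroup ModularFormClass
open scoped MatrixGroups ModularForm

/-- The coefficient sequences of cusp forms of weight `k` on `Γ₀(N)` lie in the `ℂ`-span of
finitely many sequences with values in a finitely generated `ℤ`-submodule of `ℂ`. -/
def CoeffSpanProp (N : ℕ) (k : ℤ) : Prop :=
  ∃ (m : ℕ) (O : Submodule ℤ ℂ) (ω : ℕ → Fin m → ℂ), O.FG ∧ (∀ n j, ω n j ∈ O) ∧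
    ∀ f : CuspForm (Gamma0 N) k, ∃ c : Fin m → ℂ,
      ∀ n : ℕ, qCoeff f n = ∑ j, ω n j * c j

section

variable (N : ℕ) (k : ℤ)

theorem one_mem_strictPeriods :
    (1 : ℝ) ∈ (Subgroup.map (Matrix.SpecialLinearGroup.mapGL ℝ) (Gamma0 N)).strictPeriods :=
  CongruenceSubgroup.one_mem_strictPeriods_Gamma0 N

/-- The `n`-th `q`-coefficient as a linear functional on cusp forms. -/
noncomputable def coeffFun (n : ℕ) : CuspForm (Gamma0 N) k →ₗ[ℂ] ℂ where
  toFun f := qCoeff f n
  map_add' f g := by
    show (qExpansion 1 (⇑(f + g))).coeff n = (qExpansion 1 ⇑f).coeff n + (qExpansion 1 ⇑g).coeff n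
    rw [FunLike.coe_add, ModularForm.qExpansion_add one_pos (one_mem_strictPeriods N) f g,
      map_add]
  map_smul' c f := by
    show (qExpansion 1 (⇑(c • f))).coeff n = c • (qExpansion 1 ⇑f).coeff n
    rw [FunLike.coe_smul, ModularForm.qExpansion_smul one_pos (one_mem_strictPeriods N) c f,
      PowerSeries.coeff_smul, smul_eq_mul]

@[simp] theorem coeffFun_apply (n : ℕ) (f : CuspForm (Gamma0 N) k) :
    coeffFun N k n f = qCoeff f n := rfl

/-- The `ℤ`-lattice of functionals spanned by the coefficient functionals. -/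
noncomputable def coeffLattice : Submodule ℤ (CuspForm (Gamma0 N) k →ₗ[ℂ] ℂ) :=
  Submodule.span ℤ (Set.range (coeffFun N k))

theorem coeffFun_mem (n : ℕ) : coeffFun N k n ∈ coeffLattice N k :=
  Submodule.subset_span ⟨n, rfl⟩

/-- The coefficient functionals separate points. -/
theorem eq_zero_of_forall_coeffFun (f : CuspForm (Gamma0 N) k)
    (h : ∀ φ ∈ coeffLattice N k, φ f = 0) : f = 0 := by
  have h1 := one_mem_strictPeriods N
  have hcusp : Fact (IsCusp OnePoint.infty
      (Subgroup.map (Matrix.SpecialLinearGroup.mapGL ℝ) (Gamma0 N))) :=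
    ⟨Subgroup.isCusp_of_mem_strictPeriods one_pos h1⟩
  have hq : qExpansion 1 (⇑f) = 0 := by
    ext n
    have := h _ (coeffFun_mem N k n)
    simpa [qCoeff] using this
  have hf0 : (⇑f : ℍ → ℂ) = 0 :=
    (qExpansion_eq_zero_iff one_pos (SlashInvariantFormClass.periodic_comp_ofComplex f h1)
      (ModularFormClass.holo f) (ModularFormClass.bdd_at_infty f)).mp hq
  exact DFunLike.coe_injective hf0

/-- Precomposition with a Hecke generator preserves the coefficient lattice (`k ≥ 1`). -/
theorem comp_mem_coeffLattice_of_mem_heckeGenerators [NeZero N] (hk : 1 ≤ k) (S : Set ℕ)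
    (g : Module.End ℂ (CuspForm (Gamma0 N) k)) (hg : g ∈ CuspForm.heckeGenerators N k S)
    (φ : CuspForm (Gamma0 N) k →ₗ[ℂ] ℂ) (hφ : φ ∈ coeffLattice N k) :
    φ ∘ₗ g ∈ coeffLattice N k := by
  have h1 := one_mem_strictPeriods N
  -- reduce to `φ` a coefficient functional
  induction hφ using Submodule.span_induction with
  | zero => simp
  | add x y _ _ hx hy => rw [LinearMap.add_comp]; exact Submodule.add_mem _ hx hy
  | smul a x _ hx =>
    have : (a • x) ∘ₗ g = a • (x ∘ₗ g) := by ext v; simp
    rw [this]; exact Submodule.smul_mem _ a hx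
  | mem x hx =>
    obtain ⟨n, rfl⟩ := hx
    rcases hg with ⟨ℓ, hℓ, hℓN, -, rfl⟩ | ⟨q, hqN, hq, -, rfl⟩
    · -- `T_ℓ`
      by_cases hdvd : ℓ ∣ n
      · have hkey : coeffFun N k n ∘ₗ CuspForm.heckeTLin k hℓ hℓN =
            coeffFun N k (n * ℓ) + ((ℓ : ℤ) ^ (k - 1).toNat) • coeffFun N k (n / ℓ) := by
          ext f
          have := ModularFormClass.qCoeff_heckeT (k := k) f h1 hℓ.ne_zero n
          simp only [LinearMap.comp_apply, coeffFun_apply, LinearMap.add_apply,
            LinearMap.smul_apply, CuspForm.coe_heckeTLin_apply, this,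
            ModularForm.coeffHeckeT_of_dvd k hdvd]
          congr 1
          have hk' : ((k - 1).toNat : ℤ) = k - 1 := Int.toNat_of_nonneg (by omega)
          rw [← hk', zpow_natCast]
          simp
        rw [hkey]
        exact Submodule.add_mem _ (coeffFun_mem N k _)
          (Submodule.smul_mem _ _ (coeffFun_mem N k _))
      · have hkey : coeffFun N k n ∘ₗ CuspForm.heckeTLin k hℓ hℓN = coeffFun N k (n * ℓ) := by
          ext f
          have := ModularFormClass.qCoeff_heckeT (k := k) f h1 hℓ.ne_zero n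
          simp only [LinearMap.comp_apply, coeffFun_apply, CuspForm.coe_heckeTLin_apply, this,
            ModularForm.coeffHeckeT_of_not_dvd k hdvd]
        rw [hkey]
        exact coeffFun_mem N k _
    · -- `U_q`
      have hkey : coeffFun N k n ∘ₗ CuspForm.heckeULin k hqN = coeffFun N k (n * q) := by
        ext f
        have := ModularFormClass.qCoeff_heckeU (k := k) f h1 hq.ne_zero n
        simp only [LinearMap.comp_apply, coeffFun_apply, CuspForm.coe_heckeULin_apply, this,
          ModularForm.coeffHeckeU_apply]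
      rw [hkey]
      exact coeffFun_mem N k _

/-- `CoeffSpanProp` implies that the coefficient lattice is finitely generated. -/
theorem coeffLattice_fg_of_coeffSpanProp (h : CoeffSpanProp N k) : (coeffLattice N k).FG := by
  classical
  obtain ⟨m, O, ω, hO, hω, hc⟩ := h
  choose c hc using hc
  -- the ambient f.g. module `O^m`
  let P : Submodule ℤ (Fin m → ℂ) := Submodule.pi Set.univ (fun _ => O)
  have hP : P.FG := Submodule.fg_pi (fun _ => hO)
  have hPnoeth : IsNoetherian ℤ P := isNoetherian_of_fg_of_noetherian P hP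
  let Ω : Submodule ℤ (Fin m → ℂ) := Submodule.span ℤ (Set.range ω)
  have hΩP : Ω ≤ P := by
    refine Submodule.span_le.mpr ?_
    rintro _ ⟨n, rfl⟩
    simpa [P, Submodule.mem_pi] using fun j => hω n j
  have hΩ : Ω.FG := (isNoetherian_submodule.mp hPnoeth) Ω hΩP
  -- the map to functions
  let Φ : (Fin m → ℂ) →ₗ[ℤ] (CuspForm (Gamma0 N) k → ℂ) :=
    { toFun := fun x f => ∑ j, x j * c f j
      map_add' := by
        intro x y; funext f
        simp [add_mul, Finset.sum_add_distrib]
      map_smul' := by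
        intro a x; funext f
        simp [Finset.mul_sum, mul_assoc] }
  let ι : (CuspForm (Gamma0 N) k →ₗ[ℂ] ℂ) →ₗ[ℤ] (CuspForm (Gamma0 N) k → ℂ) :=
    { toFun := fun φ f => φ f
      map_add' := by intro x y; rfl
      map_smul' := by intro a x; rfl }
  have hι : Function.Injective ι := by
    intro x y hxy
    ext f
    exact congrFun hxy f
  have hmap : (coeffLattice N k).map ι = Ω.map Φ := by
    rw [coeffLattice, Submodule.map_span, Submodule.map_span]
    congr 1
    ext F
    constructor
    · rintro ⟨_, ⟨n, rfl⟩, rfl⟩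
      refine ⟨ω n, ⟨n, rfl⟩, ?_⟩
      funext f
      simp [Φ, ι, hc f n]
    · rintro ⟨_, ⟨n, rfl⟩, rfl⟩
      refine ⟨coeffFun N k n, ⟨n, rfl⟩, ?_⟩
      funext f
      simp [Φ, ι, hc f n]
  refine Submodule.fg_of_fg_map_injective ι hι ?_
  rw [hmap]
  exact hΩ.map Φ

/-- **S22 from the coefficient-span property** (weights `k ≥ 1`). -/
theorem finite_heckeAlgebra_of_coeffSpanProp [NeZero N] (hk : 1 ≤ k) (S : Set ℕ)
    (h : CoeffSpanProp N k) : Module.Finite ℤ (CuspForm.heckeAlgebra N k S) :=
  Fermat.Agent.S22.Alg.finite_adjoin_of_dual_lattice (CuspForm.heckeGenerators N k S)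
    (coeffLattice N k) (coeffLattice_fg_of_coeffSpanProp N k h)
    (comp_mem_coeffLattice_of_mem_heckeGenerators N k hk S)
    (eq_zero_of_forall_coeffFun N k)

end

end Fermat.Agent.S22.CoeffSpan
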