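import Mathlib

/-!
# S22, route B: shared definitions

Shared definitions for the "coefficient span" route to S22
(`Fermat.Agent.S22.CoeffSpan.CoeffSpanProp`).

* `Q N`     : the coset space `𝒮ℒ ⧸ Γ₀(N)` (inside `GL(2, ℝ)`), as used by Mathlib's
              `SlashInvariantForm.quotientFunc`.
* `q1 N`    : the identity coset.
* `mu N`    : the index, `Nat.card (Q N)`.
* `Rfun N Θ`: the product over the non-identity cosets `q` of `Θ - Θ_q`.
* `cyclo N` : the ring `ℤ[ζ_N] ⊆ ℂ`.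
* `Good N P`: the power series `P` is `c • (X ^ e * u)` with `c ≠ 0` and `u` a power series
              with coefficients in `ℤ[ζ_N]` and constant coefficient `1`.
* `ThetaProp N Θ`: the input needed on the auxiliary form `Θ`.
-/

set_option autoImplicit false

open UpperHalfPlane CongruenceSubgroup
open scoped MatrixGroups ModularForm Real Manifold

noncomputable section

namespace Fermat.Agent.S22.BDefs

/-- The coset space `𝒮ℒ ⧸ Γ₀(N)` (inside `GL(2, ℝ)`). -/
abbrev Q (N : ℕ) : Type :=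
  ↥(𝒮ℒ : Subgroup (GL (Fin 2) ℝ)) ⧸ ((Gamma0 N : Subgroup (GL (Fin 2) ℝ)).subgroupOf 𝒮ℒ)

/-- The identity coset. -/
def q1 (N : ℕ) : Q N := QuotientGroup.mk 1

/-- The index of `Γ₀(N)` in the modular group. -/
def mu (N : ℕ) : ℕ := Nat.card (Q N)

/-- The product over all non-identity cosets `q` of `Θ - Θ_q`, where `Θ_q` is the translate of
`Θ` attached to the coset `q` (Mathlib's `SlashInvariantForm.quotientFunc`). -/
def Rfun (N : ℕ) [NeZero N] (Θ : ModularForm (Gamma0 N) 12) : ℍ → ℂ :=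
  letI := Fintype.ofFinite (Q N)
  letI := Classical.decEq (Q N)
  ∏ q ∈ (Finset.univ : Finset (Q N)).erase (q1 N),
    ((⇑Θ : ℍ → ℂ) - SlashInvariantForm.quotientFunc Θ q)

/-- The primitive `N`-th root of unity `exp(2πi/N)`. -/
def zeta (N : ℕ) : ℂ := Complex.exp (2 * π * Complex.I / N)

/-- The ring `ℤ[ζ_N]` as a `ℤ`-subalgebra of `ℂ`. -/
def cyclo (N : ℕ) : Subalgebra ℤ ℂ := Algebra.adjoin ℤ {zeta N}

/-- A power series is *good* (for `N`) if it is `c • (X ^ e * u)` with `c ≠ 0` a complex number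
and `u` a power series with coefficients in `ℤ[ζ_N]` and constant coefficient `1`. -/
def Good (N : ℕ) (P : PowerSeries ℂ) : Prop :=
  ∃ (c : ℂ) (e : ℕ) (u : PowerSeries (cyclo N)), c ≠ 0 ∧ PowerSeries.constantCoeff u = 1 ∧
    P = c • (PowerSeries.X ^ e * u.map (algebraMap (cyclo N) ℂ))

/-- The property of the auxiliary form `Θ` (in practice `Θ(τ) = Δ(Nτ)`) needed by route B:
its `q`-expansion is integral, and for every `σ ∉ Γ₀(N)` the difference `Θ - Θ ∣[12] σ`
has a cusp function at period `N` which is analytic at `0`, with a good `q_N`-expansion. -/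
def ThetaProp (N : ℕ) [NeZero N] (Θ : ModularForm (Gamma0 N) 12) : Prop :=
  (∀ n : ℕ, ∃ z : ℤ, (qExpansion 1 Θ).coeff n = (z : ℂ)) ∧
  ∀ σ : SL(2, ℤ), σ ∉ Gamma0 N →
    AnalyticAt ℂ (cuspFunction (N : ℝ) ((⇑Θ : ℍ → ℂ) - (⇑Θ : ℍ → ℂ) ∣[(12 : ℤ)] σ)) 0 ∧
    Good N (qExpansion (N : ℝ) ((⇑Θ : ℍ → ℂ) - (⇑Θ : ℍ → ℂ) ∣[(12 : ℤ)] σ))

end Fermat.Agent.S22.BDefs
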