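import Mathlib
import Fermat.Prelude.Thm_UpperHalfPlane_qExpansion_coeff_nat_mul
import Fermat.Prelude.Thm_CongruenceSubgroup_one_mem_strictPeriods_Gamma0
import Fermat.Agent.S22.BDefs
import Fermat.Agent.S22.CoeffSpan
import Fermat.Agent.S23.LevelOne
import Fermat.Agent.S23.LevelOneInt
import Fermat.Agent.S23.Descent

/-!
# S22, route B: assembly

From

* a function `R : ℍ → ℂ` whose `q_N`-expansion is `c • (X ^ e * u)` with `c ≠ 0` and `u` a power
  series with coefficients in a subring `O ⊆ ℂ` and constant coefficient `1`,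
* a `1`-periodic function `θ` with integral `q`-expansion,
* for every cusp form `f` an identity `f * R = ∑ i < d, r i * θ ^ i` with level one forms `r i`,

we deduce that the coefficient sequences of cusp forms of weight `k` on `Γ₀(N)` lie in the `ℂ`-span
of finitely many sequences with values in `O` (`CoeffSpan.CoeffSpanProp`, if `O` is a finitely
generated `ℤ`-module).
-/

set_option autoImplicit false

open UpperHalfPlane CongruenceSubgroup ModularFormClass
open scoped MatrixGroups ModularForm Manifold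

noncomputable section

namespace Fermat.Agent.S22.BAssembly

open Fermat.Agent.S22.BDefs Fermat.Agent.S22.CoeffSpan Fermat.Agent.S23

/-! ### Power series with coefficients in a subring of `ℂ` and their `ℂ`-span -/

/-- The set of power series with all coefficients in `O`. -/
def intO (O : Subalgebra ℤ ℂ) : Set (PowerSeries ℂ) := {W | ∀ n : ℕ, W.coeff n ∈ O}

/-- The `ℂ`-span of the power series with coefficients in `O`. -/
def spanO (O : Subalgebra ℤ ℂ) : Submodule ℂ (PowerSeries ℂ) := Submodule.span ℂ (intO O)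

variable {O : Subalgebra ℤ ℂ}

theorem intO_mul {W W' : PowerSeries ℂ} (h : W ∈ intO O) (h' : W' ∈ intO O) :
    W * W' ∈ intO O := by
  intro n
  rw [PowerSeries.coeff_mul]
  exact Subalgebra.sum_mem _ fun p _ => Subalgebra.mul_mem _ (h p.1) (h' p.2)

theorem intO_subset_spanO {W : PowerSeries ℂ} (h : W ∈ intO O) : W ∈ spanO O :=
  Submodule.subset_span h

theorem spanO_mul {x y : PowerSeries ℂ} (hx : x ∈ spanO O) (hy : y ∈ spanO O) :
    x * y ∈ spanO O := by
  have h1 : x * y ∈ spanO O * spanO O := Submodule.mul_mem_mul hx hy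
  have h2 : spanO O * spanO O ≤ spanO O := by
    unfold spanO
    rw [Submodule.span_mul_span]
    apply Submodule.span_mono
    rintro _ ⟨a, ha, b, hb, rfl⟩
    exact intO_mul ha hb
  exact h2 h1

theorem spanO_pow {x : PowerSeries ℂ} (hx : x ∈ spanO O) (n : ℕ) : x ^ n ∈ spanO O := by
  induction n with
  | zero =>
    rw [pow_zero]
    refine intO_subset_spanO fun n => ?_
    rw [PowerSeries.coeff_one]
    split_ifs
    · exact Subalgebra.one_mem _
    · exact Subalgebra.zero_mem _
  | succ n ih => rw [pow_succ]; exact spanO_mul ih hx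

theorem isIntSeries_mem_intO {p : PowerSeries ℂ} (hp : IsIntSeries p) : p ∈ intO O := by
  intro n
  obtain ⟨m, hm⟩ := hp n
  rw [hm]
  exact intCast_mem O m

theorem intSpan_le_spanO : intSpan ≤ spanO O :=
  Submodule.span_mono fun _ hp => isIntSeries_mem_intO hp

theorem map_mem_intO (u : PowerSeries O) : u.map (algebraMap O ℂ) ∈ intO O := by
  intro n
  rw [PowerSeries.coeff_map]
  exact (u.coeff n).2

theorem expand_mem_intO {N : ℕ} (hN : N ≠ 0) {W : PowerSeries ℂ} (h : W ∈ intO O) :
    W.expand N hN ∈ intO O := by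
  intro n
  rw [PowerSeries.coeff_expand]
  split_ifs
  · exact h _
  · exact Subalgebra.zero_mem _

theorem expand_mem_spanO {N : ℕ} (hN : N ≠ 0) {x : PowerSeries ℂ} (hx : x ∈ spanO O) :
    x.expand N hN ∈ spanO O := by
  refine Submodule.span_induction (p := fun x _ => x.expand N hN ∈ spanO O)
    (fun W hW => intO_subset_spanO (expand_mem_intO hN hW)) ?_ ?_ ?_ hx
  · rw [map_zero]; exact Submodule.zero_mem _
  · intro x y _ _ hx hy
    rw [map_add]; exact Submodule.add_mem _ hx hy
  · intro a x _ hx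
    rw [PowerSeries.expand_smul]; exact Submodule.smul_mem _ _ hx

/-! ### Uniformisation over a basis of the space of cusp forms -/

/-- If the coefficient sequence of every cusp form is a subsequence `n ↦ P.coeff (φ n)` of a power
series `P` in the `ℂ`-span of the `O`-integral power series, then `CoeffSpanProp` holds. -/
theorem coeffSpanProp_of_forall_mem_spanO (N : ℕ) [NeZero N] (k : ℤ) (O : Subalgebra ℤ ℂ)
    (hO : (Subalgebra.toSubmodule O).FG) (φ : ℕ → ℕ)
    (h : ∀ f : CuspForm (Gamma0 N) k, ∃ P ∈ spanO O, ∀ n : ℕ, qCoeff f n = P.coeff (φ n)) :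
    CoeffSpanProp N k := by
  classical
  have := finiteDimensional_cuspForm N k
  set r := Module.finrank ℂ (CuspForm (Gamma0 N) k)
  let b := Module.finBasis ℂ (CuspForm (Gamma0 N) k)
  choose P hP hPc using h
  have hT : ∀ s : Fin r, ∃ T : Finset (PowerSeries ℂ), (T : Set (PowerSeries ℂ)) ⊆ intO O ∧
      P (b s) ∈ Submodule.span ℂ (T : Set (PowerSeries ℂ)) := fun s =>
    Submodule.mem_span_finite_of_mem_span (hP (b s))
  choose T hTsub hTmem using hT
  let TT : Finset (PowerSeries ℂ) := Finset.univ.biUnion T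
  have hTTsub : (TT : Set (PowerSeries ℂ)) ⊆ intO O := by
    intro W hW
    obtain ⟨s, -, hs⟩ := Finset.mem_biUnion.mp hW
    exact hTsub s hs
  have hTTmem : ∀ s : Fin r, P (b s) ∈ Submodule.span ℂ (TT : Set (PowerSeries ℂ)) := fun s =>
    Submodule.span_mono (by
      intro W hW
      exact Finset.mem_biUnion.mpr ⟨s, Finset.mem_univ s, hW⟩) (hTmem s)
  have hc : ∀ s : Fin r, ∃ c : TT → ℂ, ∑ a : TT, c a • (a : PowerSeries ℂ) = P (b s) := fun s =>
    Submodule.mem_span_finset'.mp (hTTmem s)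
  choose c hc using hc
  let e : Fin TT.card ≃ TT := TT.equivFin.symm
  refine ⟨TT.card, Subalgebra.toSubmodule O, fun n j => (e j : PowerSeries ℂ).coeff (φ n), hO,
    fun n j => hTTsub (e j).2 (φ n), fun f => ?_⟩
  refine ⟨fun j => ∑ s : Fin r, b.repr f s * c s (e j), fun n => ?_⟩
  have hf : f = ∑ s : Fin r, b.repr f s • b s := (b.sum_repr f).symm
  have h1 : qCoeff f n = ∑ s : Fin r, b.repr f s * qCoeff (b s) n := by
    conv_lhs => rw [hf]
    rw [← coeffFun_apply, map_sum]
    simp only [map_smul, smul_eq_mul, coeffFun_apply]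
  have h2 : ∀ s : Fin r, qCoeff (b s) n = ∑ j, (e j : PowerSeries ℂ).coeff (φ n) * c s (e j) := by
    intro s
    rw [hPc (b s) n, ← hc s, map_sum, ← Equiv.sum_comp e]
    refine Finset.sum_congr rfl fun j _ => ?_
    rw [PowerSeries.coeff_smul, smul_eq_mul, mul_comm]
  rw [h1]
  simp_rw [h2, Finset.mul_sum]
  rw [Finset.sum_comm]
  refine Finset.sum_congr rfl fun j _ => Finset.sum_congr rfl fun s _ => ?_
  ring

/-! ### From the Lagrange identity to membership in the span -/

/-- For a `1`-periodic function, the `q_N`-expansion is the expansion of the `q`-expansion. -/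
theorem qExpansion_nat_eq_expand {N : ℕ} (hN : N ≠ 0) {F : ℍ → ℂ} (hF : QAn F) :
    qExpansion (N : ℝ) F = (qExpansion 1 F).expand N hN := by
  ext n
  have h := UpperHalfPlane.qExpansion_coeff_nat_mul (h := 1) one_pos hF.per hF.hol hF.bdd
    (M := N) (Nat.pos_of_ne_zero hN) n
  rw [mul_one] at h
  rw [h, PowerSeries.coeff_expand]

theorem analyticAt_cuspFunction_nat {N : ℕ} (hN : N ≠ 0) {F : ℍ → ℂ} (hF : QAn F) :
    AnalyticAt ℂ (cuspFunction (N : ℝ) F) 0 := by
  have hper : Function.Periodic (F ∘ ofComplex) ((N : ℝ) : ℂ) := by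
    have h := hF.per.nat_mul N
    simpa using h
  exact analyticAt_cuspFunction_zero (Nat.cast_pos.mpr (Nat.pos_of_ne_zero hN)) hper hF.hol hF.bdd

/-- The key step: from `f * R = ∑ i < d, r i * θ ^ i` (with `r i` of level one, `θ` with integral
`q`-expansion, and the `q_N`-expansion of `R` of the form `c • (X ^ e * u)`, `u` a unit-led
power series over `O`) we get that `X ^ e * expand N (q-expansion of f)` lies in the `ℂ`-span of
the `O`-integral power series. -/
theorem exists_mem_spanO_of_lagrange {N : ℕ} (hN : N ≠ 0) (O : Subalgebra ℤ ℂ)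
    {R θ : ℍ → ℂ} (hθ : QAn θ) (hθint : IsIntSeries (qExpansion 1 θ))
    (hRan : AnalyticAt ℂ (cuspFunction (N : ℝ) R) 0)
    {c : ℂ} (hc : c ≠ 0) (e : ℕ) (u : PowerSeries O) (hu : PowerSeries.constantCoeff u = 1)
    (hR : qExpansion (N : ℝ) R = c • (PowerSeries.X ^ e * u.map (algebraMap O ℂ)))
    {f : ℍ → ℂ} (hf : QAn f) (d : ℕ) (r : ℕ → ℍ → ℂ) (hr : ∀ i, ∃ w : ℤ, IsLO w (r i))
    (hL : ∀ τ, f τ * R τ = ∑ i ∈ Finset.range d, r i τ * θ τ ^ i) :
    ∃ P ∈ spanO O, ∀ n : ℕ, (qExpansion 1 f).coeff n = P.coeff (N * n + e) := by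
  set G : ℍ → ℂ := ∑ i ∈ Finset.range d, r i * θ ^ i with hG
  have hrq : ∀ i, QAn (r i) := fun i => (hr i).choose_spec.qan
  have hGq : QAn G := QAn.sum _ fun i _ => (hrq i).mul (hθ.pow i)
  have hGexp : qExpansion 1 G =
      ∑ i ∈ Finset.range d, qExpansion 1 (r i) * qExpansion 1 θ ^ i := by
    rw [hG, QAn.qExpansion_sum _ fun i _ => (hrq i).mul (hθ.pow i)]
    refine Finset.sum_congr rfl fun i _ => ?_
    rw [QAn.qExpansion_mul (hrq i) (hθ.pow i), QAn.qExpansion_pow hθ]
  have hGmem : qExpansion 1 G ∈ spanO O := by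
    rw [hGexp]
    refine Submodule.sum_mem _ fun i _ => spanO_mul ?_
      (spanO_pow (intO_subset_spanO (isIntSeries_mem_intO hθint)) i)
    obtain ⟨w, cform, hcform⟩ := hr i
    rw [← hcform]
    exact intSpan_le_spanO (levelOne_qExpansion_mem_intSpan cform)
  have hfun : f * R = G := by
    funext τ
    simp only [hG, Pi.mul_apply, Finset.sum_apply, Pi.pow_apply]
    exact hL τ
  have hmul : qExpansion (N : ℝ) (f * R) = qExpansion (N : ℝ) f * qExpansion (N : ℝ) R :=
    qExpansion_mul (analyticAt_cuspFunction_nat hN hf) hRan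
  rw [hfun, qExpansion_nat_eq_expand hN hGq, qExpansion_nat_eq_expand hN hf, hR] at hmul
  set v : PowerSeries O := PowerSeries.invOfUnit u 1 with hv
  have huv : u.map (algebraMap O ℂ) * v.map (algebraMap O ℂ) = 1 := by
    rw [← map_mul, hv, PowerSeries.mul_invOfUnit u 1 (by simpa using hu), map_one]
  refine ⟨c⁻¹ • (v.map (algebraMap O ℂ) * (qExpansion 1 G).expand N hN), ?_, ?_⟩
  · exact Submodule.smul_mem _ _
      (spanO_mul (intO_subset_spanO (map_mem_intO v)) (expand_mem_spanO hN hGmem))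
  · intro n
    have key : c⁻¹ • (v.map (algebraMap O ℂ) * (qExpansion 1 G).expand N hN) =
        PowerSeries.X ^ e * (qExpansion 1 f).expand N hN := by
      rw [hmul]
      have h3 : v.map (algebraMap O ℂ) * ((qExpansion 1 f).expand N hN *
          c • (PowerSeries.X ^ e * u.map (algebraMap O ℂ))) =
          c • (PowerSeries.X ^ e * (qExpansion 1 f).expand N hN) := by
        rw [mul_smul_comm, mul_smul_comm]
        congr 1
        calc v.map (algebraMap O ℂ) * ((qExpansion 1 f).expand N hN *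
              (PowerSeries.X ^ e * u.map (algebraMap O ℂ)))
            = PowerSeries.X ^ e * (qExpansion 1 f).expand N hN *
              (u.map (algebraMap O ℂ) * v.map (algebraMap O ℂ)) := by ring
          _ = PowerSeries.X ^ e * (qExpansion 1 f).expand N hN := by rw [huv, mul_one]
      rw [h3, smul_smul, inv_mul_cancel₀ hc, one_smul]
    rw [key, PowerSeries.coeff_X_pow_mul, PowerSeries.coeff_expand_mul]

/-! ### The ring `ℤ[ζ_N]` is a finitely generated `ℤ`-module -/

theorem zeta_pow (N : ℕ) (hN : N ≠ 0) : zeta N ^ N = 1 := by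
  unfold zeta
  rw [← Complex.exp_nat_mul, mul_div_cancel₀ _ (Nat.cast_ne_zero.mpr hN)]
  exact Complex.exp_two_pi_mul_I

theorem isIntegral_zeta (N : ℕ) (hN : N ≠ 0) : IsIntegral ℤ (zeta N) := by
  refine ⟨Polynomial.X ^ N - 1, Polynomial.monic_X_pow_sub_C 1 hN, ?_⟩
  simp [zeta_pow N hN]

theorem cyclo_fg (N : ℕ) (hN : N ≠ 0) : (Subalgebra.toSubmodule (cyclo N)).FG :=
  (isIntegral_zeta N hN).fg_adjoin_singleton

/-! ### Assembly -/

theorem qan_of_modularForm (N : ℕ) [NeZero N] {k : ℤ} (Θ : ModularForm (Gamma0 N) k) : QAn (⇑Θ : ℍ → ℂ) where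
  per := SlashInvariantFormClass.periodic_comp_ofComplex Θ
    (CongruenceSubgroup.one_mem_strictPeriods_Gamma0 N)
  hol := ModularFormClass.holo Θ
  bdd := ModularFormClass.bdd_at_infty Θ

theorem qan_of_cuspForm (N : ℕ) [NeZero N] {k : ℤ} (f : CuspForm (Gamma0 N) k) : QAn (⇑f : ℍ → ℂ) where
  per := SlashInvariantFormClass.periodic_comp_ofComplex f
    (CongruenceSubgroup.one_mem_strictPeriods_Gamma0 N)
  hol := ModularFormClass.holo f
  bdd := ModularFormClass.bdd_at_infty f

/-- **Route B assembly.** If the function `Rfun N Θ` has an analytic cusp function at period `N`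
with a good `q_N`-expansion, `Θ` has integral `q`-expansion, and every cusp form satisfies a
Lagrange identity `f * Rfun N Θ = ∑ i < d, r i * Θ ^ i` with level one `r i`, then the
coefficient sequences of cusp forms lie in the span of finitely many `ℤ[ζ_N]`-valued sequences. -/
theorem coeffSpanProp_of_lagrange (N : ℕ) [NeZero N] (k : ℤ) (Θ : ModularForm (Gamma0 N) 12)
    (hΘint : ∀ n : ℕ, ∃ z : ℤ, (qExpansion 1 Θ).coeff n = (z : ℂ))
    (hRan : AnalyticAt ℂ (cuspFunction (N : ℝ) (Rfun N Θ)) 0)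
    (hRgood : Good N (qExpansion (N : ℝ) (Rfun N Θ)))
    (hL : ∀ f : CuspForm (Gamma0 N) k, ∃ (d : ℕ) (r : ℕ → ℍ → ℂ), (∀ i, ∃ w : ℤ, IsLO w (r i)) ∧
      ∀ τ : ℍ, f τ * Rfun N Θ τ = ∑ i ∈ Finset.range d, r i τ * Θ τ ^ i) :
    CoeffSpanProp N k := by
  have hN : N ≠ 0 := NeZero.ne N
  obtain ⟨c, e, u, hc, hu, hR⟩ := hRgood
  refine coeffSpanProp_of_forall_mem_spanO N k (cyclo N) (cyclo_fg N hN) (fun n => N * n + e)
    fun f => ?_
  obtain ⟨d, r, hr, hL'⟩ := hL f
  exact exists_mem_spanO_of_lagrange hN (cyclo N) (qan_of_modularForm N Θ) hΘint hRan hc e u hu hR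
    (qan_of_cuspForm N f) d r hr hL'

end Fermat.Agent.S22.BAssembly
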