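import Fermat.Agent.S22.BDefs
import Fermat.Agent.S23.MonicRel

/-!
# S22, route B: the Lagrange interpolation identity over level one

For `f` a cusp form of weight `k` and `Θ` a modular form of weight `12` on `Γ₀(N)`,
the product `f · R`, `R = ∏_{q ≠ 1} (Θ - Θ_q)`, is a polynomial in `Θ` of degree `< μ`
whose coefficients are level one modular forms:
`f · R = ∑_{i < μ} r_i Θ^i`.
-/

set_option autoImplicit false

namespace Fermat.Agent.S22.BLagrange

open UpperHalfPlane ModularForm SlashInvariantForm Filter Topology Matrix.SpecialLinearGroup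
open scoped MatrixGroups Manifold ModularForm
open Fermat.Agent.S23

section Generic

variable {Γ : Subgroup (GL (Fin 2) ℝ)} {k m : ℤ} (Θ : ModularForm Γ m) (f : ModularForm Γ k)

local notation "𝒬" => 𝒮ℒ ⧸ (Γ.subgroupOf 𝒮ℒ)

variable [Γ.IsArithmetic]

attribute [local instance] Fermat.Agent.S23.MonicRel.fintypeQ

/-- The mixed power sum `∑_q f_q Θ_q ^ j` over the conjugates. -/
noncomputable def mixedSum (j : ℕ) (τ : ℍ) : ℂ :=
  ∑ q : 𝒬, quotientFunc f q τ * quotientFunc Θ q τ ^ j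

lemma mixedSum_eq (j : ℕ) :
    mixedSum Θ f j = ∑ q : 𝒬, quotientFunc f q * quotientFunc Θ q ^ j := by
  funext τ
  simp only [mixedSum, Finset.sum_apply, Pi.mul_apply, Pi.pow_apply]

lemma mixedSum_apply_smul (j : ℕ) (γ : SL(2, ℤ)) (τ : ℍ) :
    mixedSum Θ f j (γ • τ) = denom γ τ ^ (k + j * m) * mixedSum Θ f j τ := by
  have hd : denom γ τ ≠ 0 := denom_ne_zero _ τ
  unfold mixedSum
  rw [Finset.mul_sum]
  rw [← Equiv.sum_comp (MulAction.toPerm (MonicRel.toSL γ)⁻¹ : 𝒬 ≃ 𝒬)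
    (fun q => denom γ τ ^ (k + j * m) * (quotientFunc f q τ * quotientFunc Θ q τ ^ j))]
  refine Finset.sum_congr rfl fun q _ => ?_
  rw [MonicRel.quotientFunc_apply_smul f q γ τ, MonicRel.quotientFunc_apply_smul Θ q γ τ]
  simp only [MulAction.toPerm_apply]
  rw [zpow_add₀ hd, mul_pow, ← zpow_natCast (denom γ τ ^ m) j, ← zpow_mul, mul_comm m (j : ℤ)]
  ring

lemma isLO_mixedSum (j : ℕ) : IsLO (k + j * m) (mixedSum Θ f j) := by
  refine IsLO.of_apply_smul (mixedSum_apply_smul Θ f j) ?_ ?_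
  · rw [mixedSum_eq]
    exact MDifferentiable.sum fun q _ =>
      (MonicRel.mdiff_quotientFunc f q).mul ((MonicRel.mdiff_quotientFunc Θ q).pow j)
  · rw [mixedSum_eq]
    exact (boundedFilterSubmodule ℂ atImInfty).sum_mem fun q _ =>
      BoundedAtFilter.mul (MonicRel.bdd_quotientFunc f q)
        ((boundedFilterSubalgebra ℂ atImInfty).pow_mem (MonicRel.bdd_quotientFunc Θ q) j)

/-- The `i`-th Lagrange coefficient. -/
noncomputable def lagCoeff (i : ℕ) (τ : ℍ) : ℂ :=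
  ∑ l ∈ Finset.Icc (i + 1) (Fintype.card 𝒬),
    MonicRel.coefFn Θ l τ * mixedSum Θ f (l - (i + 1)) τ

lemma lagCoeff_eq (i : ℕ) :
    lagCoeff Θ f i = ∑ l ∈ Finset.Icc (i + 1) (Fintype.card 𝒬),
      MonicRel.coefFn Θ l * mixedSum Θ f (l - (i + 1)) := by
  funext τ
  simp only [lagCoeff, Finset.sum_apply, Pi.mul_apply]

lemma isLO_lagCoeff (i : ℕ) :
    IsLO (((Fintype.card 𝒬 : ℤ) - (i : ℤ) - 1) * m + k) (lagCoeff Θ f i) := by
  rw [lagCoeff_eq]
  refine IsLO.sum _ fun l hl => ?_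
  obtain ⟨h1, h2⟩ := Finset.mem_Icc.mp hl
  refine ((MonicRel.isLO_coefFn Θ h2).mul (isLO_mixedSum Θ f (l - (i + 1)))).congr_weight ?_
  push_cast [Nat.cast_sub h1]
  ring

omit [Γ.IsArithmetic] in
lemma quotientFunc_one (g : ModularForm Γ k) :
    quotientFunc g (QuotientGroup.mk 1 : 𝒬) = ⇑g := by
  have h2 : quotientFunc g (QuotientGroup.mk 1 : 𝒬)
      = (⇑g : ℍ → ℂ) ∣[k] ((1 : 𝒮ℒ) : GL (Fin 2) ℝ)⁻¹ := rfl
  rw [h2]
  simp

/-- The Lagrange identity for the conjugates. -/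
lemma lagrange_forms (τ : ℍ) :
    ∑ i ∈ Finset.range (Fintype.card 𝒬), lagCoeff Θ f i τ * Θ τ ^ i
      = f τ * ∏ q ∈ @Finset.erase 𝒬 (Classical.decEq 𝒬) Finset.univ (QuotientGroup.mk 1),
          (Θ τ - quotientFunc Θ q τ) := by
  have h := @lagrange_identity 𝒬 _ (Classical.decEq 𝒬) (fun q : 𝒬 => quotientFunc Θ q τ)
    (fun q : 𝒬 => quotientFunc f q τ) (QuotientGroup.mk 1)
  simp only [quotientFunc_one] at h
  exact h

end Generic

open CongruenceSubgroup in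
/-- **Task B: lagrange.** `f · R = ∑_{i < μ} r_i Θ^i` with level one coefficients `r_i`. -/
theorem exists_lagrange (N : ℕ) [NeZero N] {k : ℤ}
    (f : CuspForm (CongruenceSubgroup.Gamma0 N) k)
    (Θ : ModularForm (CongruenceSubgroup.Gamma0 N) 12) :
    ∃ r : ℕ → ℍ → ℂ, (∀ i, ∃ w : ℤ, Fermat.Agent.S23.IsLO w (r i)) ∧
      ∀ τ : ℍ, f τ * Fermat.Agent.S22.BDefs.Rfun N Θ τ
        = ∑ i ∈ Finset.range (Fermat.Agent.S22.BDefs.mu N), r i τ * Θ τ ^ i := by
  refine ⟨lagCoeff Θ (CuspForm.toModularFormₗ f), fun i => ⟨_, isLO_lagCoeff Θ _ i⟩, fun τ => ?_⟩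
  have h := lagrange_forms Θ (CuspForm.toModularFormₗ f) τ
  have hmu : Fermat.Agent.S22.BDefs.mu N
      = @Fintype.card (Fermat.Agent.S22.BDefs.Q N) (Fermat.Agent.S23.MonicRel.fintypeQ) := by
    unfold Fermat.Agent.S22.BDefs.mu
    exact @Nat.card_eq_fintype_card _ (Fermat.Agent.S23.MonicRel.fintypeQ)
  rw [hmu, h]
  congr 1
  unfold Fermat.Agent.S22.BDefs.Rfun
  simp only [Finset.prod_apply, Pi.sub_apply]
  rfl

end Fermat.Agent.S22.BLagrange
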