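import Mathlib
import Fermat.Prelude.Thm_UpperHalfPlane_qExpansion_prod
import Fermat.Agent.S22.BDefs

/-!
# S22, route B: the `q_N`-expansion of `Rfun N Θ`

`Good` power series are closed under finite products; hence `ThetaProp N Θ` implies that the
product `Rfun N Θ = ∏_{q ≠ 1} (Θ - Θ_q)` has an analytic cusp function at period `N` and a good
`q_N`-expansion.
-/

set_option autoImplicit false

open UpperHalfPlane CongruenceSubgroup
open scoped MatrixGroups ModularForm Manifold

noncomputable section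

namespace Fermat.Agent.S22.BProduct

open Fermat.Agent.S22.BDefs

theorem good_one (N : ℕ) : Good N 1 :=
  ⟨1, 0, 1, one_ne_zero, by simp, by simp⟩

theorem good_mul {N : ℕ} {P P' : PowerSeries ℂ} (h : Good N P) (h' : Good N P') :
    Good N (P * P') := by
  obtain ⟨c, e, u, hc, hu, rfl⟩ := h
  obtain ⟨c', e', u', hc', hu', rfl⟩ := h'
  refine ⟨c * c', e + e', u * u', mul_ne_zero hc hc', by simp [hu, hu'], ?_⟩
  rw [smul_mul_smul_comm, map_mul, pow_add]
  congr 1
  ring

theorem good_prod {N : ℕ} {ι : Type*} (s : Finset ι) (P : ι → PowerSeries ℂ)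
    (h : ∀ i ∈ s, Good N (P i)) : Good N (∏ i ∈ s, P i) := by
  classical
  induction s using Finset.induction_on with
  | empty => simpa using good_one N
  | insert a s ha ih =>
    rw [Finset.prod_insert ha]
    exact good_mul (h a (Finset.mem_insert_self a s))
      (ih fun i hi => h i (Finset.mem_insert_of_mem hi))

/-- The cusp function of a finite product of functions with analytic cusp functions is
analytic. -/
theorem analyticAt_cuspFunction_prod {h : ℝ} {ι : Type*} (s : Finset ι) {F : ι → ℍ → ℂ}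
    (hF : ∀ i ∈ s, AnalyticAt ℂ (cuspFunction h (F i)) 0) :
    AnalyticAt ℂ (cuspFunction h (∏ i ∈ s, F i)) 0 := by
  induction s using Finset.cons_induction with
  | empty =>
    have h1 : cuspFunction h (1 : ℍ → ℂ) = 1 := by
      ext q
      rcases eq_or_ne q 0 with rfl | hq
      · simp [cuspFunction, Function.Periodic.cuspFunction]
        exact Filter.Tendsto.limUnder_eq tendsto_const_nhds
      · simp [cuspFunction, Function.Periodic.cuspFunction_eq_of_nonzero h _ hq]
    rw [Finset.prod_empty, h1]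
    exact analyticAt_const
  | cons a s ha ih =>
    have hFa : AnalyticAt ℂ (cuspFunction h (F a)) 0 := hF a (Finset.mem_cons_self a s)
    have ih2 := ih fun i hi ↦ hF i (Finset.mem_cons_of_mem hi)
    rw [Finset.prod_cons, cuspFunction_mul hFa.continuousAt ih2.continuousAt]
    exact hFa.mul ih2

/-- Every non-identity coset translate of `Θ` is `Θ ∣[12] σ` for some `σ ∉ Γ₀(N)`. -/
theorem exists_sigma (N : ℕ) [NeZero N] (Θ : ModularForm (Gamma0 N) 12) (q : Q N)
    (hq : q ≠ q1 N) :
    ∃ σ : SL(2, ℤ), σ ∉ Gamma0 N ∧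
      SlashInvariantForm.quotientFunc Θ q = (⇑Θ : ℍ → ℂ) ∣[(12 : ℤ)] σ := by
  induction q using QuotientGroup.induction_on with
  | H h =>
    obtain ⟨σ, hσ⟩ : ∃ σ : SL(2, ℤ), Matrix.SpecialLinearGroup.mapGL ℝ σ = h.val := h.2
    refine ⟨σ⁻¹, ?_, ?_⟩
    · intro hmem
      apply hq
      have hσmem : σ ∈ Gamma0 N := by simpa using inv_mem hmem
      show (QuotientGroup.mk h : Q N) = QuotientGroup.mk 1
      rw [QuotientGroup.eq, mul_one, Subgroup.mem_subgroupOf]
      refine ⟨σ⁻¹, inv_mem hσmem, ?_⟩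
      rw [map_inv, hσ]
      rfl
    · show SlashInvariantForm.quotientFunc Θ ⟦h⟧ = _
      rw [SlashInvariantForm.quotientFunc_mk, ← hσ, ← map_inv]
      rfl

/-- **Product step.** -/
theorem rfun_good (N : ℕ) [NeZero N] (Θ : ModularForm (Gamma0 N) 12) (hΘ : ThetaProp N Θ) :
    AnalyticAt ℂ (cuspFunction (N : ℝ) (Rfun N Θ)) 0 ∧
      Good N (qExpansion (N : ℝ) (Rfun N Θ)) := by
  let _ := Fintype.ofFinite (Q N)
  let _ := Classical.decEq (Q N)
  have key : ∀ q ∈ (Finset.univ : Finset (Q N)).erase (q1 N),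
      AnalyticAt ℂ (cuspFunction (N : ℝ)
        ((⇑Θ : ℍ → ℂ) - SlashInvariantForm.quotientFunc Θ q)) 0 ∧
      Good N (qExpansion (N : ℝ) ((⇑Θ : ℍ → ℂ) - SlashInvariantForm.quotientFunc Θ q)) := by
    intro q hq
    obtain ⟨σ, hσ, hqσ⟩ := exists_sigma N Θ q (Finset.ne_of_mem_erase hq)
    rw [hqσ]
    exact hΘ.2 σ hσ
  refine ⟨analyticAt_cuspFunction_prod _ fun q hq => (key q hq).1, ?_⟩
  show Good N (qExpansion (N : ℝ) (∏ q ∈ (Finset.univ : Finset (Q N)).erase (q1 N),
    ((⇑Θ : ℍ → ℂ) - SlashInvariantForm.quotientFunc Θ q)))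
  rw [UpperHalfPlane.qExpansion_prod _ fun q hq => (key q hq).1]
  exact good_prod _ _ fun q hq => (key q hq).2

end Fermat.Agent.S22.BProduct
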