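import Mathlib

set_option autoImplicit false

namespace Fermat.Agent.S22.BolComplex

/-- The open upper half plane as a subset of `ℂ`. -/
def upperSet : Set ℂ := {z : ℂ | 0 < z.im}

theorem isOpen_upperSet : IsOpen upperSet :=
  isOpen_lt continuous_const Complex.continuous_im

theorem mem_upperSet {z : ℂ} : z ∈ upperSet ↔ 0 < z.im := Iff.rfl

theorem convex_upperSet : Convex ℝ upperSet := by
  intro x hx y hy s t hs ht hst
  simp only [mem_upperSet, Complex.add_im, Complex.real_smul, Complex.mul_im, Complex.ofReal_re,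
    Complex.ofReal_im, zero_mul, add_zero] at *
  rcases eq_or_lt_of_le hs with rfl | hs'
  · have : t = 1 := by linarith
    subst this; simpa using hy
  · have h1 : 0 < s * x.im := mul_pos hs' hx
    have h2 : 0 ≤ t * y.im := mul_nonneg ht hy.le
    linarith

theorem differentiableOn_iteratedDeriv_upperSet {F : ℂ → ℂ} (hF : DifferentiableOn ℂ F upperSet)
    (n : ℕ) : DifferentiableOn ℂ (iteratedDeriv n F) upperSet := by
  induction n with
  | zero => simpa [iteratedDeriv_zero] using hF
  | succ n ih => rw [iteratedDeriv_succ]; exact ih.deriv isOpen_upperSet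

theorem iteratedDeriv_congr_upperSet {f g : ℂ → ℂ} (h : ∀ z ∈ upperSet, f z = g z) (n : ℕ)
    {z : ℂ} (hz : z ∈ upperSet) : iteratedDeriv n f z = iteratedDeriv n g z := by
  apply Filter.EventuallyEq.iteratedDeriv_eq
  filter_upwards [isOpen_upperSet.mem_nhds hz] with w hw using h w hw

theorem deriv_congr_upperSet {f g : ℂ → ℂ} (h : ∀ z ∈ upperSet, f z = g z)
    {z : ℂ} (hz : z ∈ upperSet) : deriv f z = deriv g z := by
  apply Filter.EventuallyEq.deriv_eq
  filter_upwards [isOpen_upperSet.mem_nhds hz] with w hw using h w hw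

/-- Leibniz rule for a linear factor. -/
theorem iteratedDeriv_succ_linear_mul {H : ℂ → ℂ} (hH : DifferentiableOn ℂ H upperSet) (c d : ℂ)
    (m : ℕ) {z : ℂ} (hz : z ∈ upperSet) :
    iteratedDeriv (m + 1) (fun w => (c * w + d) * H w) z
      = (c * z + d) * iteratedDeriv (m + 1) H z + (m + 1) * c * iteratedDeriv m H z := by
  induction m generalizing z with
  | zero =>
    have hHz : DifferentiableAt ℂ H z := hH.differentiableAt (isOpen_upperSet.mem_nhds hz)
    have h1 : HasDerivAt (fun w : ℂ => c * w + d) c z := by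
      simpa using ((hasDerivAt_id z).const_mul c).add_const d
    have h2 : HasDerivAt (fun w => (c * w + d) * H w) (c * H z + (c * z + d) * deriv H z) z :=
      h1.mul hHz.hasDerivAt
    rw [zero_add, iteratedDeriv_one, iteratedDeriv_one, iteratedDeriv_zero, h2.deriv]
    push_cast
    ring
  | succ m ih =>
    rw [iteratedDeriv_succ]
    have hcongr : deriv (iteratedDeriv (m + 1) (fun w => (c * w + d) * H w)) z
        = deriv (fun w => (c * w + d) * iteratedDeriv (m + 1) H w
            + (m + 1) * c * iteratedDeriv m H w) z :=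
      deriv_congr_upperSet (fun w hw => ih hw) hz
    rw [hcongr]
    have hd1 : DifferentiableAt ℂ (iteratedDeriv (m + 1) H) z :=
      (differentiableOn_iteratedDeriv_upperSet hH (m + 1)).differentiableAt
        (isOpen_upperSet.mem_nhds hz)
    have hd0 : DifferentiableAt ℂ (iteratedDeriv m H) z :=
      (differentiableOn_iteratedDeriv_upperSet hH m).differentiableAt
        (isOpen_upperSet.mem_nhds hz)
    have h1 : HasDerivAt (fun w : ℂ => c * w + d) c z := by
      simpa using ((hasDerivAt_id z).const_mul c).add_const d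
    have h2 : HasDerivAt (fun w => (c * w + d) * iteratedDeriv (m + 1) H w
            + (m + 1) * c * iteratedDeriv m H w)
        (c * iteratedDeriv (m + 1) H z + (c * z + d) * deriv (iteratedDeriv (m + 1) H) z +
          (m + 1) * c * deriv (iteratedDeriv m H) z) z :=
      (h1.mul hd1.hasDerivAt).add (hd0.hasDerivAt.const_mul ((m + 1 : ℂ) * c))
    rw [h2.deriv]
    have e1 : deriv (iteratedDeriv (m + 1) H) z = iteratedDeriv (m + 1 + 1) H z :=
      (congrFun (iteratedDeriv_succ (n := m + 1) (f := H)) z).symm
    have e0 : deriv (iteratedDeriv m H) z = iteratedDeriv (m + 1) H z :=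
      (congrFun (iteratedDeriv_succ (n := m) (f := H)) z).symm
    rw [e1, e0]
    push_cast
    ring

/-- The Möbius map `w ↦ (a w + b) / (c w + d)` on `ℂ`. -/
noncomputable def mob (a b c d : ℂ) (w : ℂ) : ℂ := (a * w + b) / (c * w + d)

theorem hasDerivAt_mob {a b c d : ℂ} (hdet : a * d - b * c = 1) {z : ℂ} (hz : c * z + d ≠ 0) :
    HasDerivAt (mob a b c d) (((c * z + d) ^ 2)⁻¹) z := by
  have h1 : HasDerivAt (fun w : ℂ => a * w + b) a z := by
    simpa using ((hasDerivAt_id z).const_mul a).add_const b
  have h2 : HasDerivAt (fun w : ℂ => c * w + d) c z := by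
    simpa using ((hasDerivAt_id z).const_mul c).add_const d
  have h3 := h1.div h2 hz
  have e : (a * (c * z + d) - (a * z + b) * c) / (c * z + d) ^ 2 = ((c * z + d) ^ 2)⁻¹ := by
    have : a * (c * z + d) - (a * z + b) * c = 1 := by linear_combination hdet
    rw [this, one_div]
  rw [← e]
  exact h3

theorem differentiableOn_mob {a b c d : ℂ} (hdet : a * d - b * c = 1)
    (hden : ∀ z ∈ upperSet, c * z + d ≠ 0) : DifferentiableOn ℂ (mob a b c d) upperSet :=
  fun z hz => (hasDerivAt_mob hdet (hden z hz)).differentiableAt.differentiableWithinAt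

theorem differentiableOn_comp_mob {F : ℂ → ℂ} (hF : DifferentiableOn ℂ F upperSet)
    {a b c d : ℂ} (hdet : a * d - b * c = 1)
    (hden : ∀ z ∈ upperSet, c * z + d ≠ 0) (hmaps : ∀ z ∈ upperSet, mob a b c d z ∈ upperSet) :
    DifferentiableOn ℂ (fun w => F (mob a b c d w)) upperSet :=
  hF.comp (differentiableOn_mob hdet hden) hmaps

theorem differentiableOn_zpow_linear {c d : ℂ} (hden : ∀ z ∈ upperSet, c * z + d ≠ 0) (m : ℤ) :
    DifferentiableOn ℂ (fun w : ℂ => (c * w + d) ^ m) upperSet := by
  intro z hz
  have h2 : HasDerivAt (fun w : ℂ => c * w + d) c z := by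
    simpa using ((hasDerivAt_id z).const_mul c).add_const d
  exact ((hasDerivAt_zpow m (c * z + d) (Or.inl (hden z hz))).comp z h2).differentiableAt.differentiableWithinAt

/-- **Bol's identity**: `D^n [ (cz+d)^(n-1) F(γ z) ] = (cz+d)^(-n-1) (D^n F)(γ z)` for a Möbius
map `γ` of determinant one preserving the upper half plane. -/
theorem bol_identity_mob {F : ℂ → ℂ} (hF : DifferentiableOn ℂ F upperSet) {a b c d : ℂ}
    (hdet : a * d - b * c = 1) (hden : ∀ z ∈ upperSet, c * z + d ≠ 0)
    (hmaps : ∀ z ∈ upperSet, mob a b c d z ∈ upperSet) (n : ℕ) {z : ℂ} (hz : z ∈ upperSet) :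
    iteratedDeriv n (fun w => (c * w + d) ^ ((n : ℤ) - 1) * F (mob a b c d w)) z
      = (c * z + d) ^ (-(n : ℤ) - 1) * iteratedDeriv n F (mob a b c d z) := by
  induction n generalizing z with
  | zero => simp [iteratedDeriv_zero]
  | succ n ih =>
    set H : ℂ → ℂ := fun w => (c * w + d) ^ ((n : ℤ) - 1) * F (mob a b c d w) with hHdef
    have hHdiff : DifferentiableOn ℂ H upperSet :=
      (differentiableOn_zpow_linear hden _).mul (differentiableOn_comp_mob hF hdet hden hmaps)
    -- rewrite the function as `(c w + d) * H w` on the upper half plane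
    have hfun : ∀ w ∈ upperSet, (c * w + d) ^ (((n + 1 : ℕ) : ℤ) - 1) * F (mob a b c d w)
        = (c * w + d) * H w := by
      intro w hw
      have hJ := hden w hw
      have e : (((n + 1 : ℕ) : ℤ) - 1) = ((n : ℤ) - 1) + 1 := by push_cast; ring
      rw [hHdef, e, zpow_add_one₀ hJ]
      ring
    rw [iteratedDeriv_congr_upperSet hfun (n + 1) hz, iteratedDeriv_succ_linear_mul hHdiff c d n hz]
    -- the `n`-th derivative of `H` on the upper half plane
    have hn : ∀ w ∈ upperSet, iteratedDeriv n H w
        = (c * w + d) ^ (-(n : ℤ) - 1) * iteratedDeriv n F (mob a b c d w) := fun w hw => ih hw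
    have hJ := hden z hz
    have hd1 : HasDerivAt (fun w : ℂ => (c * w + d) ^ (-(n : ℤ) - 1))
        ((-(n : ℤ) - 1 : ℤ) * (c * z + d) ^ (-(n : ℤ) - 1 - 1) * c) z := by
      have h2 : HasDerivAt (fun w : ℂ => c * w + d) c z := by
        simpa using ((hasDerivAt_id z).const_mul c).add_const d
      exact (hasDerivAt_zpow (-(n : ℤ) - 1) (c * z + d) (Or.inl hJ)).comp z h2
    have hFn : DifferentiableAt ℂ (iteratedDeriv n F) (mob a b c d z) :=
      (differentiableOn_iteratedDeriv_upperSet hF n).differentiableAt
        (isOpen_upperSet.mem_nhds (hmaps z hz))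
    have hd2 : HasDerivAt (fun w : ℂ => iteratedDeriv n F (mob a b c d w))
        (deriv (iteratedDeriv n F) (mob a b c d z) * ((c * z + d) ^ 2)⁻¹) z :=
      hFn.hasDerivAt.comp z (hasDerivAt_mob hdet hJ)
    have hd3 : HasDerivAt (fun w : ℂ => (c * w + d) ^ (-(n : ℤ) - 1) * iteratedDeriv n F (mob a b c d w))
        ((-(n : ℤ) - 1 : ℤ) * (c * z + d) ^ (-(n : ℤ) - 1 - 1) * c * iteratedDeriv n F (mob a b c d z)
          + (c * z + d) ^ (-(n : ℤ) - 1)
            * (deriv (iteratedDeriv n F) (mob a b c d z) * ((c * z + d) ^ 2)⁻¹)) z :=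
      hd1.mul hd2
    have hsucc : iteratedDeriv (n + 1) H z
        = (-(n : ℤ) - 1 : ℤ) * (c * z + d) ^ (-(n : ℤ) - 1 - 1) * c * iteratedDeriv n F (mob a b c d z)
          + (c * z + d) ^ (-(n : ℤ) - 1)
            * (deriv (iteratedDeriv n F) (mob a b c d z) * ((c * z + d) ^ 2)⁻¹) := by
      rw [iteratedDeriv_succ, deriv_congr_upperSet hn hz, hd3.deriv]
    have e1 : deriv (iteratedDeriv n F) (mob a b c d z) = iteratedDeriv (n + 1) F (mob a b c d z) :=
      (congrFun (iteratedDeriv_succ (n := n) (f := F)) _).symm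
    rw [hsucc, hn z hz, e1]
    have e2 : (-(((n + 1 : ℕ)) : ℤ) - 1) = (-(n : ℤ) - 1) - 1 := by push_cast; ring
    rw [e2, zpow_sub_one₀ hJ]
    generalize (c * z + d) ^ (-(n : ℤ) - 1) = P
    generalize iteratedDeriv n F (mob a b c d z) = X
    generalize iteratedDeriv (n + 1) F (mob a b c d z) = Y
    push_cast
    field_simp
    ring

open Polynomial in
/-- Every complex polynomial has a polynomial antiderivative (with controlled degree). -/
theorem exists_polynomial_antiderivative (Q : Polynomial ℂ) :
    ∃ R : Polynomial ℂ, Polynomial.derivative R = Q ∧ R.natDegree ≤ Q.natDegree + 1 ∧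
      (Q = 0 → R = 0) := by
  refine ⟨∑ i ∈ Finset.range (Q.natDegree + 1), Polynomial.monomial (i + 1) (Q.coeff i / ((i : ℂ) + 1)),
    ?_, ?_, ?_⟩
  · rw [Polynomial.derivative_sum]
    conv_rhs => rw [Q.as_sum_range]
    refine Finset.sum_congr rfl fun i _ => ?_
    rw [Polynomial.derivative_monomial]
    congr 1
    have : ((i : ℂ) + 1) ≠ 0 := by exact_mod_cast Nat.succ_ne_zero i
    push_cast
    field_simp
  · refine Polynomial.natDegree_sum_le_of_forall_le _ _ fun i hi => ?_
    refine (Polynomial.natDegree_monomial_le _).trans ?_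
    have := Finset.mem_range.mp hi
    omega
  · rintro rfl
    simp

/-- A holomorphic function on the upper half plane whose `n`-th derivative vanishes there agrees
on the upper half plane with a polynomial of degree `< n`. -/
theorem exists_polynomial_of_iteratedDeriv_eq_zero {G : ℂ → ℂ}
    (hG : DifferentiableOn ℂ G upperSet) (n : ℕ)
    (h : ∀ z ∈ upperSet, iteratedDeriv n G z = 0) :
    ∃ P : Polynomial ℂ, P.degree < n ∧ ∀ z ∈ upperSet, G z = P.eval z := by
  induction n generalizing G with
  | zero =>
    refine ⟨0, ?_, fun z hz => ?_⟩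
    · simp
    · simpa [iteratedDeriv_zero] using h z hz
  | succ n ih =>
    have hG' : DifferentiableOn ℂ (deriv G) upperSet := hG.deriv isOpen_upperSet
    have h' : ∀ z ∈ upperSet, iteratedDeriv n (deriv G) z = 0 := by
      intro z hz
      have := h z hz
      rwa [iteratedDeriv_succ'] at this
    obtain ⟨Q, hQdeg, hQ⟩ := ih hG' h'
    obtain ⟨R, hRder, hRdeg, hR0⟩ := exists_polynomial_antiderivative Q
    -- `G - R` has zero derivative on the upper half plane
    have hdiff : DifferentiableOn ℂ (fun z => G z - R.eval z) upperSet :=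
      hG.sub R.differentiable.differentiableOn
    have hder0 : Set.EqOn (deriv (fun z => G z - R.eval z)) 0 upperSet := by
      intro z hz
      have hGz : DifferentiableAt ℂ G z := hG.differentiableAt (isOpen_upperSet.mem_nhds hz)
      have h1 : HasDerivAt (fun z => G z - R.eval z) (deriv G z - (Polynomial.derivative R).eval z) z :=
        hGz.hasDerivAt.sub (R.hasDerivAt z)
      rw [h1.deriv, hRder, hQ z hz]
      simp
    have hI : Complex.I ∈ upperSet := by simp [mem_upperSet]
    have hconst : ∀ z ∈ upperSet, G z - R.eval z = G Complex.I - R.eval Complex.I := fun z hz =>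
      isOpen_upperSet.is_const_of_deriv_eq_zero convex_upperSet.isPreconnected hdiff hder0 hz hI
    refine ⟨R + Polynomial.C (G Complex.I - R.eval Complex.I), ?_, fun z hz => ?_⟩
    · by_cases hQ0 : Q = 0
      · rw [hR0 hQ0, zero_add]
        refine lt_of_le_of_lt Polynomial.degree_C_le ?_
        exact_mod_cast Nat.succ_pos n
      · have hQn : Q.natDegree < n := by
          have := (Polynomial.natDegree_lt_iff_degree_lt hQ0).mpr hQdeg
          exact this
        have hRn : R.natDegree < n + 1 := by omega
        have hsum : (R + Polynomial.C (G Complex.I - R.eval Complex.I)).natDegree < n + 1 := by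
          refine lt_of_le_of_lt (Polynomial.natDegree_add_le _ _) ?_
          rw [Polynomial.natDegree_C]
          simpa using hRn
        refine lt_of_le_of_lt Polynomial.degree_le_natDegree ?_
        exact_mod_cast hsum
    · have := hconst z hz
      simp only [Polynomial.eval_add, Polynomial.eval_C]
      linear_combination this

/-- Coefficient form of `exists_polynomial_of_iteratedDeriv_eq_zero`. -/
theorem exists_coeff_of_iteratedDeriv_eq_zero {G : ℂ → ℂ}
    (hG : DifferentiableOn ℂ G upperSet) (n : ℕ)
    (h : ∀ z ∈ upperSet, iteratedDeriv n G z = 0) :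
    ∃ c : ℕ → ℂ, ∀ z ∈ upperSet, G z = ∑ i ∈ Finset.range n, c i * z ^ i := by
  obtain ⟨P, hP, hG'⟩ := exists_polynomial_of_iteratedDeriv_eq_zero hG n h
  refine ⟨fun i => P.coeff i, fun z hz => ?_⟩
  rw [hG' z hz]
  by_cases hP0 : P = 0
  · subst hP0
    simp
  · rw [Polynomial.eval_eq_sum_range' ((Polynomial.natDegree_lt_iff_degree_lt hP0).mpr hP)]

/-- A polynomial vanishing on the upper half plane is zero. -/
theorem polynomial_eq_zero_of_eval_upperSet {P : Polynomial ℂ}
    (h : ∀ z ∈ upperSet, P.eval z = 0) : P = 0 := by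
  by_contra hP
  have hfin : (P.rootSet ℂ).Finite := Polynomial.rootSet_finite P ℂ
  have hsub : upperSet ⊆ P.rootSet ℂ := by
    intro z hz
    rw [Polynomial.mem_rootSet]
    exact ⟨hP, by simpa using h z hz⟩
  have hinf : upperSet.Infinite := by
    have hinj : Function.Injective (fun n : ℕ => ((n : ℂ) + Complex.I)) := by
      intro m n hmn
      have := congrArg Complex.re hmn
      simpa using this
    refine Set.infinite_of_injective_forall_mem hinj fun n => ?_
    simp [mem_upperSet]
  exact hinf (hfin.subset hsub)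

/-- Uniqueness of the coefficients. -/
theorem coeff_eq_zero_of_sum_eq_zero_upperSet {n : ℕ} {c : ℕ → ℂ}
    (h : ∀ z ∈ upperSet, ∑ i ∈ Finset.range n, c i * z ^ i = 0) :
    ∀ i < n, c i = 0 := by
  have hP : (∑ i ∈ Finset.range n, Polynomial.monomial i (c i) : Polynomial ℂ) = 0 := by
    apply polynomial_eq_zero_of_eval_upperSet
    intro z hz
    rw [Polynomial.eval_finsetSum]
    simpa [Polynomial.eval_monomial] using h z hz
  intro i hi
  have := congrArg (fun P : Polynomial ℂ => P.coeff i) hP
  simp only [Polynomial.finsetSum_coeff, Polynomial.coeff_monomial, Polynomial.coeff_zero] at this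
  rw [Finset.sum_ite_eq' (Finset.range n) i (fun j => c j)] at this
  simpa [Finset.mem_range.mpr hi] using this

end Fermat.Agent.S22.BolComplex
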