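import Mathlib
import Fermat.Prelude.Def_ModularForm_HeckeOperator
import Fermat.Prelude.Thm_ModularForm_mdifferentiable_heckeT
import Fermat.Prelude.Thm_ModularForm_mdifferentiable_heckeU
import Fermat.Agent.S22.Bol

/-!
# Eichler integrals and Hecke operators (independent backup proof)

If `F` is holomorphic on `ℍ` and vanishes at `i∞`, then
`G := p ^ (w + 1) • heckeT (-w) p F` is holomorphic, vanishes at `i∞`, and satisfies
`D^[w + 1] G = heckeT (w + 2) p (D^[w + 1] F)`; the same holds for `heckeU`.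
-/

open UpperHalfPlane hiding I
open Real Complex Derivative
open scoped Manifold MatrixGroups ModularForm Topology

namespace Fermat.Agent.S22.EichlerHecke2

/-- The lower-left entry of `heckeMatrix p j` vanishes. -/
theorem heckeMatrix_one_zero (p j : ℕ) : (ModularForm.heckeMatrix p j) 1 0 = 0 := by
  rcases eq_or_ne p 0 with rfl | hp
  · simp
  · have h := ModularForm.val_heckeMatrix hp j
    have h2 := congrFun (congrFun h 1) 0
    simpa using h2

/-- The lower-left entry of `heckeDiagMatrix p` vanishes. -/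
theorem heckeDiagMatrix_one_zero (p : ℕ) : (ModularForm.heckeDiagMatrix p) 1 0 = 0 := by
  rcases eq_or_ne p 0 with rfl | hp
  · simp
  · have h := ModularForm.val_heckeDiagMatrix hp
    have h2 := congrFun (congrFun h 1) 0
    simpa using h2

/-- Bol's identity for a matrix of determinant `p`, with the power of `p` moved to the left. -/
theorem pow_smul_iterate_D_slash (w : ℕ) {p : ℕ} (hp : p ≠ 0) {F : ℍ → ℂ} (hF : MDiff F)
    {g : GL (Fin 2) ℝ} (hg : g.val.det = (p : ℝ)) :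
    (p : ℂ) ^ (w + 1) • D^[w + 1] (F ∣[-(w : ℤ)] g) = (D^[w + 1] F) ∣[(w : ℤ) + 2] g := by
  have hp' : (p : ℂ) ≠ 0 := by exact_mod_cast hp
  have hpos : 0 < g.val.det := by rw [hg]; exact_mod_cast Nat.pos_of_ne_zero hp
  rw [Fermat.Agent.S22.Bol.bol_neg w hF hpos]
  funext τ
  simp only [Pi.smul_apply, smul_eq_mul, hg, Complex.ofReal_natCast]
  rw [← mul_assoc, inv_pow, mul_inv_cancel₀ (pow_ne_zero _ hp'), one_mul]

theorem det_val_heckeMatrix {p : ℕ} (hp : p ≠ 0) (j : ℕ) :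
    (ModularForm.heckeMatrix p j).val.det = (p : ℝ) := by
  rw [← Matrix.GeneralLinearGroup.val_det_apply]; exact ModularForm.det_heckeMatrix hp j

theorem det_val_heckeDiagMatrix {p : ℕ} (hp : p ≠ 0) :
    (ModularForm.heckeDiagMatrix p).val.det = (p : ℝ) := by
  rw [← Matrix.GeneralLinearGroup.val_det_apply]; exact ModularForm.det_heckeDiagMatrix hp

/-- A finite sum of functions vanishing at `i∞` vanishes at `i∞`. -/
theorem isZeroAtImInfty_finset_sum {ι : Type*} (s : Finset ι) {F : ι → ℍ → ℂ}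
    (hF : ∀ i ∈ s, IsZeroAtImInfty (F i)) : IsZeroAtImInfty (∑ i ∈ s, F i) := by
  classical
  induction s using Finset.induction_on with
  | empty =>
    rw [Finset.sum_empty]
    exact Filter.zero_zeroAtFilter _
  | insert a s ha ih =>
    rw [Finset.sum_insert ha]
    exact (hF a (Finset.mem_insert_self a s)).add
      (ih fun i hi ↦ hF i (Finset.mem_insert_of_mem hi))

/-- `heckeU` preserves vanishing at `i∞`. -/
theorem isZeroAtImInfty_heckeU (k : ℤ) (p : ℕ) {F : ℍ → ℂ} (hz : IsZeroAtImInfty F) :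
    IsZeroAtImInfty (ModularForm.heckeU k p F) := by
  rw [ModularForm.heckeU_def]
  exact isZeroAtImInfty_finset_sum _ fun j _ ↦ hz.slash k (heckeMatrix_one_zero p j)

/-- `heckeT` preserves vanishing at `i∞`. -/
theorem isZeroAtImInfty_heckeT (k : ℤ) (p : ℕ) {F : ℍ → ℂ} (hz : IsZeroAtImInfty F) :
    IsZeroAtImInfty (ModularForm.heckeT k p F) := by
  rw [ModularForm.heckeT_eq_heckeU_add]
  exact (isZeroAtImInfty_heckeU k p hz).add (hz.slash k (heckeDiagMatrix_one_zero p))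

/-- `D^[w+1]` intertwines `p^(w+1) • heckeU (-w) p` and `heckeU (w+2) p`. -/
theorem iterate_D_heckeU (w : ℕ) {p : ℕ} (hp : p ≠ 0) {F : ℍ → ℂ} (hF : MDiff F) :
    D^[w + 1] ((p : ℂ) ^ (w + 1) • ModularForm.heckeU (-(w : ℤ)) p F) =
      ModularForm.heckeU ((w : ℤ) + 2) p (D^[w + 1] F) := by
  have hU : MDiff (ModularForm.heckeU (-(w : ℤ)) p F) :=
    ModularForm.mdifferentiable_heckeU hF _ p
  rw [Fermat.Agent.S22.Bol.iterate_D_smul _ _ hU, ModularForm.heckeU_def, ModularForm.heckeU_def,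
    Fermat.Agent.S22.Bol.iterate_D_sum _ _ (fun j _ ↦ hF.slash _ _), Finset.smul_sum]
  exact Finset.sum_congr rfl fun j _ ↦
    pow_smul_iterate_D_slash w hp hF (det_val_heckeMatrix hp j)

/-- `D^[w+1]` intertwines `p^(w+1) • heckeT (-w) p` and `heckeT (w+2) p`. -/
theorem iterate_D_heckeT (w : ℕ) {p : ℕ} (hp : p ≠ 0) {F : ℍ → ℂ} (hF : MDiff F) :
    D^[w + 1] ((p : ℂ) ^ (w + 1) • ModularForm.heckeT (-(w : ℤ)) p F) =
      ModularForm.heckeT ((w : ℤ) + 2) p (D^[w + 1] F) := by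
  have hU : MDiff (ModularForm.heckeU (-(w : ℤ)) p F) :=
    ModularForm.mdifferentiable_heckeU hF _ p
  have hDg : MDiff (F ∣[-(w : ℤ)] ModularForm.heckeDiagMatrix p) := hF.slash _ _
  have hDg' : MDiff ((p : ℂ) ^ (w + 1) • (F ∣[-(w : ℤ)] ModularForm.heckeDiagMatrix p)) :=
    hDg.const_smul _
  rw [ModularForm.heckeT_eq_heckeU_add, ModularForm.heckeT_eq_heckeU_add, smul_add,
    Fermat.Agent.S22.Bol.iterate_D_add _ (hU.const_smul _) hDg', iterate_D_heckeU w hp hF,
    Fermat.Agent.S22.Bol.iterate_D_smul _ _ hDg,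
    pow_smul_iterate_D_slash w hp hF (det_val_heckeDiagMatrix hp)]

/-- **Eichler integrals and `T_p`.** -/
theorem eichler_heckeT (w : ℕ) {p : ℕ} (hp : p ≠ 0) {F : ℍ → ℂ} (hF : MDiff F)
    (hz : IsZeroAtImInfty F) :
    MDiff ((p : ℂ) ^ (w + 1) • ModularForm.heckeT (-(w : ℤ)) p F) ∧
    D^[w + 1] ((p : ℂ) ^ (w + 1) • ModularForm.heckeT (-(w : ℤ)) p F) =
      ModularForm.heckeT ((w : ℤ) + 2) p (D^[w + 1] F) ∧
    IsZeroAtImInfty ((p : ℂ) ^ (w + 1) • ModularForm.heckeT (-(w : ℤ)) p F) :=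
  ⟨(ModularForm.mdifferentiable_heckeT hF _ p).const_smul _, iterate_D_heckeT w hp hF,
    (isZeroAtImInfty_heckeT _ p hz).smul _⟩

/-- **Eichler integrals and `U_p`.** -/
theorem eichler_heckeU (w : ℕ) {p : ℕ} (hp : p ≠ 0) {F : ℍ → ℂ} (hF : MDiff F)
    (hz : IsZeroAtImInfty F) :
    MDiff ((p : ℂ) ^ (w + 1) • ModularForm.heckeU (-(w : ℤ)) p F) ∧
    D^[w + 1] ((p : ℂ) ^ (w + 1) • ModularForm.heckeU (-(w : ℤ)) p F) =
      ModularForm.heckeU ((w : ℤ) + 2) p (D^[w + 1] F) ∧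
    IsZeroAtImInfty ((p : ℂ) ^ (w + 1) • ModularForm.heckeU (-(w : ℤ)) p F) :=
  ⟨(ModularForm.mdifferentiable_heckeU hF _ p).const_smul _, iterate_D_heckeU w hp hF,
    (isZeroAtImInfty_heckeU _ p hz).smul _⟩

end Fermat.Agent.S22.EichlerHecke2
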