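import Mathlib
import Fermat.Agent.S22.PeriodicPrimitive

/-!
# Iterated periodic primitives (leaf L1 for S22)

`exists_iterated_primitive`: a periodic holomorphic function on `ℍ` which is zero at `i∞` has,
for every `n`, an `n`-fold `D`-primitive which is again holomorphic, periodic and zero at `i∞`.
-/

set_option autoImplicit false

open UpperHalfPlane hiding I
open Filter Function Topology
open scoped Manifold Real
open Derivative

namespace Fermat.Agent.S22.IteratedPrimitive

/-- **Leaf L1.** Iterated periodic primitive, zero at `i∞`. -/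
theorem exists_iterated_primitive (n : ℕ) {g : ℍ → ℂ} {h : ℝ} (hh : 0 < h) (hg : MDiff g)
    (hper : Function.Periodic (g ∘ ofComplex) h) (hzero : IsZeroAtImInfty g) :
    ∃ G : ℍ → ℂ, MDiff G ∧ D^[n] G = g ∧ Function.Periodic (G ∘ ofComplex) h ∧
      IsZeroAtImInfty G := by
  induction n generalizing g with
  | zero => exact ⟨g, hg, rfl, hper, hzero⟩
  | succ n ih =>
    obtain ⟨G₁, hG₁, hD₁, hper₁, hz₁⟩ := exists_periodic_primitive hh hg hper hzero
    obtain ⟨G, hG, hD, hperG, hz⟩ := ih hG₁ hper₁ hz₁
    refine ⟨G, hG, ?_, hperG, hz⟩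
    rw [Function.iterate_succ_apply', hD, hD₁]

end Fermat.Agent.S22.IteratedPrimitive
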