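import Mathlib
import Fermat.Prelude.Def_ModularForm_HeckeOperator

set_option autoImplicit false

/-!
# Weight `-w` slash action on polynomials of degree `≤ w`, integrally

For a `2×2` integer matrix `M = !![a, b; c, d]` and `w : ℕ` we define the `ℂ`-linear map
`polySlash w M : ℂ[X] → ℂ[X]`, `P ↦ ∑_{j ≤ w} P.coeff j • (aX+b)^j (cX+d)^(w-j)`.
On polynomials of degree `≤ w` it is `P ↦ (cz+d)^w P((az+b)/(cz+d))`, its matrix in the monomial
basis is an integer matrix, and it computes Mathlib's slash action `∣[-w]` on polynomial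
functions on the upper half plane.
-/

namespace Fermat.Agent.S22.PolySlash

open Polynomial UpperHalfPlane
open scoped MatrixGroups ModularForm

noncomputable section

/-- The integer polynomial `(aX+b)^j (cX+d)^(w-j)` attached to a `2×2` integer matrix. -/
def basisPolyZ (w : ℕ) (M : Matrix (Fin 2) (Fin 2) ℤ) (j : ℕ) : ℤ[X] :=
  (C (M 0 0) * X + C (M 0 1)) ^ j * (C (M 1 0) * X + C (M 1 1)) ^ (w - j)

theorem natDegree_basisPolyZ_le (w : ℕ) (M : Matrix (Fin 2) (Fin 2) ℤ) {j : ℕ} (hj : j ≤ w) :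
    (basisPolyZ w M j).natDegree ≤ w := by
  unfold basisPolyZ
  have h1 : (C (M 0 0) * X + C (M 0 1) : ℤ[X]).natDegree ≤ 1 := natDegree_linear_le
  have h2 : (C (M 1 0) * X + C (M 1 1) : ℤ[X]).natDegree ≤ 1 := natDegree_linear_le
  calc ((C (M 0 0) * X + C (M 0 1)) ^ j * (C (M 1 0) * X + C (M 1 1)) ^ (w - j)).natDegree
      ≤ ((C (M 0 0) * X + C (M 0 1) : ℤ[X]) ^ j).natDegree
          + ((C (M 1 0) * X + C (M 1 1) : ℤ[X]) ^ (w - j)).natDegree := natDegree_mul_le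
    _ ≤ j * 1 + (w - j) * 1 :=
        add_le_add (natDegree_pow_le.trans (Nat.mul_le_mul_left _ h1))
          (natDegree_pow_le.trans (Nat.mul_le_mul_left _ h2))
    _ = w := by omega

/-- The "weight `-w`" right action of a `2×2` integer matrix on polynomials (meaningful on
polynomials of degree `≤ w`). -/
def polySlash (w : ℕ) (M : Matrix (Fin 2) (Fin 2) ℤ) : ℂ[X] →ₗ[ℂ] ℂ[X] where
  toFun P := ∑ j ∈ Finset.range (w + 1), P.coeff j • (basisPolyZ w M j).map (Int.castRingHom ℂ)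
  map_add' P Q := by simp only [coeff_add, add_smul, Finset.sum_add_distrib]
  map_smul' c P := by
    simp only [coeff_smul, smul_eq_mul, mul_smul, Finset.smul_sum, RingHom.id_apply]

theorem polySlash_apply (w : ℕ) (M : Matrix (Fin 2) (Fin 2) ℤ) (P : ℂ[X]) :
    polySlash w M P =
      ∑ j ∈ Finset.range (w + 1), P.coeff j • (basisPolyZ w M j).map (Int.castRingHom ℂ) := rfl

theorem natDegree_polySlash_le (w : ℕ) (M : Matrix (Fin 2) (Fin 2) ℤ) (P : ℂ[X]) :
    (polySlash w M P).natDegree ≤ w := by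
  rw [polySlash_apply]
  refine natDegree_sum_le_of_forall_le _ _ (fun j hj => ?_)
  refine (natDegree_smul_le _ _).trans (natDegree_map_le.trans ?_)
  exact natDegree_basisPolyZ_le w M (Nat.lt_succ_iff.mp (Finset.mem_range.mp hj))

/-- The matrix of `polySlash` in the monomial basis has integer entries. -/
theorem coeff_polySlash (w : ℕ) (M : Matrix (Fin 2) (Fin 2) ℤ) (P : ℂ[X]) (i : ℕ) :
    (polySlash w M P).coeff i =
      ∑ j ∈ Finset.range (w + 1), (((basisPolyZ w M j).coeff i : ℤ) : ℂ) * P.coeff j := by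
  rw [polySlash_apply, finsetSum_coeff]
  refine Finset.sum_congr rfl fun j _ => ?_
  rw [coeff_smul, coeff_map, smul_eq_mul, mul_comm]
  rfl

theorem eval_basisPolyZ (w : ℕ) (M : Matrix (Fin 2) (Fin 2) ℤ) (j : ℕ) (z : ℂ) :
    ((basisPolyZ w M j).map (Int.castRingHom ℂ)).eval z =
      ((M 0 0 : ℂ) * z + M 0 1) ^ j * ((M 1 0 : ℂ) * z + M 1 1) ^ (w - j) := by
  simp [basisPolyZ]

theorem eval_polySlash (w : ℕ) (M : Matrix (Fin 2) (Fin 2) ℤ) {P : ℂ[X]} (hP : P.natDegree ≤ w)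
    {z : ℂ} (hz : (M 1 0 : ℂ) * z + M 1 1 ≠ 0) :
    (polySlash w M P).eval z =
      ((M 1 0 : ℂ) * z + M 1 1) ^ w *
        P.eval (((M 0 0 : ℂ) * z + M 0 1) / ((M 1 0 : ℂ) * z + M 1 1)) := by
  rw [polySlash_apply, eval_finsetSum]
  conv_rhs => rw [eval_eq_sum_range' (Nat.lt_succ_of_le hP), Finset.mul_sum]
  refine Finset.sum_congr rfl fun j hj => ?_
  have hj' : j ≤ w := Nat.lt_succ_iff.mp (Finset.mem_range.mp hj)
  rw [eval_smul, eval_basisPolyZ, smul_eq_mul, div_pow]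
  have hw : ((M 1 0 : ℂ) * z + M 1 1) ^ w =
      ((M 1 0 : ℂ) * z + M 1 1) ^ j * ((M 1 0 : ℂ) * z + M 1 1) ^ (w - j) := by
    rw [← pow_add]; congr 1; omega
  generalize ((M 1 0 : ℂ) * z + M 1 1) = B at hz hw ⊢
  generalize ((M 0 0 : ℂ) * z + M 0 1) = A
  rw [hw]
  field_simp

theorem polySlash_one (w : ℕ) {P : ℂ[X]} (hP : P.natDegree ≤ w) : polySlash w 1 P = P := by
  rw [polySlash_apply]
  conv_rhs => rw [as_sum_range' P (w + 1) (Nat.lt_succ_of_le hP)]
  refine Finset.sum_congr rfl fun j _ => ?_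
  simp [basisPolyZ, ← C_mul_X_pow_eq_monomial, smul_eq_C_mul]

/-- A polynomial is determined by its values on the upper half plane. -/
theorem eq_of_eval_eq_on_upperHalfPlane {P Q : ℂ[X]}
    (h : ∀ τ : ℍ, P.eval (τ : ℂ) = Q.eval (τ : ℂ)) : P = Q := by
  apply eq_of_infinite_eval_eq
  have hinf : Set.Infinite (Set.range (fun n : ℕ => ((n : ℂ) + Complex.I))) :=
    Set.infinite_range_of_injective (fun a b hab => by simpa using hab)
  refine hinf.mono ?_
  rintro _ ⟨n, rfl⟩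
  exact h ⟨(n : ℂ) + Complex.I, by simp⟩

/-- `polySlash` computes the weight `-w` slash action of an integral matrix of positive
determinant on polynomial functions of degree `≤ w`. -/
theorem slash_eval_GL (w : ℕ) (g : GL (Fin 2) ℝ) (M : Matrix (Fin 2) (Fin 2) ℤ)
    (hM : ∀ i j, (g : Matrix (Fin 2) (Fin 2) ℝ) i j = (M i j : ℝ)) (hdet : 0 < g.det.val)
    {P : ℂ[X]} (hP : P.natDegree ≤ w) :
    (fun τ : ℍ => P.eval (τ : ℂ)) ∣[-(w : ℤ)] g =
      fun τ : ℍ => ((g.det.val : ℝ) : ℂ) ^ (-(w : ℤ) - 1) * (polySlash w M P).eval (τ : ℂ) := by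
  funext τ
  rw [ModularForm.slash_apply]
  have hσ : σ g = ContinuousAlgEquiv.refl ℝ ℂ := by rw [σ, if_pos hdet]
  have hden : denom g τ = (M 1 0 : ℂ) * τ + M 1 1 := by simp [denom, hM]
  have hnum : num g τ = (M 0 0 : ℂ) * τ + M 0 1 := by simp [num, hM]
  have hden0 : (M 1 0 : ℂ) * τ + M 1 1 ≠ 0 := hden ▸ denom_ne_zero g τ
  rw [eval_polySlash w M hP hden0, coe_smul_of_det_pos hdet, hσ, hnum, hden, abs_of_pos hdet]
  simp only [ContinuousAlgEquiv.refl_apply, neg_neg, zpow_natCast]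
  ring

/-- `polySlash` computes the weight `-w` slash action of `SL(2, ℤ)` on polynomial functions of
degree `≤ w`. -/
theorem slash_eval_SL (w : ℕ) (γ : SL(2, ℤ)) {P : ℂ[X]} (hP : P.natDegree ≤ w) :
    (fun τ : ℍ => P.eval (τ : ℂ)) ∣[-(w : ℤ)] γ =
      fun τ : ℍ => (polySlash w (γ : Matrix (Fin 2) (Fin 2) ℤ) P).eval (τ : ℂ) := by
  rw [ModularForm.SL_slash, slash_eval_GL w (γ : GL (Fin 2) ℝ) (γ : Matrix (Fin 2) (Fin 2) ℤ)
    (fun i j => by simp) (by simp) hP]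
  funext τ
  simp

/-- `polySlash` for the Hecke coset representative `!![1, j; 0, p]`. -/
theorem slash_eval_heckeMatrix (w : ℕ) {p : ℕ} (hp : p ≠ 0) (j : ℕ) {P : ℂ[X]}
    (hP : P.natDegree ≤ w) :
    (p : ℂ) ^ (w + 1) • ((fun τ : ℍ => P.eval (τ : ℂ)) ∣[-(w : ℤ)] ModularForm.heckeMatrix p j) =
      fun τ : ℍ => (polySlash w !![1, (j : ℤ); 0, (p : ℤ)] P).eval (τ : ℂ) := by
  have hp' : (p : ℂ) ≠ 0 := by exact_mod_cast hp
  rw [slash_eval_GL w (ModularForm.heckeMatrix p j) !![1, (j : ℤ); 0, (p : ℤ)]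
    (fun i j' => by
      rw [ModularForm.val_heckeMatrix hp]
      fin_cases i <;> fin_cases j' <;> simp)
    (ModularForm.det_heckeMatrix_pos p j) hP, ModularForm.det_heckeMatrix hp]
  funext τ
  simp only [Pi.smul_apply, smul_eq_mul, Complex.ofReal_natCast]
  rw [← mul_assoc, ← zpow_natCast, ← zpow_add₀ hp']
  simp

/-- `polySlash` for the Hecke coset representative `!![p, 0; 0, 1]`. -/
theorem slash_eval_heckeDiagMatrix (w : ℕ) {p : ℕ} (hp : p ≠ 0) {P : ℂ[X]}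
    (hP : P.natDegree ≤ w) :
    (p : ℂ) ^ (w + 1) • ((fun τ : ℍ => P.eval (τ : ℂ)) ∣[-(w : ℤ)] ModularForm.heckeDiagMatrix p) =
      fun τ : ℍ => (polySlash w !![(p : ℤ), 0; 0, 1] P).eval (τ : ℂ) := by
  have hp' : (p : ℂ) ≠ 0 := by exact_mod_cast hp
  rw [slash_eval_GL w (ModularForm.heckeDiagMatrix p) !![(p : ℤ), 0; 0, 1]
    (fun i j' => by
      rw [ModularForm.val_heckeDiagMatrix hp]
      fin_cases i <;> fin_cases j' <;> simp)
    (ModularForm.det_heckeDiagMatrix_pos p) hP, ModularForm.det_heckeDiagMatrix hp]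
  funext τ
  simp only [Pi.smul_apply, smul_eq_mul, Complex.ofReal_natCast]
  rw [← mul_assoc, ← zpow_natCast, ← zpow_add₀ hp']
  simp

theorem natDegree_le_of_degree_lt {q : ℂ[X]} {w : ℕ}
    (h : q.degree < ((w + 1 : ℕ) : WithBot ℕ)) : q.natDegree ≤ w := by
  by_cases hq : q = 0
  · simp [hq]
  · exact Nat.lt_succ_iff.mp ((natDegree_lt_iff_degree_lt hq).mpr h)

theorem degree_lt_of_natDegree_le {q : ℂ[X]} {w : ℕ} (h : q.natDegree ≤ w) :
    q.degree < ((w + 1 : ℕ) : WithBot ℕ) :=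
  lt_of_le_of_lt (degree_le_of_natDegree_le h) (by exact_mod_cast Nat.lt_succ_self w)

/-- The integer matrix of `polySlash w M` in the monomial basis `1, X, …, X^w`. -/
def polySlashMatrix (w : ℕ) (M : Matrix (Fin 2) (Fin 2) ℤ) :
    Matrix (Fin (w + 1)) (Fin (w + 1)) ℤ :=
  fun i l => (basisPolyZ w M l).coeff i

theorem coeff_polySlash_fin (w : ℕ) (M : Matrix (Fin 2) (Fin 2) ℤ) (P : ℂ[X])
    (i : Fin (w + 1)) :
    (polySlash w M P).coeff i = ∑ l, polySlashMatrix w M i l • P.coeff l := by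
  rw [coeff_polySlash, Finset.sum_range]
  refine Finset.sum_congr rfl fun l _ => ?_
  rw [zsmul_eq_mul]
  rfl

/-- Existential packaging: the weight `-w` slash by an integral matrix of positive determinant
acts on polynomials of degree `≤ w` through an integer matrix (up to the power of the
determinant). -/
theorem slash_polynomial_GL (w : ℕ) (g : GL (Fin 2) ℝ) (M : Matrix (Fin 2) (Fin 2) ℤ)
    (hM : ∀ i j, (g : Matrix (Fin 2) (Fin 2) ℝ) i j = (M i j : ℝ)) (hdet : 0 < g.det.val) :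
    ∃ κ : Matrix (Fin (w + 1)) (Fin (w + 1)) ℤ, ∀ q : ℂ[X],
      q.degree < ((w + 1 : ℕ) : WithBot ℕ) →
      ∃ q' : ℂ[X], q'.degree < ((w + 1 : ℕ) : WithBot ℕ) ∧
        (∀ i : Fin (w + 1), q'.coeff i = ∑ l, κ i l • q.coeff l) ∧
        (fun z : ℍ => q.eval (z : ℂ)) ∣[-(w : ℤ)] g =
          fun z : ℍ => ((g.det.val : ℝ) : ℂ) ^ (-(w : ℤ) - 1) * q'.eval (z : ℂ) :=
  ⟨polySlashMatrix w M, fun q hq =>
    ⟨polySlash w M q, degree_lt_of_natDegree_le (natDegree_polySlash_le _ _ _),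
      fun i => coeff_polySlash_fin _ _ _ i,
      slash_eval_GL w g M hM hdet (natDegree_le_of_degree_lt hq)⟩⟩

/-- Integrality of `p^(w+1) • (· ∣[-w] heckeMatrix p j)` on polynomials of degree `≤ w`
(existential form used by the assembly). -/
theorem heckeMatrix_slash_polynomial (w : ℕ) {p : ℕ} (hp : p ≠ 0) (j : ℕ) :
    ∃ κ : Matrix (Fin (w + 1)) (Fin (w + 1)) ℤ, ∀ q : Polynomial ℂ,
      q.degree < ((w + 1 : ℕ) : WithBot ℕ) →
      ∃ q' : Polynomial ℂ, q'.degree < ((w + 1 : ℕ) : WithBot ℕ) ∧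
        (∀ i : Fin (w + 1), q'.coeff i = ∑ l, κ i l • q.coeff l) ∧
        (p : ℂ) ^ (w + 1) •
            ((fun z : ℍ => q.eval (z : ℂ)) ∣[-(w : ℤ)] ModularForm.heckeMatrix p j) =
          fun z : ℍ => q'.eval (z : ℂ) :=
  ⟨polySlashMatrix w !![1, (j : ℤ); 0, (p : ℤ)], fun q hq =>
    ⟨polySlash w !![1, (j : ℤ); 0, (p : ℤ)] q,
      degree_lt_of_natDegree_le (natDegree_polySlash_le _ _ _),
      fun i => coeff_polySlash_fin _ _ _ i,
      slash_eval_heckeMatrix w hp j (natDegree_le_of_degree_lt hq)⟩⟩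

/-- Integrality of `p^(w+1) • (· ∣[-w] heckeDiagMatrix p)` on polynomials of degree `≤ w`
(existential form used by the assembly). -/
theorem heckeDiagMatrix_slash_polynomial (w : ℕ) {p : ℕ} (hp : p ≠ 0) :
    ∃ κ : Matrix (Fin (w + 1)) (Fin (w + 1)) ℤ, ∀ q : Polynomial ℂ,
      q.degree < ((w + 1 : ℕ) : WithBot ℕ) →
      ∃ q' : Polynomial ℂ, q'.degree < ((w + 1 : ℕ) : WithBot ℕ) ∧
        (∀ i : Fin (w + 1), q'.coeff i = ∑ l, κ i l • q.coeff l) ∧
        (p : ℂ) ^ (w + 1) •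
            ((fun z : ℍ => q.eval (z : ℂ)) ∣[-(w : ℤ)] ModularForm.heckeDiagMatrix p) =
          fun z : ℍ => q'.eval (z : ℂ) :=
  ⟨polySlashMatrix w !![(p : ℤ), 0; 0, 1], fun q hq =>
    ⟨polySlash w !![(p : ℤ), 0; 0, 1] q,
      degree_lt_of_natDegree_le (natDegree_polySlash_le _ _ _),
      fun i => coeff_polySlash_fin _ _ _ i,
      slash_eval_heckeDiagMatrix w hp (natDegree_le_of_degree_lt hq)⟩⟩

end

end Fermat.Agent.S22.PolySlash
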